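import Fermat.Agent.FFM.Descent
import Fermat.Agent.Flat.Global
import Fermat.Agent.CFT.Loc.UnrGlob
import Fermat.Agent.Red.XZero

/-!
# Arithmetic of places of `ℚ̄` over `ℓ`
-/

set_option autoImplicit false
set_option linter.unusedSectionVars false
set_option linter.style.haveILetI false

open Fermat.Agent.CFT.Loc
open scoped Pointwise

noncomputable section

namespace Fermat.Agent.FFM

local notation "Qb" => AlgebraicClosure ℚ
local notation "GalQ" => (AlgebraicClosure ℚ ≃ₐ[ℚ] AlgebraicClosure ℚ)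

section

variable {ℓ : ℕ} [hℓ : Fact ℓ.Prime] {A : ValuationSubring Qb} (hA : A.LiesOverPrime ℓ)

include hA

theorem rankOne_of_liesOverPrime : RankOne A := by
  obtain ⟨g, rfl⟩ := exists_eq_smul_padicPlace ℓ hA
  intro a ha D hD hD0
  rw [mem_nonunits_smul_padicPlace_iff] at ha
  have hD1 : 0 < ‖jg ℓ g D‖ := norm_pos_iff.2 ((_root_.map_ne_zero _).2 hD0)
  obtain ⟨n, hn⟩ := exists_pow_lt_of_lt_one hD1 ha
  refine ⟨n, a ^ n / D, ?_, by field_simp⟩
  rw [mem_smul_padicPlace_iff, map_div₀, map_pow, norm_div, norm_pow]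
  rw [div_le_one hD1]
  exact hn.le

theorem natCast_mem_nonunits : (ℓ : Qb) ∈ A.nonunits := hA

/-- `ℓ` is a uniformizer of the inertia field. -/
theorem dvdA_of_isInv {a : Qb} (ha : IsInv (A.inertiaSubgroupIn ℚ) A a) (han : a ∈ A.nonunits) :
    DvdA A (ℓ : Qb) a := by
  rcases eq_or_ne a 0 with rfl | ha0
  · exact DvdA.zero
  obtain ⟨n, hn1, hn2⟩ := exists_zpow_of_inertia hℓ.out hA ha0
    (fun τ hτ => ha.2 ⟨τ, hτ⟩)
  have hℓ0 : (ℓ : Qb) ≠ 0 := by exact_mod_cast hℓ.out.ne_zero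
  have hℓA : (ℓ : Qb) ∈ A := natCast_mem A ℓ
  have hn : 1 ≤ n := by
    by_contra hlt
    push Not at hlt
    -- then `a` would be a unit
    have h1 : a⁻¹ ∈ A := by
      have h2 : a⁻¹ = (a * (ℓ : Qb) ^ (-n))⁻¹ * (ℓ : Qb) ^ (-n) := by
        have := zpow_ne_zero (-n) hℓ0
        field_simp
      rw [h2]
      refine mul_mem hn2 ?_
      obtain ⟨m, hm⟩ : ∃ m : ℕ, -n = m := ⟨(-n).toNat, by omega⟩
      rw [hm, zpow_natCast]
      exact pow_mem hℓA m
    rw [Frob.mem_nonunits_iff_inv] at han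
    rcases han with h | h
    · exact ha0 h
    · exact h h1
  obtain ⟨m, hm⟩ : ∃ m : ℕ, n = m + 1 := ⟨(n - 1).toNat, by omega⟩
  refine ⟨a * (ℓ : Qb) ^ (-n) * (ℓ : Qb) ^ m, mul_mem hn1 (pow_mem hℓA m), ?_⟩
  rw [hm]
  rw [zpow_neg, zpow_add₀ hℓ0, zpow_natCast, zpow_one]
  have := pow_ne_zero m hℓ0
  field_simp

/-- rational elements of `A`. -/
theorem exists_ratLocalizedAt {a : Qb} (ha : a ∈ A) (hG : ∀ g : GalQ, g • a = a) :
    ∃ r : GaloisRep.ratLocalizedAt ℓ, algebraMap (GaloisRep.ratLocalizedAt ℓ) Qb r = a := by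
  have : a ∈ Set.range (algebraMap ℚ Qb) := by
    rw [InfiniteGalois.mem_range_algebraMap_iff_fixed]
    exact hG
  obtain ⟨q, rfl⟩ := this
  refine ⟨⟨q, ?_⟩, rfl⟩
  change q.den.Coprime ℓ
  rw [Nat.coprime_comm, Nat.Prime.coprime_iff_not_dvd hℓ.out]
  intro hdvd
  -- `q.num` would be a nonunit
  have h1 : ((q.num : ℤ) : Qb) ∈ A.nonunits := by
    obtain ⟨e, he⟩ := hdvd
    have h2 : ((q.num : ℤ) : Qb) = (algebraMap ℚ Qb q * e) * ℓ := by
      have h3 : (q : ℚ) * q.den = q.num := Rat.mul_den_eq_num q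
      have h4 := congrArg (algebraMap ℚ Qb) h3
      rw [map_mul, map_natCast, map_intCast, he] at h4
      rw [← h4]
      push_cast
      ring
    rw [h2, ValuationSubring.mem_nonunits_iff, map_mul, mul_comm]
    refine mul_lt_one_of_lt_of_le ((ValuationSubring.mem_nonunits_iff _).1 hA)
      ((A.valuation_le_one_iff _).2 (mul_mem ha (natCast_mem A e)))
  have h2 : ¬ (ℓ : ℤ) ∣ q.num := by
    intro h3
    have h4 : (ℓ : ℤ) ∣ q.den := by exact_mod_cast hdvd
    have h5 := q.reduced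
    rw [Nat.coprime_iff_gcd_eq_one] at h5
    have h6 : ℓ ∣ Nat.gcd q.num.natAbs q.den :=
      Nat.dvd_gcd (Int.natCast_dvd.mp h3) hdvd
    rw [h5, Nat.dvd_one] at h6
    exact hℓ.out.one_lt.ne' h6
  exact Frob.natCast_notMem_nonunits A hℓ.out hA h2 h1

theorem descData {σ : GalQ} (hσ : A.IsFrobeniusAt σ ℓ) :
    DescData (GaloisRep.ratLocalizedAt ℓ) (A.inertiaSubgroupIn ℚ) A ℓ σ := by
  rw [Frob.isFrobeniusAt_iff] at hσ
  refine ⟨rankOne_of_liesOverPrime hA, hℓ.out, hA, by exact_mod_cast hℓ.out.ne_zero,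
    fun a h1 h2 => dvdA_of_isInv hA h1 h2, fun g hg a ha => ?_, hσ.2, fun a ha => ?_,
    fun r => ?_, fun a ha hG => exists_ratLocalizedAt hA ha hG⟩
  · rw [Frob.mem_inertiaSubgroupIn_iff] at hg
    exact (Frob.apply_mem_iff hg.1).2 ha
  · refine ⟨(Frob.apply_mem_iff hσ.1).2 ha.1, fun γ => ?_⟩
    have h1 : σ⁻¹ * γ * σ ∈ A.inertiaSubgroupIn ℚ := by
      have hγ := (Frob.mem_inertiaSubgroupIn_iff A (γ : GalQ)).1 γ.2
      rw [Frob.mem_inertiaSubgroupIn_iff]
      refine ⟨mul_mem (mul_mem (inv_mem hσ.1) hγ.1) hσ.1, fun x hx => ?_⟩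
      have h2 : (σ⁻¹ * (γ : GalQ) * σ) x - x = σ⁻¹ ((γ : GalQ) (σ x) - σ x) := by
        rw [map_sub]
        congr 1
        exact (σ.symm_apply_apply x).symm
      rw [h2, Frob.apply_mem_nonunits_iff (inv_mem hσ.1)]
      exact hγ.2 _ ((Frob.apply_mem_iff hσ.1).2 hx)
    have h2 := ha.2 ⟨_, h1⟩
    change (σ⁻¹ * (γ : GalQ) * σ) • a = a at h2
    rw [mul_assoc, mul_smul, inv_smul_eq_iff, mul_smul] at h2
    exact h2
  · -- denominators are prime to `ℓ`
    have h1 : ((r : ℚ).den : Qb) ∉ A.nonunits := by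
      have h2 : ¬ (ℓ : ℤ) ∣ ((r : ℚ).den : ℤ) := by
        intro h3
        have h4 : ℓ ∣ (r : ℚ).den := by exact_mod_cast h3
        have h5 : (r : ℚ).den.Coprime ℓ := r.2
        rw [Nat.coprime_comm, Nat.Prime.coprime_iff_not_dvd hℓ.out] at h5
        exact h5 h4
      have := Frob.natCast_notMem_nonunits A hℓ.out hA h2
      simpa using this
    have h2 : ((r : ℚ).den : Qb)⁻¹ ∈ A := by
      by_contra hcon
      exact h1 ((Frob.mem_nonunits_iff_inv A).2 (Or.inr hcon))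
    have h3 : algebraMap (GaloisRep.ratLocalizedAt ℓ) Qb r =
        ((r : ℚ).num : Qb) * ((r : ℚ).den : Qb)⁻¹ := by
      change algebraMap ℚ Qb (r : ℚ) = _
      conv_lhs => rw [← Rat.num_div_den (r : ℚ)]
      rw [map_div₀, map_natCast, map_intCast, div_eq_mul_inv]
    rw [h3]
    exact mul_mem (intCast_mem A _) h2

end

section Lift

variable {k : Type*} [Field k] {ℓ : ℕ} [hℓ : Fact ℓ.Prime]

theorem exists_pow_eq_one [CharP k ℓ] {c : k} (hc : IsIntegral ℤ c) (hc0 : c ≠ 0) :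
    ∃ m : ℕ, 0 < m ∧ (m : k) ≠ 0 ∧ c ^ m = 1 := by
  letI : Algebra (ZMod ℓ) k := ZMod.algebra k ℓ
  have h1 : IsIntegral (ZMod ℓ) c := by
    obtain ⟨p, hp, hpc⟩ := hc
    refine ⟨p.map (Int.castRingHom (ZMod ℓ)), hp.map _, ?_⟩
    rw [Polynomial.eval₂_map]
    have : (algebraMap (ZMod ℓ) k).comp (Int.castRingHom (ZMod ℓ)) = algebraMap ℤ k :=
      RingHom.ext_int _ _
    rw [this]
    exact hpc
  haveI := IntermediateField.adjoin.finiteDimensional h1
  haveI : Finite (IntermediateField.adjoin (ZMod ℓ) {c}) := Module.finite_of_finite (ZMod ℓ)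
  haveI : Fintype (IntermediateField.adjoin (ZMod ℓ) {c}) := Fintype.ofFinite _
  have hgen := IntermediateField.mem_adjoin_simple_self (ZMod ℓ) c
  have h2 := FiniteField.pow_card_sub_one_eq_one (K := IntermediateField.adjoin (ZMod ℓ) {c})
    ⟨c, hgen⟩ (fun h => hc0 (congrArg Subtype.val h))
  have h3 : 1 < Fintype.card (IntermediateField.adjoin (ZMod ℓ) {c}) := Fintype.one_lt_card
  refine ⟨Fintype.card (IntermediateField.adjoin (ZMod ℓ) {c}) - 1, by omega, ?_,
    congrArg Subtype.val h2⟩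
  have h4 : ((Fintype.card (IntermediateField.adjoin (ZMod ℓ) {c}) : ℕ) :
      IntermediateField.adjoin (ZMod ℓ) {c}) = 0 := FiniteField.cast_card_eq_zero _
  have h5 : ((Fintype.card (IntermediateField.adjoin (ZMod ℓ) {c}) : ℕ) : k) = 0 := by
    have := congrArg (algebraMap (IntermediateField.adjoin (ZMod ℓ) {c}) k) h4
    rwa [map_natCast, map_zero] at this
  rw [Nat.cast_sub h3.le, h5, zero_sub, Nat.cast_one]
  exact neg_ne_zero.mpr one_ne_zero

variable {A : ValuationSubring Qb} {π : A →+* k}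
  (hA : A.LiesOverPrime ℓ) (hπ : ∀ a : A, π a = 0 ↔ ¬ IsUnit a)
  (hs : Function.Surjective π)

include hπ in
theorem pi_eq_zero_iff_mem_nonunits {a : Qb} (ha : a ∈ A) :
    π ⟨a, ha⟩ = 0 ↔ a ∈ A.nonunits := by
  rw [hπ, ValuationSubring.mem_nonunits_iff_exists_mem_maximalIdeal]
  constructor
  · intro h
    exact ⟨ha, (IsLocalRing.mem_maximalIdeal _).2 h⟩
  · rintro ⟨_, h⟩
    exact (IsLocalRing.mem_maximalIdeal _).1 h

include hA hπ hs in
/-- Teichmüller lifts: the inertia field has the full residue field. -/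
theorem exists_lift_inertia (c : k) :
    ∃ (a : Qb) (h : IsInv (A.inertiaSubgroupIn ℚ) A a), π ⟨a, h.1⟩ = c := by
  haveI := Red.charP_of_liesOverPrime hA hπ
  rcases eq_or_ne c 0 with rfl | hc0
  · exact ⟨0, IsInv.zero, map_zero π⟩
  obtain ⟨x, rfl⟩ := hs c
  obtain ⟨y, hy⟩ := Frob.exists_integral_sub_mem A hℓ.out hA x.2
  have hyA : (y : Qb) ∈ A := Frob.mem_of_isIntegral A y.2
  have hxy : π x = π ⟨y, hyA⟩ := by
    have h1 := (pi_eq_zero_iff_mem_nonunits hπ (sub_mem x.2 hyA)).2 hy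
    rw [← sub_eq_zero, ← map_sub]
    exact h1
  have hint : IsIntegral ℤ (π x) := by
    rw [hxy]
    obtain ⟨p, hp, hpy⟩ := (y.2 : IsIntegral ℤ (y : Qb))
    refine ⟨p, hp, ?_⟩
    have h1 : Polynomial.eval₂ (algebraMap ℤ A) (⟨y, hyA⟩ : A) p = 0 := by
      apply Subtype.ext
      have h2 := Polynomial.hom_eval₂ p (algebraMap ℤ A) A.subtype (⟨y, hyA⟩ : A)
      rw [show A.subtype.comp (algebraMap ℤ A) = algebraMap ℤ Qb from RingHom.ext_int _ _] at h2
      exact h2.trans hpy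
    have h3 := Polynomial.hom_eval₂ p (algebraMap ℤ A) π (⟨y, hyA⟩ : A)
    rw [h1, map_zero, show π.comp (algebraMap ℤ A) = algebraMap ℤ k from RingHom.ext_int _ _] at h3
    exact h3.symm
  obtain ⟨m, hm0, hmk, hm⟩ := exists_pow_eq_one (ℓ := ℓ) hint hc0
  obtain ⟨a, ha, haπ⟩ := Red.exists_root hπ hs (Polynomial.X ^ m - 1) (by
    rw [Polynomial.map_sub, Polynomial.map_pow, Polynomial.map_X, Polynomial.map_one]
    exact (Polynomial.monic_X_pow_sub_C (1 : k) hm0.ne').ne_zero) (ā := π x) (by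
    rw [Polynomial.IsRoot.def, Polynomial.map_sub, Polynomial.map_pow, Polynomial.map_X,
      Polynomial.map_one, Polynomial.eval_sub, Polynomial.eval_pow, Polynomial.eval_X,
      Polynomial.eval_one, hm, sub_self])
  rw [Polynomial.eval_sub, Polynomial.eval_pow, Polynomial.eval_X, Polynomial.eval_one,
    sub_eq_zero] at ha
  have haK : (a : Qb) ^ m = 1 := congrArg Subtype.val ha
  have ha0 : (a : Qb) ≠ 0 := by
    intro h
    rw [h, zero_pow hm0.ne'] at haK
    exact zero_ne_one haK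
  refine ⟨a, ⟨a.2, fun γ => ?_⟩, haπ⟩
  have hγ := (Frob.mem_inertiaSubgroupIn_iff A (γ : GalQ)).1 γ.2
  change (γ : GalQ) a = a
  have hγA : (γ : GalQ) a ∈ A := (Frob.apply_mem_iff hγ.1).2 a.2
  have haunit : IsUnit a := IsUnit.of_pow_eq_one ha hm0.ne'
  obtain ⟨b, hb⟩ := haunit.exists_right_inv
  let η : A := ⟨_, hγA⟩ * b
  have hη : η ^ m = 1 := by
    apply Subtype.ext
    have h1 : ((γ : GalQ) a) ^ m = 1 := by rw [← map_pow, haK, map_one]
    have h2 : (b : Qb) ^ m = 1 := by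
      have h3 : (a * b) ^ m = 1 := by rw [hb, one_pow]
      rw [mul_pow, ha, one_mul] at h3
      exact congrArg Subtype.val h3
    change ((γ : GalQ) a * b) ^ m = 1
    rw [mul_pow, h1, h2, one_mul]
  have hπη : π η = 1 := by
    have h1 : π ⟨_, hγA⟩ = π a := by
      have h2 := (pi_eq_zero_iff_mem_nonunits hπ (sub_mem hγA a.2)).2 (hγ.2 a a.2)
      rw [← sub_eq_zero, ← map_sub]
      exact h2
    change π (_ * b) = 1
    rw [map_mul, h1, ← map_mul, hb, map_one]
  have hη1 : η = 1 := by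
    by_contra hne
    have h1 := geom_sum_mul η m
    rw [hη, sub_self] at h1
    have h2 := (mul_eq_zero.mp h1).resolve_right (sub_ne_zero.mpr hne)
    have h3 := congrArg π h2
    rw [map_sum, map_zero] at h3
    simp only [map_pow, hπη, one_pow, Finset.sum_const, Finset.card_range, nsmul_eq_mul,
      mul_one] at h3
    exact hmk h3
  have h4 : (⟨_, hγA⟩ : A) = a := by
    have h5 : (⟨_, hγA⟩ : A) * b * a = a := by rw [show (⟨_, hγA⟩ : A) * b = 1 from hη1, one_mul]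
    rw [mul_assoc, mul_comm b a, hb, mul_one] at h5
    exact h5
  exact congrArg Subtype.val h4

end Lift

end Fermat.Agent.FFM
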