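import Fermat.Agent.FFM.Taylor

/-!
# The chord construction over function orders
-/

set_option autoImplicit false
set_option linter.unusedSectionVars false
set_option linter.style.haveILetI false

open AlgebraicCurve Fermat.Agent.FF Fermat.Agent.RR Fermat.Agent.Red

namespace Fermat.Agent.FFM

variable {K k : Type*} [Field K] [Field k] [IsAlgClosed K] [IsAlgClosed k] [CharZero K]
  {A : ValuationSubring K} {π : A →+* k}
  {F Fk : Type*} [Field F] [Algebra K F] [Field Fk] [Algebra k Fk] [IsFnField K F]
  [IsFnField k Fk] {R : ConstRed A π F Fk}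
  {Γ : Type*} [Group Γ] [MulSemiringAction Γ K]

/-- The full geometric input. -/
structure Geo (S : Spec R) (ρ : Γ →* SemilinearAut K F) : Prop extends GeoBase S ρ where
  lift : ∀ c : k, ∃ (a : K) (h : IsInv Γ A a), π ⟨a, h.1⟩ = c
  orth : ∀ D : Divisor K F, ∃ (r : ℕ) (v : Fin r → F) (u : Fin r → Fk), Orth R v u ∧
    Submodule.span K (Set.range v) = riemannRochSpace D
  orth_inv : ∀ D : Divisor K F, (∀ g, ρ g • D = D) →
    ∃ (r : ℕ) (v : Fin r → F) (u : Fin r → Fk), Orth R v u ∧
      Submodule.span K (Set.range v) = riemannRochSpace D ∧ ∀ g i, ρ g • v i = v i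
  genus_eq : genusFF K F = genusFF k Fk

variable {S : Spec R} {ρ : Γ →* SemilinearAut K F}

/-- push-forward of divisors to the reduction -/
noncomputable abbrev push (S : Spec R) (D : Divisor K F) : Divisor k Fk := Finsupp.mapDomain S.r D

theorem push_add (D E : Divisor K F) : push S (D + E) = push S D + push S E :=
  Finsupp.mapDomain_add

theorem push_sub (D E : Divisor K F) : push S (D - E) = push S D - push S E := by
  rw [eq_sub_iff_add_eq, ← push_add, sub_add_cancel]

theorem push_single (P : Place K F) (n : ℤ) :
    push S (Finsupp.single P n) = Finsupp.single (S.r P) n := Finsupp.mapDomain_single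

theorem degree_push (D : Divisor K F) : Divisor.degree (push S D) = Divisor.degree D := by
  induction D using Finsupp.induction with
  | zero => simp [push]
  | single_add P n D _ _ ih =>
    rw [push_add, map_add, map_add, ih, push_single, RR.degree_single', RR.degree_single']

theorem push_mono {D E : Divisor K F} (h : D ≤ E) : push S D ≤ push S E := by
  classical
  have h1 : push S E = push S D + push S (E - D) := by rw [← push_add, add_sub_cancel]
  rw [h1]
  refine le_add_of_nonneg_right ?_
  intro Q
  change (0 : ℤ) ≤ _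
  rw [push, mapDomain_apply_sum]
  refine Finset.sum_nonneg fun P _ => ?_
  have := h P
  rw [Finsupp.sub_apply]
  omega

/-- compatibility with divisors of functions -/
theorem push_divOf {f : F} {z : Fk} (h : R.IsRed f z) (hz : z ≠ 0) :
    push S (RR.divOf f) = RR.divOf z := by
  ext Q
  exact S.ord_eq f z h hz (RR.divOf f) (fun _ => rfl) Q

/-- reduction maps `L(D)` to `L(r_* D)`. -/
theorem mem_L_of_isRed {D : Divisor K F} {f : F} {z : Fk} (h : R.IsRed f z)
    (hf : f ∈ riemannRochSpace D) : z ∈ riemannRochSpace (push S D) := by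
  rcases eq_or_ne z 0 with rfl | hz
  · exact Submodule.zero_mem _
  have hf0 := h.ne_zero hz
  rw [mem_riemannRochSpace_iff_divOf hf0] at hf
  rw [mem_riemannRochSpace_iff_divOf hz, ← push_divOf (S := S) h hz, ← push_add]
  have h1 := push_mono (S := S) hf
  simpa [push] using h1

theorem Orth.card_eq {D : Divisor K F} {r : ℕ} {v : Fin r → F} {u : Fin r → Fk}
    (h : Orth R v u) (hs : Submodule.span K (Set.range v) = riemannRochSpace D) : r = ell D := by
  unfold ell
  rw [← hs, finrank_span_eq_card h.linearIndependent, Fintype.card_fin]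

theorem Orth.span_eq {D : Divisor K F} {r : ℕ} {v : Fin r → F} {u : Fin r → Fk}
    (h : Orth R v u) (hs : Submodule.span K (Set.range v) = riemannRochSpace D)
    (hl : ell D = ell (push S D)) :
    Submodule.span k (Set.range u) = riemannRochSpace (push S D) := by
  apply Submodule.eq_of_le_of_finrank_eq
  · rw [Submodule.span_le]
    rintro _ ⟨i, rfl⟩
    apply mem_L_of_isRed (h.isRed i)
    rw [← hs]
    exact Submodule.subset_span ⟨i, rfl⟩
  · rw [finrank_span_eq_card h.indep, Fintype.card_fin]
    exact (Orth.card_eq h hs).trans hl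

variable (G : Geo S ρ)

include G

theorem Geo.ell_le (D : Divisor K F) : ell D ≤ ell (push S D) := by
  obtain ⟨r, v, u, h, hs⟩ := G.orth D
  rw [← Orth.card_eq h hs]
  have h1 : Submodule.span k (Set.range u) ≤ riemannRochSpace (push S D) := by
    rw [Submodule.span_le]
    rintro _ ⟨i, rfl⟩
    apply mem_L_of_isRed (h.isRed i)
    rw [← hs]
    exact Submodule.subset_span ⟨i, rfl⟩
  have h2 := Submodule.finrank_mono h1
  rwa [finrank_span_eq_card h.indep, Fintype.card_fin] at h2

theorem Geo.ell_eq_of_lt {D : Divisor K F} (h : 2 * (genusFF k Fk : ℤ) - 2 < Divisor.degree D) :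
    ell D = ell (push S D) := by
  have h1 := ell_eq_of_lt_degree (D := D) (by rw [G.genus_eq]; exact h)
  have h2 := ell_eq_of_lt_degree (D := push S D) (by rw [degree_push]; exact h)
  rw [degree_push, ← G.genus_eq] at h2
  omega

/-- invariant lifts of functions -/
theorem Geo.exists_lift {D : Divisor K F} (hD : ∀ g, ρ g • D = D) (hl : ell D = ell (push S D))
    {z : Fk} (hz : z ∈ riemannRochSpace (push S D)) :
    ∃ f ∈ riemannRochSpace D, R.IsRed f z ∧ ∀ g, ρ g • f = f := by
  obtain ⟨r, v, u, h, hs, hinv⟩ := G.orth_inv D hD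
  rw [← Orth.span_eq h hs hl, Submodule.mem_span_range_iff_exists_fun] at hz
  obtain ⟨c, rfl⟩ := hz
  choose a ha hac using fun i => G.lift (c i)
  refine ⟨∑ i, algebraMap K F (a i) * v i, ?_, ?_, fun g => ?_⟩
  · rw [← hs]
    refine Submodule.sum_mem _ fun i _ => ?_
    rw [← Algebra.smul_def]
    exact Submodule.smul_mem _ _ (Submodule.subset_span ⟨i, rfl⟩)
  · refine ConstRed.isRed_sum _ fun i _ => ?_
    rw [Algebra.smul_def]
    refine ConstRed.IsRed.mul ?_ (h.isRed i)
    have := R.isRed_algebraMap (ha i).1
    rwa [hac i] at this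
  · rw [Finset.smul_sum]
    refine Finset.sum_congr rfl fun i _ => ?_
    rw [smul_mul', G.smul_algebraMap, (ha i).2, hinv]

omit G

/-- the divisor of a finite set of places. -/
noncomputable def sumDiv {L E : Type*} [Field L] [Field E] [Algebra L E] (s : Finset (Place L E)) :
    Divisor L E := ∑ Q ∈ s, Finsupp.single Q 1

theorem sumDiv_apply {L E : Type*} [Field L] [Field E] [Algebra L E] [DecidableEq (Place L E)]
    (s : Finset (Place L E)) (Q : Place L E) : sumDiv s Q = if Q ∈ s then 1 else 0 := by
  rw [sumDiv, Finsupp.finsetSum_apply]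
  simp only [Finsupp.single_apply]
  rw [Finset.sum_ite_eq' s Q]

section System

variable {X : Type*} [MulAction Γ X] [Fintype X] {T : Subring (X → K)}

/-- Solving linear systems which are congruent to the identity over function orders. -/
theorem solve_mem (hT : FunOrder Γ A T) {n : Type*} [Fintype n] [DecidableEq n]
    (M : n → n → X → K) (hM : ∀ i j, M i j ∈ T) (m : n → X → K) (hm : ∀ i, m i ∈ T)
    (hM1 : ∀ i j x, M i j x - (if i = j then 1 else 0) ∈ A.nonunits)
    (c : n → X → K) (hc : ∀ i x, m i x + ∑ j, M i j x * c j x = 0) (i : n) : c i ∈ T := by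
  let MT : Matrix n n T := Matrix.of fun i j => ⟨M i j, hM i j⟩
  let mT : n → T := fun i => ⟨m i, hm i⟩
  let e : X → T →+* K := fun x => (Pi.evalRingHom (fun _ : X => K) x).comp T.subtype
  have hMx : ∀ x, MT.map (e x) = Matrix.of fun i j => M i j x := fun x => rfl
  have hdetA : ∀ x, ((Matrix.of fun i j => M i j x).det)⁻¹ ∈ A ∧
      (Matrix.of fun i j => M i j x).det ≠ 0 := by
    intro x
    have hMA : ∀ i j, M i j x ∈ A := fun i j => hT.mem_A _ (hM i j) x
    let MA : Matrix n n A := Matrix.of fun i j => ⟨M i j x, hMA i j⟩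
    have h1 : (Matrix.of fun i j => M i j x).det = ((MA.det : A) : K) := by
      have h2 := RingHom.map_det A.subtype MA
      rw [show A.subtype MA.det = ((MA.det : A) : K) from rfl] at h2
      rw [h2]
      rfl
    have h3 : IsLocalRing.residue A MA.det = 1 := by
      rw [RingHom.map_det]
      have h4 : (IsLocalRing.residue A).mapMatrix MA = 1 := by
        ext i j
        rw [RingHom.mapMatrix_apply, Matrix.map_apply, Matrix.one_apply]
        have h5 : IsLocalRing.residue A (MA i j - if i = j then 1 else 0) = 0 := by
          rw [IsLocalRing.residue_eq_zero_iff, A.valuation_lt_one_iff]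
          have h6 := hM1 i j x
          rw [ValuationSubring.mem_nonunits_iff] at h6
          have h7 : ((MA i j - if i = j then 1 else 0 : A) : K) = M i j x - if i = j then 1 else 0 := by
            split_ifs <;> rfl
          rw [h7]
          exact h6
        rw [map_sub, sub_eq_zero] at h5
        rw [h5]
        split_ifs <;> simp
      rw [h4, Matrix.det_one]
    have h4 : IsUnit MA.det := by
      by_contra hu
      rw [← mem_nonunits_iff, ← IsLocalRing.mem_maximalIdeal, ← IsLocalRing.residue_eq_zero_iff,
        h3] at hu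
      exact one_ne_zero hu
    obtain ⟨b, hb⟩ := h4.exists_right_inv
    have hb' : ((MA.det : A) : K) * (b : K) = 1 := congrArg Subtype.val hb
    rw [h1, inv_eq_of_mul_eq_one_right hb']
    refine ⟨b.2, ?_⟩
    intro h0
    rw [h0, zero_mul] at hb'
    exact zero_ne_one hb'
  have hdetx : ∀ x, e x MT.det = (Matrix.of fun i j => M i j x).det := by
    intro x
    rw [RingHom.map_det]
    rfl
  have hdetinv : (fun x => (e x MT.det)⁻¹) ∈ T := by
    refine hT.inv_mem (φ := fun x => e x MT.det) MT.det.2 (fun x => ?_) (fun x => ?_)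
    · rw [hdetx]; exact (hdetA x).2
    · rw [hdetx]; exact (hdetA x).1
  have h1 : c i = -((fun x => (e x MT.det)⁻¹) * ((MT.adjugate.mulVec mT i : T) : X → K)) := by
    funext x
    rw [Pi.neg_apply, Pi.mul_apply]
    set Mx : Matrix n n K := Matrix.of fun i j => M i j x with hMxd
    have h2 : Mx.mulVec (fun j => c j x) = -(fun j => m j x) := by
      funext i
      rw [Matrix.mulVec, Pi.neg_apply]
      have := hc i x
      simp only [dotProduct]
      exact eq_neg_of_add_eq_zero_right this
    have h3 : Mx.det • (fun j => c j x) = -(Mx.adjugate.mulVec (fun j => m j x)) := by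
      have h4 := congrArg (fun w => Mx.adjugate.mulVec w) h2
      simp only [Matrix.mulVec_mulVec, Matrix.adjugate_mul, Matrix.smul_mulVec, Matrix.one_mulVec,
        Matrix.mulVec_neg] at h4
      exact h4
    have h5 := congrFun h3 i
    rw [Pi.smul_apply, Pi.neg_apply, smul_eq_mul] at h5
    have h6 : ((MT.adjugate.mulVec mT i : T) : X → K) x = Mx.adjugate.mulVec (fun j => m j x) i := by
      have h7 : e x (MT.adjugate.mulVec mT i) = (MT.adjugate.map (e x)).mulVec (fun j => e x (mT j)) i := by
        rw [RingHom.map_mulVec]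
        rfl
      have h8 : MT.adjugate.map (e x) = (MT.map (e x)).adjugate := by
        have := RingHom.map_adjugate (e x) MT
        exact this
      rw [h8] at h7
      exact h7
    rw [h6, hdetx]
    have h9 := (hdetA x).2
    change Mx.det ≠ 0 at h9
    change c i x = -(Mx.det⁻¹ * _)
    field_simp
    linear_combination h5
  rw [h1]
  exact neg_mem (mul_mem hdetinv (Subtype.property _))

end System

end Fermat.Agent.FFM
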