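import Fermat.Agent.FFM.Chord

/-!
# The chord theorem
-/

set_option autoImplicit false
set_option linter.unusedSectionVars false
set_option linter.style.haveILetI false

open AlgebraicCurve Fermat.Agent.FF Fermat.Agent.RR Fermat.Agent.Red

namespace Fermat.Agent.FFM

variable {K k : Type*} [Field K] [Field k] [IsAlgClosed K] [IsAlgClosed k] [CharZero K]
  {A : ValuationSubring K} {π : A →+* k}
  {F Fk : Type*} [Field F] [Algebra K F] [Field Fk] [Algebra k Fk] [IsFnField K F]
  [IsFnField k Fk] {R : ConstRed A π F Fk}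
  {Γ : Type*} [Group Γ] [MulSemiringAction Γ K]

section EvalMap

variable {L E : Type*} [Field L] [Field E] [Algebra L E] [IsAlgClosed L] [IsFnField L E]

/-- evaluation of the functions in `L(D)` at finitely many places outside of the support. -/
noncomputable def evalMap (D : Divisor L E) (s : Finset (Place L E)) (hs : ∀ Q ∈ s, D Q = 0) :
    riemannRochSpace D →ₗ[L] (s → L) where
  toFun z Q := ev (Q : Place L E) (z : E)
  map_add' a b := by
    funext Q
    have h : ∀ z : riemannRochSpace D, 0 ≤ (Q : Place L E).ord (z : E) := by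
      intro z
      rcases mem_riemannRochSpace_iff.mp z.2 Q with h | h
      · rw [h]; simp
      · rw [hs Q Q.2] at h; simpa using h
    exact ev_add _ (h a) (h b)
  map_smul' c a := by
    funext Q
    have h : 0 ≤ (Q : Place L E).ord (a : E) := by
      rcases mem_riemannRochSpace_iff.mp a.2 Q with h | h
      · rw [h]; simp
      · rw [hs Q Q.2] at h; simpa using h
    change ev _ (c • (a : E)) = c * _
    rw [Algebra.smul_def, ev_mul _ (by rw [ord_algebraMap]) h, ev_algebraMap]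

theorem ord_nonneg_of_mem_L {D : Divisor L E} {Q : Place L E} (hQ : D Q = 0) {z : E}
    (hz : z ∈ riemannRochSpace D) : 0 ≤ Q.ord z := by
  rcases mem_riemannRochSpace_iff.mp hz Q with h | h
  · rw [h]; simp
  · rw [hQ] at h; simpa using h

theorem sumDiv_nonneg (s : Finset (Place L E)) : 0 ≤ sumDiv s := by
  classical
  intro Q
  rw [sumDiv_apply]
  change (0 : ℤ) ≤ _
  split_ifs <;> omega

theorem degree_sumDiv (s : Finset (Place L E)) : Divisor.degree (sumDiv s) = s.card := by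
  rw [sumDiv, map_sum]
  simp [RR.degree_single', -Divisor.degree_single]

theorem ker_evalMap (D : Divisor L E) (s : Finset (Place L E)) (hs : ∀ Q ∈ s, D Q = 0) :
    LinearMap.ker (evalMap D s hs) =
      (riemannRochSpace (D - sumDiv s)).comap (riemannRochSpace D).subtype := by
  classical
  ext z
  rw [LinearMap.mem_ker, Submodule.mem_comap, Submodule.subtype_apply, mem_riemannRochSpace_iff]
  constructor
  · intro h Q
    rw [Finsupp.sub_apply, sumDiv_apply]
    split_ifs with hQ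
    · have h1 : ev Q (z : E) = 0 := congrFun h ⟨Q, hQ⟩
      rw [ev_eq_zero_iff Q (ord_nonneg_of_mem_L (hs Q hQ) z.2)] at h1
      refine h1.imp id fun h2 => ?_
      rw [hs Q hQ]
      omega
    · rw [sub_zero]
      exact mem_riemannRochSpace_iff.mp z.2 Q
  · intro h
    funext Q
    change ev (Q : Place L E) (z : E) = 0
    rw [ev_eq_zero_iff _ (ord_nonneg_of_mem_L (hs Q Q.2) z.2)]
    refine (h Q).imp id fun h2 => ?_
    rw [Finsupp.sub_apply, sumDiv_apply, if_pos Q.2, hs Q Q.2] at h2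
    omega

theorem finrank_ker_evalMap (D : Divisor L E) (s : Finset (Place L E)) (hs : ∀ Q ∈ s, D Q = 0) :
    Module.finrank L (LinearMap.ker (evalMap D s hs)) = ell (D - sumDiv s) := by
  rw [ker_evalMap]
  have hle : riemannRochSpace (D - sumDiv s) ≤ riemannRochSpace D :=
    riemannRochSpace_mono (sub_le_self D (sumDiv_nonneg s))
  exact (Submodule.comapSubtypeEquivOfLe hle).finrank_eq

theorem surjective_evalMap (D : Divisor L E) (s : Finset (Place L E)) (hs : ∀ Q ∈ s, D Q = 0)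
    (h : ell D = s.card + ell (D - sumDiv s)) : Function.Surjective (evalMap D s hs) := by
  rw [← LinearMap.range_eq_top]
  apply Submodule.eq_top_of_finrank_eq
  have h1 := LinearMap.finrank_range_add_finrank_ker (evalMap D s hs)
  rw [finrank_ker_evalMap] at h1
  rw [Module.finrank_fintype_fun_eq_card, Fintype.card_coe]
  have h2 : Module.finrank L (riemannRochSpace D) = ell D := rfl
  omega

end EvalMap

variable {S : Spec R} {ρ : Γ →* SemilinearAut K F} (G : Geo S ρ)

section Main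

variable {X : Type*} [MulAction Γ X] [Fintype X] {T : Subring (X → K)}
  [DecidableEq (Place k Fk)]

include G in
/-- **The chord theorem**: if the points `p Q x`, `Q ∈ 𝒟`, of the divisor of a family of functions
`h x ∈ L(C)` have coordinates in the function order `T`, then so do the others. -/
theorem chord (hT : FunOrder Γ A T) (𝒟 ℰ : Finset (Place k Fk)) (hdis : Disjoint 𝒟 ℰ)
    (C : Divisor K F) (hCΓ : ∀ g, ρ g • C = C)
    (hC0 : ∀ Q ∈ 𝒟 ∪ ℰ, ∀ P, S.r P = Q → C P = 0)
    (hCl : ell C = 𝒟.card + 1) (hCl' : ell (push S C) = 𝒟.card + 1)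
    (hker : ell (push S C - sumDiv 𝒟) = 1)
    (p : Place k Fk → X → Place K F) (hp : ∀ Q ∈ 𝒟 ∪ ℰ, ∀ x, S.r (p Q x) = Q)
    (hpΓ : ∀ Q ∈ 𝒟 ∪ ℰ, ∀ (g : Γ) x, p Q (g • x) = ρ g • p Q x)
    (h : X → F) (hh0 : ∀ x, h x ≠ 0)
    (hh : ∀ x, RR.divOf (h x) = ∑ Q ∈ 𝒟 ∪ ℰ, Finsupp.single (p Q x) 1 - C)
    (t : Place k Fk → F) (ht : ∀ Q ∈ 𝒟 ∪ ℰ, LocPar S ρ Q (t Q))
    (hs : ∀ Q ∈ 𝒟, (fun x => ev (p Q x) (t Q)) ∈ T) :
    ∀ Q ∈ ℰ, (fun x => ev (p Q x) (t Q)) ∈ T := by
  haveI : DecidableEq (Place K F) := Classical.decEq _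
  have hmem𝒟 : ∀ Q ∈ 𝒟, Q ∈ 𝒟 ∪ ℰ := fun Q hQ => Finset.mem_union_left _ hQ
  have hmemℰ : ∀ Q ∈ ℰ, Q ∈ 𝒟 ∪ ℰ := fun Q hQ => Finset.mem_union_right _ hQ
  have hpush0 : ∀ Q ∈ 𝒟 ∪ ℰ, push S C Q = 0 := by
    intro Q hQ
    rw [push, mapDomain_apply_sum]
    refine Finset.sum_eq_zero fun P hP => ?_
    rw [Finset.mem_filter] at hP
    exact hC0 Q hQ P hP.2
  have hs𝒟 : ∀ Q ∈ 𝒟, push S C Q = 0 := fun Q hQ => hpush0 Q (hmem𝒟 Q hQ)
  -- a generator of the kernel
  obtain ⟨z0, hz0, hz00⟩ := exists_mem_ne_zero_of_ell_pos (D := push S C - sumDiv 𝒟)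
    (by rw [hker]; norm_num)
  have hz0C : z0 ∈ riemannRochSpace (push S C) :=
    riemannRochSpace_mono (sub_le_self _ (sumDiv_nonneg 𝒟)) hz0
  have hz0ev : ∀ Q ∈ 𝒟, ev Q z0 = 0 := by
    intro Q hQ
    have h1 : (⟨z0, hz0C⟩ : riemannRochSpace (push S C)) ∈
        LinearMap.ker (evalMap (push S C) 𝒟 hs𝒟) := by
      rw [ker_evalMap]; exact hz0
    exact congrFun (LinearMap.mem_ker.mp h1) ⟨Q, hQ⟩
  have hsurj := surjective_evalMap (push S C) 𝒟 hs𝒟 (by rw [hker, hCl'])
  choose zz hzz using fun Q : 𝒟 => hsurj (Pi.single Q 1)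
  let z : Option 𝒟 → Fk := fun j => j.elim z0 (fun Q => zz Q)
  have hzC : ∀ j, z j ∈ riemannRochSpace (push S C) := by
    rintro (_ | Q)
    · exact hz0C
    · exact (zz Q).2
  have hzev : ∀ (Q' : 𝒟) (j : Option 𝒟), ev (Q' : Place k Fk) (z j) =
      if j = some Q' then 1 else 0 := by
    rintro Q' (_ | Q)
    · rw [if_neg (by simp)]
      exact hz0ev Q' Q'.2
    · have h1 := congrFun (hzz Q) Q'
      change ev (Q' : Place k Fk) (zz Q : Fk) = _ at h1
      change ev (Q' : Place k Fk) (zz Q : Fk) = _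
      rw [h1, Pi.single_apply]
      by_cases hQ : Q' = Q
      · rw [if_pos hQ, if_pos (by rw [hQ])]
      · rw [if_neg hQ, if_neg]
        intro h2
        exact hQ (Option.some_injective _ h2).symm
  have hzreg : ∀ Q ∈ 𝒟 ∪ ℰ, ∀ j, 0 ≤ Q.ord (z j) := fun Q hQ j =>
    ord_nonneg_of_mem_L (hpush0 Q hQ) (hzC j)
  -- evaluation of linear combinations of the `z j`
  have hevsum : ∀ (Q' : 𝒟) (c : Option 𝒟 → k),
      ev (Q' : Place k Fk) (∑ j, algebraMap k Fk (c j) * z j) = c (some Q') := by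
    intro Q' c
    rw [ev_sum _ _ _ fun j _ => ord_mul_nonneg _ (by rw [ord_algebraMap])
      (hzreg Q' (hmem𝒟 Q' Q'.2) j), Finset.sum_eq_single (some Q')]
    · rw [ev_mul _ (by rw [ord_algebraMap]) (hzreg Q' (hmem𝒟 Q' Q'.2) _), ev_algebraMap, hzev,
        if_pos rfl, mul_one]
    · intro j _ hj
      rw [ev_mul _ (by rw [ord_algebraMap]) (hzreg Q' (hmem𝒟 Q' Q'.2) _), ev_algebraMap, hzev,
        if_neg hj, mul_zero]
    · intro h; exact absurd (Finset.mem_univ _) h
  have hzind : LinearIndependent k z := by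
    rw [Fintype.linearIndependent_iff]
    intro c hc
    have hc' : ∑ j, algebraMap k Fk (c j) * z j = 0 := by
      rw [← hc]; exact Finset.sum_congr rfl fun j _ => (Algebra.smul_def _ _).symm
    have h1 : ∀ Q' : 𝒟, c (some Q') = 0 := by
      intro Q'
      rw [← hevsum Q' c, hc', ev_zero]
    have h2 : c none = 0 := by
      rw [Fintype.sum_option] at hc
      simp only [h1, zero_smul, Finset.sum_const_zero, add_zero] at hc
      exact (smul_eq_zero.mp hc).resolve_right hz00
    rintro (_ | Q)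
    · exact h2
    · exact h1 Q
  -- invariant lifts
  have hlift := fun j => G.exists_lift hCΓ (by rw [hCl, hCl']) (hzC j)
  choose w hwC hwz hwΓ using hlift
  have horth : Orth R w z := ⟨hwz, hzind⟩
  have hspan : Submodule.span K (Set.range w) = riemannRochSpace C := by
    apply Submodule.eq_of_le_of_finrank_eq
    · rw [Submodule.span_le]
      rintro _ ⟨j, rfl⟩
      exact hwC j
    · rw [finrank_span_eq_card horth.linearIndependent, Fintype.card_option, Fintype.card_coe]
      exact hCl.symm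
  have hwreg : ∀ Q ∈ 𝒟 ∪ ℰ, ∀ j, Reg S Q (w j) := fun Q hQ j =>
    ⟨(hwz j).mem, fun P hP => ord_nonneg_of_mem_L (hC0 Q hQ P hP) (hwC j)⟩
  -- values of the divisor of `h x`
  have hpne : ∀ Q ∈ 𝒟 ∪ ℰ, ∀ Q' ∈ 𝒟 ∪ ℰ, ∀ x, Q ≠ Q' → p Q x ≠ p Q' x := by
    intro Q hQ Q' hQ' x hne heq
    apply hne
    rw [← hp Q hQ x, ← hp Q' hQ' x, heq]
  have hordp : ∀ Q ∈ 𝒟 ∪ ℰ, ∀ x, (p Q x).ord (h x) = 1 := by
    intro Q hQ x
    have h1 := DFunLike.congr_fun (hh x) (p Q x)
    rw [RR.divOf_apply, Finsupp.sub_apply, hC0 Q hQ _ (hp Q hQ x), sub_zero,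
      Finsupp.finsetSum_apply, Finset.sum_eq_single Q] at h1
    · rw [h1, Finsupp.single_eq_same]
    · intro Q' hQ' hne
      rw [Finsupp.single_eq_of_ne]
      exact (hpne Q' hQ' Q hQ x hne).symm
    · intro h; exact absurd hQ h
  have hhC : ∀ x, h x ∈ riemannRochSpace C := by
    intro x
    rw [mem_riemannRochSpace_iff_divOf (hh0 x), hh x, add_sub_cancel]
    exact Finset.sum_nonneg fun Q _ => by
      intro P
      rw [Finsupp.single_apply]
      change (0 : ℤ) ≤ _
      split_ifs <;> omega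
  -- normalised coefficients
  have hcoef : ∀ x, ∃ (c : Option 𝒟 → K) (b : K), b ≠ 0 ∧ c none = 1 ∧
      (∀ Q, c (some Q) ∈ A.nonunits) ∧ h x = algebraMap K F b * ∑ j, algebraMap K F (c j) * w j := by
    intro x
    have h1 := hhC x
    rw [← hspan, Submodule.mem_span_range_iff_exists_fun] at h1
    obtain ⟨a, ha⟩ := h1
    have hne : ∃ i ∈ Finset.univ, a i ≠ 0 := by
      by_contra hcon
      push Not at hcon
      apply hh0 x
      rw [← ha]
      exact Finset.sum_eq_zero fun i hi => by rw [hcon i hi, zero_smul]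
    obtain ⟨i, -, hi0, hi⟩ := exists_max A Finset.univ a hne
    have haA : ∀ j, a j / a i ∈ A := fun j => hi j (Finset.mem_univ j)
    set f : F := ∑ j, algebraMap K F (a j / a i) * w j with hf
    have hf' : h x = algebraMap K F (a i) * f := by
      rw [hf, ← ha, Finset.mul_sum]
      refine Finset.sum_congr rfl fun j _ => ?_
      rw [Algebra.smul_def, ← mul_assoc, ← map_mul, mul_div_cancel₀ _ hi0]
    have hfred : R.IsRed f (∑ j, algebraMap k Fk (π ⟨a j / a i, haA j⟩) * z j) :=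
      ConstRed.isRed_sum _ fun j _ => (R.isRed_algebraMap (haA j)).mul (hwz j)
    have hfev : ∀ Q : 𝒟, π ⟨a (some Q) / a i, haA _⟩ = 0 := by
      intro Q
      have hQ := hmem𝒟 Q Q.2
      have hfreg : Reg S (Q : Place k Fk) f :=
        Reg.sum _ _ fun j _ => (Reg.const (haA j)).mul (hwreg Q hQ j)
      have h2 : ev (p Q x) f = 0 := by
        rw [ev_eq_zero_iff _ (hfreg.2 _ (hp Q hQ x))]
        right
        have h3 := hordp Q hQ x
        have hf0 : f ≠ 0 := by
          intro h4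
          apply hh0 x
          rw [hf', h4, mul_zero]
        rw [hf', Place.ord_mul _ (by simpa using hi0) hf0, ord_algebraMap, zero_add] at h3
        rw [h3]
        norm_num
      have h3 := hfreg.pi_ev (hp Q hQ x)
      rw [hfred.rd_eq, hevsum] at h3
      rw [← h3]
      have h4 : (⟨ev (p Q x) f, hfreg.mem_A (hp Q hQ x)⟩ : A) = 0 := Subtype.ext h2
      rw [h4, map_zero]
    have hnone : π ⟨a none / a i, haA none⟩ ≠ 0 := by
      intro h0
      have h2 : π ⟨a i / a i, haA i⟩ = 0 := by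
        rcases i with _ | Q
        · exact h0
        · exact hfev Q
      have h3 : (⟨a i / a i, haA i⟩ : A) = 1 := Subtype.ext (div_self hi0)
      rw [h3, map_one] at h2
      exact one_ne_zero h2
    have hnone0 : a none / a i ≠ 0 := by
      intro h0
      apply hnone
      have : (⟨a none / a i, haA none⟩ : A) = 0 := Subtype.ext h0
      rw [this, map_zero]
    have hnoneinv : (a none / a i)⁻¹ ∈ A := by
      rw [ne_eq, R.pi_eq_zero_iff, not_not] at hnone
      obtain ⟨b, hb⟩ := hnone.exists_right_inv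
      have hb' : a none / a i * (b : K) = 1 := congrArg Subtype.val hb
      rw [inv_eq_of_mul_eq_one_right hb']
      exact b.2
    refine ⟨fun j => a j / a i * (a none / a i)⁻¹, a i * (a none / a i), mul_ne_zero hi0 hnone0,
      mul_inv_cancel₀ hnone0, fun Q => ?_, ?_⟩
    · rw [mem_nonunits_iff_pi R (mul_mem (haA _) hnoneinv)]
      have h2 : (⟨a (some Q) / a i * (a none / a i)⁻¹, mul_mem (haA _) hnoneinv⟩ : A) =
          ⟨a (some Q) / a i, haA _⟩ * ⟨(a none / a i)⁻¹, hnoneinv⟩ := rfl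
      rw [h2, map_mul, hfev Q, zero_mul]
    · rw [hf', hf, Finset.mul_sum, Finset.mul_sum]
      refine Finset.sum_congr rfl fun j _ => ?_
      rw [← mul_assoc, ← mul_assoc, ← map_mul, ← map_mul]
      congr 2
      calc a i * (a j / a i) = a i * (a j / a i) * ((a none / a i) * (a none / a i)⁻¹) := by
            rw [mul_inv_cancel₀ hnone0, mul_one]
        _ = _ := by ring
  choose c b hb0 hcnone hcsome hcb using hcoef
  -- vanishing
  have hzero : ∀ Q ∈ 𝒟 ∪ ℰ, ∀ x, ev (p Q x) (∑ j, algebraMap K F (c x j) * w j) = 0 := by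
    intro Q hQ x
    have hcA : ∀ j, c x j ∈ A := by
      rintro (_ | Q)
      · rw [hcnone]; exact A.one_mem
      · exact mem_of_mem_nonunits (hcsome x Q)
    have hreg : Reg S Q (∑ j, algebraMap K F (c x j) * w j) :=
      Reg.sum _ _ fun j _ => (Reg.const (hcA j)).mul (hwreg Q hQ j)
    rw [ev_eq_zero_iff _ (hreg.2 _ (hp Q hQ x))]
    right
    have h3 := hordp Q hQ x
    have hf0 : (∑ j, algebraMap K F (c x j) * w j) ≠ 0 := by
      intro h4
      apply hh0 x
      rw [hcb, h4, mul_zero]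
    rw [hcb x, Place.ord_mul _ (by simpa using hb0 x) hf0, ord_algebraMap, zero_add] at h3
    rw [h3]
    norm_num
  -- the coefficients belong to `T`
  have hevw : ∀ (Q : 𝒟) (j : Option 𝒟), (fun x => ev (p Q x) (w j)) ∈ T := fun Q j =>
    ev_mem G.toGeoBase (ht Q (hmem𝒟 Q Q.2)) (p Q) hT (hp Q (hmem𝒟 Q Q.2))
      (hpΓ Q (hmem𝒟 Q Q.2)) (hs Q Q.2) (hwreg Q (hmem𝒟 Q Q.2) j) (fun g => hwΓ j g)
  have hcT : ∀ Q : 𝒟, (fun x => c x (some Q)) ∈ T := by
    refine solve_mem hT (n := 𝒟) (fun Q Q' x => ev (p Q x) (w (some Q')))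
      (fun Q Q' => hevw Q (some Q')) (fun Q x => ev (p Q x) (w none)) (fun Q => hevw Q none)
      (fun Q Q' x => ?_) (fun Q x => c x (some Q)) (fun Q x => ?_)
    · have hreg := hwreg Q (hmem𝒟 Q Q.2) (some Q')
      have hA' := hreg.mem_A (hp Q (hmem𝒟 Q Q.2) x)
      have hδA : (if Q = Q' then (1 : K) else 0) ∈ A := by
        split_ifs
        · exact A.one_mem
        · exact A.zero_mem
      rw [mem_nonunits_iff_pi R (sub_mem hA' hδA)]
      have h2 : (⟨ev (p Q x) (w (some Q')) - (if Q = Q' then (1 : K) else 0), sub_mem hA' hδA⟩ : A) =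
          ⟨ev (p Q x) (w (some Q')), hA'⟩ - (if Q = Q' then 1 else 0) := by
        apply Subtype.ext
        split_ifs <;> rfl
      rw [h2, map_sub, hreg.pi_ev (hp Q (hmem𝒟 Q Q.2) x), (hwz _).rd_eq, hzev]
      by_cases hQ : Q = Q'
      · rw [if_pos hQ, if_pos (by rw [hQ]), map_one, sub_self]
      · rw [if_neg hQ, if_neg, map_zero, sub_self]
        intro h3
        exact hQ (Option.some_injective _ h3).symm
    · have h2 := hzero Q (hmem𝒟 Q Q.2) x
      rw [ev_sum _ _ _ fun j _ => ord_mul_nonneg _ (by rw [ord_algebraMap])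
        ((hwreg Q (hmem𝒟 Q Q.2) j).2 _ (hp Q (hmem𝒟 Q Q.2) x))] at h2
      refine Eq.trans ?_ h2
      rw [Fintype.sum_option]
      have h3 : ∀ j, ev (p Q x) (algebraMap K F (c x j) * w j) = ev (p Q x) (w j) * c x j := by
        intro j
        rw [ev_mul _ (by rw [ord_algebraMap])
          ((hwreg Q (hmem𝒟 Q Q.2) j).2 _ (hp Q (hmem𝒟 Q Q.2) x)), ev_algebraMap, mul_comm]
      simp only [h3]
      rw [hcnone, mul_one]
  have hcT' : ∀ j, (fun x => c x j) ∈ T := by
    rintro (_ | Q)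
    · have : (fun x => c x none) = fun _ => (1 : K) := by
        funext x; exact hcnone x
      rw [this]
      exact hT.const 1 IsInv.one
    · exact hcT Q
  -- conclusion
  intro Q hQ
  have hQ' := hmemℰ Q hQ
  refine root_mem G.toGeoBase (ht Q hQ') (p Q) hT (hp Q hQ') (hpΓ Q hQ') (fun j x => c x j) hcT' w
    (hwreg Q hQ') (fun j g => hwΓ j g) (hzero Q hQ') (fun x => ?_)
  have hcA : ∀ j, c x j ∈ A := fun j => hT.mem_A _ (hcT' j) x
  have hred : R.IsRed (∑ j, algebraMap K F (c x j) * w j) z0 := by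
    have h1 : R.IsRed (∑ j, algebraMap K F (c x j) * w j)
        (∑ j, algebraMap k Fk (π ⟨c x j, hcA j⟩) * z j) :=
      ConstRed.isRed_sum _ fun j _ => (R.isRed_algebraMap (hcA j)).mul (hwz j)
    have h2 : ∑ j, algebraMap k Fk (π ⟨c x j, hcA j⟩) * z j = z0 := by
      rw [Fintype.sum_option]
      have h3 : ∀ Q : 𝒟, π ⟨c x (some Q), hcA _⟩ = 0 := fun Q =>
        (mem_nonunits_iff_pi R (hcA _)).mp (hcsome x Q)
      have h4 : (⟨c x none, hcA none⟩ : A) = 1 := Subtype.ext (hcnone x)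
      simp only [h3, map_zero, zero_mul, Finset.sum_const_zero, add_zero]
      rw [h4, map_one, map_one, one_mul]
      rfl
    rwa [h2] at h1
  rw [hred.rd_eq]
  have h5 : RR.divOf (K := K) (∑ j, algebraMap K F (c x j) * w j) = RR.divOf (h x) := by
    have hf0 : (∑ j, algebraMap K F (c x j) * w j) ≠ 0 := hred.ne_zero hz00
    ext P
    rw [RR.divOf_apply, RR.divOf_apply, hcb x, Place.ord_mul _ (by simpa using hb0 x) hf0,
      ord_algebraMap, zero_add]
  have h6 := DFunLike.congr_fun (push_divOf (S := S) hred hz00) Q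
  rw [RR.divOf_apply, h5, hh x, push_sub, Finsupp.sub_apply, hpush0 Q hQ', sub_zero] at h6
  rw [← h6, push, Finsupp.mapDomain_finsetSum, Finsupp.finsetSum_apply, Finset.sum_eq_single Q]
  · rw [Finsupp.mapDomain_single, hp Q hQ' x, Finsupp.single_eq_same]
  · intro Q'' hQ'' hne
    rw [Finsupp.mapDomain_single, hp Q'' hQ'' x, Finsupp.single_eq_of_ne]
    exact hne.symm
  · intro h; exact absurd hQ' h

end Main

end Fermat.Agent.FFM
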