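import Fermat.Agent.FFM.Stable

/-!
# Invariant orthonormal bases from coefficient functionals
-/

set_option autoImplicit false
set_option linter.unusedSectionVars false
set_option linter.style.haveILetI false

open AlgebraicCurve Fermat.Agent.FF Fermat.Agent.RR Fermat.Agent.Red

namespace Fermat.Agent.FFM

/-- choosing separating functionals -/
theorem exists_det_ne_zero {k V ι : Type*} [Field k] [AddCommGroup V] [Module k V] {r : ℕ}
    (u : Fin r → V) (hu : LinearIndependent k u) (Λ : ι → V →ₗ[k] k)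
    (hsep : ∀ z ∈ Submodule.span k (Set.range u), (∀ n, Λ n z = 0) → z = 0) :
    ∃ e : Fin r → ι, (Matrix.of fun i j => Λ (e j) (u i)).det ≠ 0 := by
  classical
  let w : ι → (Fin r → k) := fun n i => Λ n (u i)
  have hspan : Submodule.span k (Set.range w) = ⊤ := by
    by_contra hne
    obtain ⟨f, hf0, hf⟩ := Submodule.exists_le_ker_of_lt_top _ (lt_top_iff_ne_top.mpr hne)
    let c : Fin r → k := fun i => f (Pi.single i 1)
    have hfc : ∀ v : Fin r → k, f v = ∑ i, v i * c i := by
      intro v
      conv_lhs => rw [← Finset.univ_sum_single v, map_sum]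
      refine Finset.sum_congr rfl fun i _ => ?_
      have : (Pi.single i (v i) : Fin r → k) = v i • Pi.single i 1 := by
        rw [← Pi.single_smul, smul_eq_mul, mul_one]
      rw [this, map_smul, smul_eq_mul]
    have h1 : ∑ i, c i • u i = 0 := by
      refine hsep _ (Submodule.sum_mem _ fun i _ => Submodule.smul_mem _ _
        (Submodule.subset_span ⟨i, rfl⟩)) fun n => ?_
      have h2 : f (w n) = 0 := hf (Submodule.subset_span ⟨n, rfl⟩)
      rw [hfc] at h2
      rw [map_sum, ← h2]
      refine Finset.sum_congr rfl fun i _ => ?_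
      rw [map_smul, smul_eq_mul, mul_comm]
    have h2 := Fintype.linearIndependent_iff.mp hu c h1
    apply hf0
    apply LinearMap.ext
    intro v
    rw [hfc, LinearMap.zero_apply]
    exact Finset.sum_eq_zero fun i _ => by rw [h2 i, mul_zero]
  obtain ⟨b, hb, hbspan, hbli⟩ := exists_linearIndependent k (Set.range w)
  rw [hspan] at hbspan
  let B : Module.Basis b k (Fin r → k) := Module.Basis.mk hbli (by
    rw [Subtype.range_coe, hbspan])
  haveI : Fintype b := FiniteDimensional.fintypeBasisIndex B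
  have hcard : Fintype.card b = r := by
    rw [← Module.finrank_eq_card_basis B, Module.finrank_fin_fun]
  let φ : Fin r ≃ b := (Fintype.equivFinOfCardEq hcard).symm
  choose e he using fun j : Fin r => hb (φ j).2
  refine ⟨e, ?_⟩
  have h3 : (Matrix.of fun i j => Λ (e j) (u i)) = (Matrix.of fun j => (φ j : Fin r → k)).transpose := by
    ext i j
    rw [Matrix.transpose_apply, Matrix.of_apply, Matrix.of_apply, ← he j]
  rw [h3, Matrix.det_transpose]
  have h4 : IsUnit (Matrix.of fun j => (φ j : Fin r → k)) := by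
    rw [← Matrix.linearIndependent_rows_iff_isUnit]
    exact hbli.comp φ φ.injective
  exact ((Matrix.isUnit_iff_isUnit_det _).mp h4).ne_zero

variable {K k : Type*} [Field K] [Field k] [IsAlgClosed K] [IsAlgClosed k] [CharZero K]
  {A : ValuationSubring K} {π : A →+* k}
  {F Fk : Type*} [Field F] [Algebra K F] [Field Fk] [Algebra k Fk] [IsFnField K F]
  [IsFnField k Fk] {R : ConstRed A π F Fk}
  {Γ : Type*} [Group Γ] [MulSemiringAction Γ K]

/-- Coefficient functionals at a place `Q`. -/
structure CoefSys (S : Spec R) (ρ : Γ →* SemilinearAut K F) (Q : Place k Fk) {ι : Type*}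
    (Λ : ι → F →ₗ[K] K) (Λk : ι → Fk →ₗ[k] k) : Prop where
  equiv : ∀ (g : Γ) n (f : F), Λ n (ρ g • f) = g • Λ n f
  sep : ∀ z : Fk, (∀ n, Λk n z = 0) → z = 0
  compat : ∀ f : F, Reg S Q f → ∀ n, ∃ h : Λ n f ∈ A, π ⟨Λ n f, h⟩ = Λk n (R.rd f)

variable {S : Spec R} {ρ : Γ →* SemilinearAut K F} (G : GeoBase S ρ)
  (orth : ∀ D : Divisor K F, ∃ (r : ℕ) (v : Fin r → F) (u : Fin r → Fk), Orth R v u ∧
    Submodule.span K (Set.range v) = riemannRochSpace D)
  {Q : Place k Fk} {t : F} (ht : LocPar S ρ Q t) {ι : Type*} {Λ : ι → F →ₗ[K] K}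
  {Λk : ι → Fk →ₗ[k] k} (C : CoefSys S ρ Q Λ Λk)

include G orth C in
/-- invariant bases when the divisor has no positive part in the disc. -/
theorem orth_inv_of_le (D : Divisor K F) (hD : ∀ g, ρ g • D = D)
    (hle : ∀ P, S.r P = Q → D P ≤ 0) :
    ∃ (r : ℕ) (w : Fin r → F) (u : Fin r → Fk), Orth R w u ∧
      Submodule.span K (Set.range w) = riemannRochSpace D ∧ ∀ g i, ρ g • w i = w i := by
  classical
  obtain ⟨r, v, u, hvu, hspan⟩ := orth D
  have hvreg : ∀ i, Reg S Q (v i) := fun i => ⟨(hvu.isRed i).mem, fun P hP => by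
    have h1 : v i ∈ riemannRochSpace D := by rw [← hspan]; exact Submodule.subset_span ⟨i, rfl⟩
    rcases mem_riemannRochSpace_iff.mp h1 P with h | h
    · rw [h]; simp
    · have := hle P hP
      omega⟩
  obtain ⟨e, he⟩ := exists_det_ne_zero u hvu.indep Λk (fun z _ h => C.sep z h)
  have hcomp : ∀ i j, ∃ h : Λ (e j) (v i) ∈ A, π ⟨Λ (e j) (v i), h⟩ = Λk (e j) (u i) := by
    intro i j
    have := C.compat (v i) (hvreg i) (e j)
    rwa [(hvu.isRed i).rd_eq] at this
  choose hA hπ using hcomp
  let MA : Matrix (Fin r) (Fin r) A := Matrix.of fun i j => ⟨Λ (e j) (v i), hA i j⟩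
  have hdet : IsUnit MA.det := by
    by_contra hu
    apply he
    have h1 : (Matrix.of fun i j => Λk (e j) (u i)) = MA.map π := by
      ext i j
      exact (hπ i j).symm
    have h2 := RingHom.map_det π MA
    rw [RingHom.mapMatrix_apply, ← h1] at h2
    rw [← h2, R.pi_eq_zero_iff]
    exact hu
  let NA : Matrix (Fin r) (Fin r) A := MA⁻¹
  have hNM : NA * MA = 1 := Matrix.nonsing_inv_mul MA hdet
  let w : Fin r → F := fun i => ∑ l, algebraMap K F (NA i l : K) * v l
  let u' : Fin r → Fk := fun i => ∑ l, algebraMap k Fk (π (NA i l)) * u l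
  have hw : ∀ i, R.IsRed (w i) (u' i) := fun i => hvu.isRed_sum Finset.univ (fun l => NA i l)
  have hNMij : ∀ i j, ∑ l, (NA i l) * MA l j = if i = j then 1 else 0 := by
    intro i j
    have := congrFun (congrFun hNM i) j
    rwa [Matrix.mul_apply, Matrix.one_apply] at this
  have hΛw : ∀ i j, Λ (e j) (w i) = if i = j then 1 else 0 := by
    intro i j
    simp only [w, map_sum]
    have h1 := congrArg (Subtype.val : A → K) (hNMij i j)
    rw [AddSubmonoidClass.coe_finsetSum] at h1
    rw [show ((if i = j then (1 : A) else 0 : A) : K) = if i = j then 1 else 0 by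
      split_ifs <;> rfl] at h1
    rw [← h1]
    refine Finset.sum_congr rfl fun l _ => ?_
    rw [← Algebra.smul_def, map_smul, smul_eq_mul]
    rfl
  have hΛu : ∀ i j, Λk (e j) (u' i) = if i = j then 1 else 0 := by
    intro i j
    simp only [u', map_sum]
    have h1 := congrArg π (hNMij i j)
    rw [map_sum] at h1
    rw [show π (if i = j then (1 : A) else 0 : A) = if i = j then 1 else 0 by
      split_ifs <;> simp] at h1
    rw [← h1]
    refine Finset.sum_congr rfl fun l _ => ?_
    rw [← Algebra.smul_def, map_smul, smul_eq_mul, map_mul, ← hπ]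
    rfl
  have horth : Orth R w u' := by
    refine ⟨hw, Fintype.linearIndependent_iff.mpr fun c hc j => ?_⟩
    have h1 := congrArg (Λk (e j)) hc
    rw [map_sum, map_zero] at h1
    simp only [map_smul, hΛu, smul_eq_mul, mul_ite, mul_one, mul_zero] at h1
    rw [Finset.sum_ite_eq' Finset.univ j c, if_pos (Finset.mem_univ j)] at h1
    exact h1
  have hwD : ∀ i, w i ∈ riemannRochSpace D := fun i => by
    rw [← hspan]
    refine Submodule.sum_mem _ fun l _ => ?_
    rw [← Algebra.smul_def]
    exact Submodule.smul_mem _ _ (Submodule.subset_span ⟨l, rfl⟩)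
  have hwspan : Submodule.span K (Set.range w) = riemannRochSpace D := by
    apply Submodule.eq_of_le_of_finrank_eq
    · rw [Submodule.span_le]
      rintro _ ⟨i, rfl⟩
      exact hwD i
    · rw [finrank_span_eq_card horth.linearIndependent, Fintype.card_fin]
      exact Orth.card_eq hvu hspan
  have hdetm : ∀ f ∈ riemannRochSpace D, (∀ j, Λ (e j) f = 0) → f = 0 := by
    intro f hf h0
    rw [← hwspan, Submodule.mem_span_range_iff_exists_fun] at hf
    obtain ⟨a, rfl⟩ := hf
    refine Finset.sum_eq_zero fun i _ => ?_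
    have h1 := h0 i
    rw [map_sum] at h1
    simp only [map_smul, hΛw, smul_eq_mul, mul_ite, mul_one, mul_zero] at h1
    rw [Finset.sum_ite_eq' Finset.univ i a, if_pos (Finset.mem_univ i)] at h1
    rw [h1, zero_smul]
  refine ⟨r, w, u', horth, hwspan, fun g i => ?_⟩
  rw [← sub_eq_zero]
  refine hdetm _ (Submodule.sub_mem _ ?_ (hwD i)) fun j => ?_
  · rw [← hD g, smul_mem_L_iff]
    exact hwD i
  · rw [map_sub, C.equiv, hΛw, sub_eq_zero]
    split_ifs
    · exact smul_one g
    · exact smul_zero g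

include G orth C ht in
/-- **invariant orthonormal bases.** -/
theorem orth_inv_of_coef (D : Divisor K F) (hD : ∀ g, ρ g • D = D) :
    ∃ (r : ℕ) (w : Fin r → F) (u : Fin r → Fk), Orth R w u ∧
      Submodule.span K (Set.range w) = riemannRochSpace D ∧ ∀ g i, ρ g • w i = w i := by
  classical
  set s := D.support.filter (fun P => S.r P = Q) with hs
  set h : F := ∏ P ∈ s, (t - algebraMap K F (ev P t)) ^ (D P).toNat with hh
  have hmem : ∀ P, P ∈ s ↔ D P ≠ 0 ∧ S.r P = Q := fun P => by
    rw [hs, Finset.mem_filter, Finsupp.mem_support_iff]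
  have hred1 : ∀ P ∈ s, R.IsRed (t - algebraMap K F (ev P t)) (R.rd t) := by
    intro P hP
    have hPQ := ((hmem P).mp hP).2
    have h1 := (R.isRed_rd ht.reg.1).sub (R.isRed_algebraMap (ht.reg.mem_A hPQ))
    rwa [ht.reg.pi_ev hPQ, ht.ev_rd, map_zero, sub_zero] at h1
  have hred : R.IsRed h (R.rd t ^ ∑ P ∈ s, (D P).toNat) := by
    rw [← Finset.prod_pow_eq_pow_sum]
    exact ConstRed.isRed_prod s fun P hP => (hred1 P hP).pow _
  have hz0 : R.rd t ^ (∑ P ∈ s, (D P).toNat) ≠ 0 := pow_ne_zero _ ht.rd_ne_zero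
  have hh0 : h ≠ 0 := hred.ne_zero hz0
  have hDs : ∀ (g : Γ) P, D (ρ g • P) = D P := by
    intro g P
    conv_lhs => rw [← hD g]
    exact SemilinearAut.divisor_smul_apply_smul (ρ g) D P
  have hinv : ∀ g, ρ g • h = h := by
    intro g
    rw [hh, Finset.smul_prod']
    refine Finset.prod_bij (fun P _ => ρ g • P) (fun P hP => ?_) (fun P _ P' _ h => ?_)
      (fun P hP => ?_) (fun P hP => ?_)
    · rw [hmem] at hP ⊢
      rw [hDs, G.r_smul]
      exact hP
    · exact MulAction.injective (ρ g) h
    · refine ⟨ρ g⁻¹ • P, ?_, ?_⟩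
      · rw [hmem] at hP ⊢
        rw [hDs, G.r_smul]
        exact hP
      · rw [map_inv, smul_inv_smul]
    · have hPQ := ((hmem P).mp hP).2
      rw [smul_pow', smul_sub, ht.inv, G.smul_algebraMap, hDs]
      congr 3
      rw [← G.ev_smul g P (ht.reg.2 P hPQ), ht.inv]
  have hle : ∀ P, S.r P = Q → (D - RR.divOf h : Divisor K F) P ≤ 0 := by
    intro P hP
    rw [Finsupp.sub_apply, RR.divOf_apply, hh, Red.ord_prod P s _ (fun P' hP' =>
      pow_ne_zero _ ((hred1 P' hP').ne_zero ht.rd_ne_zero))]
    have hnn : ∀ P' ∈ s, 0 ≤ P.ord ((t - algebraMap K F (ev P' t)) ^ (D P').toNat) := by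
      intro P' _
      rw [ord_pow]
      exact mul_nonneg (by positivity) (ord_sub_algebraMap_nonneg P (ht.reg.2 P hP) _)
    by_cases hDP : D P ≤ 0
    · have := Finset.sum_nonneg hnn
      omega
    · push Not at hDP
      have hPs : P ∈ s := (hmem P).mpr ⟨by omega, hP⟩
      have h1 := Finset.single_le_sum hnn hPs
      have h2 : 1 ≤ P.ord (t - algebraMap K F (ev P t)) := by
        have h3 := ev_spec P (ht.reg.2 P hP)
        rcases h3 with h3 | h3
        · exact absurd h3 ((hred1 P hPs).ne_zero ht.rd_ne_zero)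
        · omega
      rw [ord_pow] at h1
      have h3 : (((D P).toNat : ℕ) : ℤ) = D P := Int.toNat_of_nonneg hDP.le
      rw [h3] at h1
      nlinarith
  have hDh : ∀ g, ρ g • (D - RR.divOf h) = D - RR.divOf h := by
    intro g
    rw [smul_sub, hD g]
    congr 1
    ext P
    rw [SemilinearAut.divisor_smul_apply, RR.divOf_apply, RR.divOf_apply]
    have h1 := SemilinearAut.ord_smul (ρ g) ((ρ g)⁻¹ • P) h
    rw [smul_inv_smul, hinv] at h1
    exact h1.symm
  obtain ⟨r, w, u, hwu, hspan, hwinv⟩ := orth_inv_of_le G orth C (D - RR.divOf h) hDh hle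
  have horth := hwu.mul_left (hred.inv hz0) (inv_ne_zero hz0)
  refine ⟨r, fun i => h⁻¹ * w i, _, horth, ?_, fun g i => ?_⟩
  · apply Submodule.eq_of_le_of_finrank_eq
    · rw [Submodule.span_le]
      rintro _ ⟨i, rfl⟩
      have h1 : w i ∈ riemannRochSpace (D - RR.divOf h) := by
        rw [← hspan]; exact Submodule.subset_span ⟨i, rfl⟩
      have h2 : h⁻¹ ∈ riemannRochSpace (RR.divOf (K := K) h) := by
        rw [mem_riemannRochSpace_iff_divOf (inv_ne_zero hh0), divOf_inv, add_neg_cancel]
      have h3 := mul_mem_riemannRochSpace h2 h1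
      rwa [add_sub_cancel] at h3
    · rw [finrank_span_eq_card horth.linearIndependent, Fintype.card_fin, Orth.card_eq hwu hspan]
      have h1 := ell_add_divOf (D - RR.divOf h) hh0
      rw [sub_add_cancel] at h1
      exact h1.symm
  · rw [smul_mul', hwinv, smul_inv'', hinv]

end Fermat.Agent.FFM
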