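import Fermat.Agent.FFM.LaurentInt
import Fermat.Agent.FFM.OrthInv
import Fermat.Agent.Red.SpecOf
import Fermat.Agent.Top.PlaceMake

/-!
# The cusp `∞` and coefficient functionals
-/

set_option autoImplicit false
set_option linter.unusedSectionVars false
set_option linter.style.haveILetI false

open AlgebraicCurve Fermat.Agent.FF Fermat.Agent.RR Fermat.Agent.Red ModularCurve

noncomputable section

namespace Fermat.Agent.FFM

section Place

variable {K : Type*} [Field K]

theorem order_mul' {f g : LaurentSeries K} (hf : f ≠ 0) (hg : g ≠ 0) :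
    (f * g).order = f.order + g.order := HahnSeries.order_mul hf hg

theorem order_inv' (f : LaurentSeries K) : (f⁻¹).order = - f.order := by
  rcases eq_or_ne f 0 with rfl | hf
  · simp
  have h := order_mul' hf (inv_ne_zero hf)
  rw [mul_inv_cancel₀ hf, HahnSeries.order_one] at h
  omega

theorem le_order_iff' (f : LaurentSeries K) (m : ℤ) :
    (f = 0 ∨ m ≤ f.order) ↔ ∀ n < m, f.coeff n = 0 := by
  constructor
  · rintro (h | h) n hn
    · rw [h, HahnSeries.coeff_zero]
    · exact HahnSeries.coeff_eq_zero_of_lt_order (lt_of_lt_of_le hn h)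
  · intro h
    by_cases hf : f = 0
    · exact Or.inl hf
    right
    by_contra hlt
    exact hf (HahnSeries.coeff_order_eq_zero.mp (h _ (not_le.mp hlt)))

theorem order_algebraMap' (c : K) : (algebraMap K (LaurentSeries K) c).order = 0 := by
  rw [algebraMap_eq_C]
  exact HahnSeries.order_C

variable (E : IntermediateField K (LaurentSeries K))

/-- the valuation ring of the order of `q`-expansions -/
def qRing : ValuationSubring E where
  carrier := {f | 0 ≤ (f : LaurentSeries K).order}
  mul_mem' := by
    rintro f g hf hg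
    rcases eq_or_ne f 0 with rfl | hf0
    · simp
    rcases eq_or_ne g 0 with rfl | hg0
    · simp
    have hf0' : (f : LaurentSeries K) ≠ 0 := fun h => hf0 (Subtype.ext h)
    have hg0' : (g : LaurentSeries K) ≠ 0 := fun h => hg0 (Subtype.ext h)
    change 0 ≤ ((f * g : E) : LaurentSeries K).order
    rw [show ((f * g : E) : LaurentSeries K) = (f : LaurentSeries K) * g from rfl,
      order_mul' hf0' hg0']
    exact add_nonneg hf hg
  one_mem' := by
    change 0 ≤ ((1 : E) : LaurentSeries K).order
    rw [show ((1 : E) : LaurentSeries K) = 1 from rfl, HahnSeries.order_one]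
  add_mem' := by
    rintro f g hf hg
    change 0 ≤ ((f : LaurentSeries K) + g).order
    by_cases h : (f : LaurentSeries K) + g = 0
    · rw [h, HahnSeries.order_zero]
    have := HahnSeries.min_order_le_order_add h
    have h1 : 0 ≤ (f : LaurentSeries K).order := hf
    have h2 : 0 ≤ (g : LaurentSeries K).order := hg
    omega
  zero_mem' := by
    change 0 ≤ (0 : LaurentSeries K).order
    rw [HahnSeries.order_zero]
  neg_mem' := by
    rintro f hf
    change 0 ≤ (-(f : LaurentSeries K)).order
    rw [HahnSeries.order_neg]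
    exact hf
  mem_or_inv_mem' := by
    intro f
    rcases le_total 0 (f : LaurentSeries K).order with h | h
    · exact Or.inl h
    · right
      change 0 ≤ ((f⁻¹ : E) : LaurentSeries K).order
      rw [show ((f⁻¹ : E) : LaurentSeries K) = (f : LaurentSeries K)⁻¹ from rfl, order_inv']
      omega

theorem mem_qRing (f : E) : f ∈ qRing E ↔ 0 ≤ (f : LaurentSeries K).order := Iff.rfl

variable {E} {x : E} (hx : (x : LaurentSeries K).order = -1)

include hx in
theorem qRing_ne_top : qRing E ≠ ⊤ := by
  intro h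
  have h1 : x ∈ qRing E := h ▸ ValuationSubring.mem_top x
  rw [mem_qRing, hx] at h1
  omega

/-- the place at infinity -/
def infPlace : Place K E :=
  Top.mkPlace (qRing E) (fun f => (f : LaurentSeries K).order)
    (fun a => by
      rw [mem_qRing]
      change 0 ≤ (algebraMap K (LaurentSeries K) a).order
      rw [order_algebraMap'])
    (qRing_ne_top hx) (fun f _ => mem_qRing E f)
    (fun f g hf hg => order_mul' (fun h => hf (Subtype.ext h)) (fun h => hg (Subtype.ext h)))

theorem infPlace_val : (infPlace hx).toValuationSubring = qRing E := rfl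

variable [IsAlgClosed K] [IsFnField K E]

theorem ord_infPlace (f : E) : (infPlace hx).ord f = (f : LaurentSeries K).order := by
  rcases eq_or_ne f 0 with rfl | hf
  · rw [Place.ord_zero]
    exact HahnSeries.order_zero.symm
  obtain ⟨t, ht0, ht⟩ := exists_ord_eq_one (infPlace hx)
  have key := fun {y : E} (hy : y ≠ 0) => Top.ord_eq_mul_of_mem_iff (infPlace hx)
    (fun f => (f : LaurentSeries K).order) (fun f _ => mem_qRing E f)
    (fun f g hf hg => order_mul' (fun h => hf (Subtype.ext h)) (fun h => hg (Subtype.ext h)))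
    ht hy
  have hx0 : x ≠ 0 := by
    rintro rfl
    have : ((0 : E) : LaurentSeries K).order = 0 := HahnSeries.order_zero
    omega
  have h1 := key hx0
  beta_reduce at h1
  rw [hx] at h1
  have h2 : 0 ≤ (t : LaurentSeries K).order := by
    have h3 : t ∈ (infPlace hx).toValuationSubring := by
      rw [mem_iff_ord_nonneg]
      omega
    exact h3
  have h3 : (t : LaurentSeries K).order = 1 := by
    have h4 : (t : LaurentSeries K).order ∣ 1 := by
      refine ⟨-(infPlace hx).ord x, ?_⟩
      linarith
    exact Int.eq_one_of_dvd_one h2 h4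
  have h4 := key hf
  beta_reduce at h4
  rw [h3, mul_one] at h4
  exact h4.symm

theorem hasVal_infPlace {f : E} {c : K} :
    HasVal (infPlace hx) f c ↔ (∀ n < 0, (f : LaurentSeries K).coeff n = 0) ∧
      (f : LaurentSeries K).coeff 0 = c := by
  have h1 : HasVal (infPlace hx) f c ↔ f - algebraMap K E c = 0 ∨
      0 < (infPlace hx).ord (f - algebraMap K E c) := hasVal_iff
  rw [h1, ord_infPlace]
  have h2 : (f - algebraMap K E c = 0 ∨
      0 < ((f - algebraMap K E c : E) : LaurentSeries K).order) ↔
      (((f - algebraMap K E c : E) : LaurentSeries K) = 0 ∨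
        1 ≤ ((f - algebraMap K E c : E) : LaurentSeries K).order) := by
    apply or_congr
    · exact ⟨fun h => by rw [h]; rfl, fun h => Subtype.ext h⟩
    · exact Iff.rfl
  rw [h2, le_order_iff']
  have h3 : ∀ n, ((f - algebraMap K E c : E) : LaurentSeries K).coeff n =
      (f : LaurentSeries K).coeff n - if n = 0 then c else 0 := by
    intro n
    rw [show ((f - algebraMap K E c : E) : LaurentSeries K) =
      (f : LaurentSeries K) - algebraMap K (LaurentSeries K) c from rfl, HahnSeries.coeff_sub,
      algebraMap_eq_C]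
    congr 1
    rw [HahnSeries.C_apply, HahnSeries.coeff_single]
    split_ifs <;> rfl
  constructor
  · intro h
    refine ⟨fun n hn => ?_, ?_⟩
    · have := h n (by omega)
      rwa [h3, if_neg (by omega), sub_zero] at this
    · have := h 0 (by omega)
      rwa [h3, if_pos rfl, sub_eq_zero] at this
  · rintro ⟨h4, h5⟩ n hn
    rw [h3]
    rcases lt_or_eq_of_le (show n ≤ 0 by omega) with h | rfl
    · rw [h4 n h, if_neg (by omega), sub_zero]
    · rw [h5, if_pos rfl, sub_self]

end Place

section Coeff

variable {K : Type*} [Field K]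

/-- the coefficient functional. -/
def coeffFun (E : IntermediateField K (LaurentSeries K)) (n : ℤ) : E →ₗ[K] K where
  toFun f := (f : LaurentSeries K).coeff n
  map_add' f g := by
    rw [show ((f + g : E) : LaurentSeries K) = (f : LaurentSeries K) + g from rfl,
      HahnSeries.coeff_add]
  map_smul' c f := by
    rw [Algebra.smul_def, show ((algebraMap K E c * f : E) : LaurentSeries K) =
      algebraMap K (LaurentSeries K) c * (f : LaurentSeries K) from rfl, algebraMap_eq_C,
      HahnSeries.C_mul_eq_smul, HahnSeries.coeff_smul, RingHom.id_apply]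

theorem coeffFun_apply (E : IntermediateField K (LaurentSeries K)) (n : ℤ) (f : E) :
    coeffFun E n f = (f : LaurentSeries K).coeff n := rfl

end Coeff

section Setting

variable {K k : Type*} [Field K] [Field k] {A : ValuationSubring K} {π : A →+* k}
  {E : IntermediateField K (LaurentSeries K)} {Ek : IntermediateField k (LaurentSeries k)}

/-- The setting: a constant reduction given by the Gauss valuation, and a function `x` with a
simple pole at infinity. -/
structure QSet (R : ConstRed A π E Ek) (x : E) (xb : Ek) (X : LaurentSeries A) : Prop where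
  isRed_iff : ∀ (f : E) (z : Ek), R.IsRed f z ↔ GRed π (f : LaurentSeries K) z
  coe_x : (x : LaurentSeries K) = iotaA A X
  coe_xb : (xb : LaurentSeries k) = rhoA π X
  coeff_neg_one : X.coeff (-1) = 1
  coeff_lt : ∀ n < -1, X.coeff n = 0

variable {R : ConstRed A π E Ek} {x : E} {xb : Ek} {X : LaurentSeries A} (hQ : QSet R x xb X)

theorem order_of_coeff {L : Type*} [CommRing L] [Nontrivial L] {f : LaurentSeries L} {m : ℤ}
    (h1 : f.coeff m = 1) (h2 : ∀ n < m, f.coeff n = 0) : f.order = m := by
  apply le_antisymm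
  · apply HahnSeries.order_le_of_coeff_ne_zero
    rw [h1]
    exact one_ne_zero
  · by_contra hlt
    have h0 : f ≠ 0 := by
      rintro rfl
      rw [HahnSeries.coeff_zero] at h1
      exact zero_ne_one h1
    exact h0 (HahnSeries.coeff_order_eq_zero.mp (h2 _ (not_le.mp hlt)))

include hQ

theorem QSet.order_X : X.order = -1 := order_of_coeff hQ.coeff_neg_one hQ.coeff_lt

theorem QSet.order_x : (x : LaurentSeries K).order = -1 := by
  apply order_of_coeff
  · rw [hQ.coe_x, coeffMap_coeff, hQ.coeff_neg_one, map_one]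
  · intro n hn
    rw [hQ.coe_x, coeffMap_coeff, hQ.coeff_lt n hn, map_zero]

theorem QSet.order_xb : (xb : LaurentSeries k).order = -1 := by
  apply order_of_coeff
  · rw [hQ.coe_xb, coeffMap_coeff, hQ.coeff_neg_one, map_one]
  · intro n hn
    rw [hQ.coe_xb, coeffMap_coeff, hQ.coeff_lt n hn, map_zero]

theorem QSet.x_ne_zero : x ≠ 0 := by
  rintro rfl
  have h1 := hQ.order_x
  have h2 : ((0 : E) : LaurentSeries K).order = 0 := HahnSeries.order_zero
  omega

theorem QSet.exists_inv : ∃ T : LaurentSeries A, X * T = 1 := by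
  have h0 : X ≠ 0 := by
    intro h
    have := hQ.coeff_neg_one
    rw [h, HahnSeries.coeff_zero] at this
    exact zero_ne_one this
  have h1 : IsUnit X := by
    rw [HahnSeries.isUnit_iff, HahnSeries.leadingCoeff_eq, hQ.order_X, hQ.coeff_neg_one]
    exact isUnit_one
  exact h1.exists_right_inv

theorem QSet.exists_T : ∃ T : LaurentSeries A, iotaA A T = ((x⁻¹ : E) : LaurentSeries K) ∧
    rhoA π T = ((xb⁻¹ : Ek) : LaurentSeries k) := by
  obtain ⟨T, hT⟩ := hQ.exists_inv
  refine ⟨T, ?_, ?_⟩
  · rw [show ((x⁻¹ : E) : LaurentSeries K) = (x : LaurentSeries K)⁻¹ from rfl, hQ.coe_x]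
    apply eq_inv_of_mul_eq_one_right
    rw [← map_mul, hT, map_one]
  · rw [show ((xb⁻¹ : Ek) : LaurentSeries k) = (xb : LaurentSeries k)⁻¹ from rfl, hQ.coe_xb]
    apply eq_inv_of_mul_eq_one_right
    rw [← map_mul, hT, map_one]

theorem QSet.isRed_xinv : R.IsRed x⁻¹ xb⁻¹ := by
  obtain ⟨T, h1, h2⟩ := hQ.exists_T
  rw [hQ.isRed_iff, ← h1, ← h2]
  exact gRed_iota π T

/-- functions integral over `K[1/x]` and integral for the Gauss valuation have integral
`q`-expansions which are reduced coefficientwise. -/
theorem QSet.exists_iota (hr : RankOne A) (hx : Red.IsCoord R x⁻¹ xb⁻¹) {f : E} {z : Ek}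
    (h : R.IsRed f z) (hf : IsIntegral (Algebra.adjoin K {x⁻¹}) f) :
    ∃ y : LaurentSeries A, iotaA A y = f ∧ rhoA π y = z := by
  obtain ⟨g, hg, h0⟩ := hx.exists_monic h.mem hf
  obtain ⟨T, h1, h2⟩ := hQ.exists_T
  refine exists_iota_of_gRed hr ((hQ.isRed_iff f z).mp h) ?_
  let φ : Polynomial A →+* LaurentSeries A := Polynomial.eval₂RingHom
    (HahnSeries.C : A →+* LaurentSeries A) T
  refine ⟨g.map φ, hg.map φ, ?_⟩
  rw [Polynomial.eval₂_map]
  have h3 : (iotaA A).comp φ = (algebraMap E (LaurentSeries K)).comp (theta A x⁻¹) := by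
    apply Polynomial.ringHom_ext
    · intro a
      rw [RingHom.comp_apply, RingHom.comp_apply, theta_apply]
      simp only [φ, Polynomial.coe_eval₂RingHom, Polynomial.eval₂_C, Polynomial.map_C,
        Polynomial.aeval_C]
      change iotaA A (HahnSeries.C a) = algebraMap K (LaurentSeries K) a
      rw [algebraMap_eq_C, iotaA, coeffMap_single_zero]
      rfl
    · rw [RingHom.comp_apply, RingHom.comp_apply, theta_apply]
      simp only [φ, Polynomial.coe_eval₂RingHom, Polynomial.eval₂_X, Polynomial.map_X,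
        Polynomial.aeval_X]
      exact h1
  rw [h3]
  have h4 := congrArg (algebraMap E (LaurentSeries K)) h0
  rw [Polynomial.hom_eval₂, map_zero] at h4
  exact h4

variable [IsAlgClosed K] [IsAlgClosed k] [IsFnField K E] [IsFnField k Ek]

/-- the cusp infinity specialises to the cusp infinity. -/
theorem QSet.sp (hr : RankOne A) (hx : Red.IsCoord R x⁻¹ xb⁻¹) :
    Sp R x⁻¹ xb⁻¹ (infPlace hQ.order_x) (infPlace hQ.order_xb) := by
  obtain ⟨T, h1, h2⟩ := hQ.exists_T
  have hTord : ((x⁻¹ : E) : LaurentSeries K).order = 1 := by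
    rw [show ((x⁻¹ : E) : LaurentSeries K) = (x : LaurentSeries K)⁻¹ from rfl, order_inv',
      hQ.order_x, neg_neg]
  have hTbord : ((xb⁻¹ : Ek) : LaurentSeries k).order = 1 := by
    rw [show ((xb⁻¹ : Ek) : LaurentSeries k) = (xb : LaurentSeries k)⁻¹ from rfl, order_inv',
      hQ.order_xb, neg_neg]
  refine ⟨⟨0, ?_⟩, ?_, ?_⟩
  · rw [ZeroMemClass.coe_zero, hasVal_zero_iff, ord_infPlace, hTord]
    exact Or.inr one_pos
  · rw [ord_infPlace, hTbord]
    norm_num
  · intro f z c hfz hf hc
    obtain ⟨y, hy1, hy2⟩ := hQ.exists_iota hr hx hfz hf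
    rw [hasVal_infPlace] at hc
    have h0 : ∀ n, ((y.coeff n : A) : K) = (f : LaurentSeries K).coeff n := fun n => by
      rw [← hy1, coeffMap_coeff]
      rfl
    have hcA : c ∈ A := by
      rw [← hc.2, ← h0]
      exact Subtype.property _
    refine ⟨hcA, ?_⟩
    rw [hasVal_infPlace]
    constructor
    · intro n hn
      have h3 : y.coeff n = 0 := Subtype.ext ((h0 n).trans (hc.1 n hn))
      rw [← hy2, coeffMap_coeff, h3, map_zero]
    · rw [← hy2, coeffMap_coeff]
      congr 1
      exact Subtype.ext ((h0 0).trans hc.2)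

variable [CharZero K] {S : Spec R}
  (hS : ∀ P, S.r P = infPlace hQ.order_xb ↔ Sp R x⁻¹ xb⁻¹ P (infPlace hQ.order_xb))

include hS in
theorem QSet.reg_xinv : Reg S (infPlace hQ.order_xb) x⁻¹ := by
  refine ⟨hQ.isRed_xinv.mem, fun P hP => ?_⟩
  obtain ⟨⟨a, ha⟩, -, -⟩ := (hS P).mp hP
  exact ha.nonneg

theorem QSet.ord_xinv : (infPlace hQ.order_x).ord x⁻¹ = 1 := by
  rw [Place.ord_inv, ord_infPlace, hQ.order_x, neg_neg]

theorem QSet.ord_xbinv : (infPlace hQ.order_xb).ord xb⁻¹ = 1 := by
  rw [Place.ord_inv, ord_infPlace, hQ.order_xb, neg_neg]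

variable {Γ : Type*} [Group Γ] [MulSemiringAction Γ K] {ρ : Γ →* SemilinearAut K E}
  (hcoe : ∀ (g : Γ) (f : E) (n : ℤ), ((ρ g • f : E) : LaurentSeries K).coeff n =
    g • (f : LaurentSeries K).coeff n)
  (hX : ∀ (g : Γ) (n : ℤ), g • ((X.coeff n : A) : K) = (X.coeff n : A))

omit hQ in
include hcoe in
theorem order_smul_coe (g : Γ) (f : E) :
    ((ρ g • f : E) : LaurentSeries K).order = (f : LaurentSeries K).order := by
  by_cases hf : f = 0
  · rw [hf, smul_zero]
  have hf' : (f : LaurentSeries K) ≠ 0 := fun h => hf (Subtype.ext h)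
  apply le_antisymm
  · apply HahnSeries.order_le_of_coeff_ne_zero
    rw [hcoe, ne_eq, smul_eq_zero_iff_eq]
    exact fun h => hf' (HahnSeries.coeff_order_eq_zero.mp h)
  · have h2 : (((ρ g • f : E) : LaurentSeries K) = 0 ∨
        (f : LaurentSeries K).order ≤ ((ρ g • f : E) : LaurentSeries K).order) := by
      rw [le_order_iff']
      intro n hn
      rw [hcoe, HahnSeries.coeff_eq_zero_of_lt_order hn, smul_zero]
    rcases h2 with h2 | h2
    · exfalso
      apply hf
      have h3 : ρ g • f = 0 := Subtype.ext h2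
      have h4 := congrArg (fun y => (ρ g)⁻¹ • y) h3
      simpa using h4
    · exact h2

include hcoe in
theorem QSet.smul_infPlace (g : Γ) : ρ g • infPlace hQ.order_x = infPlace hQ.order_x := by
  apply Place.ext
  ext f
  rw [mem_iff_ord_nonneg, mem_iff_ord_nonneg]
  have h1 := SemilinearAut.ord_smul (ρ g) (infPlace hQ.order_x) ((ρ g)⁻¹ • f)
  rw [smul_inv_smul, ord_infPlace, ← map_inv, order_smul_coe hcoe] at h1
  rw [h1, ord_infPlace]

include hcoe hX in
theorem QSet.smul_x (g : Γ) : ρ g • x = x := by
  apply Subtype.ext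
  ext n
  rw [hcoe, hQ.coe_x, coeffMap_coeff]
  exact hX g n

include hcoe hX hS in
theorem QSet.locPar : LocPar S ρ (infPlace hQ.order_xb) x⁻¹ := by
  refine ⟨hQ.reg_xinv hS, ?_, fun g => ?_⟩
  · rw [hQ.isRed_xinv.rd_eq, hQ.ord_xbinv]
  · rw [smul_inv'', hQ.smul_x hcoe hX]

include hcoe hX hS in
theorem QSet.coefSys (hr : RankOne A) (hx : Red.IsCoord R x⁻¹ xb⁻¹) :
    CoefSys S ρ (infPlace hQ.order_xb) (coeffFun E) (coeffFun Ek) := by
  have hinf : S.r (infPlace hQ.order_x) = infPlace hQ.order_xb :=
    (hS _).mpr (hQ.sp hr hx)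
  have ht := hQ.locPar hS hcoe hX
  obtain ⟨T, hT1, hT2⟩ := hQ.exists_T
  refine ⟨fun g n f => hcoe g f n, fun z hz => Subtype.ext (HahnSeries.ext (funext hz)),
    fun f hf n => ?_⟩
  -- all coefficients are integral
  have key : ∀ m, (f : LaurentSeries K).coeff m ∈ A := by
    intro m
    set N : ℕ := (m + 1).toNat with hN
    have h1 := ht.taylor (f := f) N
    have h2 : ∀ l, ∃ y : LaurentSeries A,
        iotaA A y = ((algebraMap K E (ht.coef f l) * x⁻¹ ^ l : E) : LaurentSeries K) := by
      intro l
      refine ⟨HahnSeries.C ⟨ht.coef f l, ht.coef_mem hf l⟩ * T ^ l, ?_⟩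
      rw [map_mul, map_pow, hT1, iotaA, coeffMap_single_zero]
      rw [show ((algebraMap K E (ht.coef f l) * x⁻¹ ^ l : E) : LaurentSeries K) =
        algebraMap K (LaurentSeries K) (ht.coef f l) * ((x⁻¹ : E) : LaurentSeries K) ^ l from rfl,
        algebraMap_eq_C]
      rfl
    choose y hy using h2
    have h3 : (f : LaurentSeries K) = iotaA A (∑ l ∈ Finset.range N, y l) +
        ((x⁻¹ ^ N * ht.rem f N : E) : LaurentSeries K) := by
      conv_lhs => rw [h1]
      rw [map_sum]
      simp only [hy]
      have h5 := map_sum (algebraMap E (LaurentSeries K))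
        (fun l => algebraMap K E (ht.coef f l) * x⁻¹ ^ l) (Finset.range N)
      exact congrArg (· + _) h5
    have h4 : ((x⁻¹ ^ N * ht.rem f N : E) : LaurentSeries K).coeff m = 0 := by
      refine (le_order_iff' _ (N : ℤ)).mp ?_ m (by omega)
      by_cases h0 : x⁻¹ ^ N * ht.rem f N = 0
      · left
        rw [h0]
        rfl
      · right
        rw [← ord_infPlace hQ.order_x, Place.ord_mul _ (left_ne_zero_of_mul h0)
          (right_ne_zero_of_mul h0), ord_pow, hQ.ord_xinv, mul_one]
        have := (ht.reg_rem hf N).2 _ hinf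
        omega
    rw [h3, HahnSeries.coeff_add, h4, add_zero]
    exact coeff_iota_mem _ _
  obtain ⟨y, hy⟩ := exists_iota_of_coeff key
  have h5 := (hQ.isRed_iff _ _).mp (R.isRed_rd hf.1)
  rw [← hy] at h5
  have h6 := h5.unique (gRed_iota π y)
  refine ⟨key n, ?_⟩
  have h7 : coeffFun Ek n (R.rd f) = π (y.coeff n) := by
    rw [coeffFun_apply, h6, coeffMap_coeff]
  rw [h7]
  congr 1
  apply Subtype.ext
  change (f : LaurentSeries K).coeff n = _
  rw [← hy, coeffMap_coeff]
  rfl

end Setting

end Fermat.Agent.FFM
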