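import Fermat.Agent.FFM.General

/-!
# Admissible data and coordinates of divisor classes
-/

set_option autoImplicit false
set_option linter.unusedSectionVars false
set_option linter.style.haveILetI false

open AlgebraicCurve Fermat.Agent.FF Fermat.Agent.RR Fermat.Agent.Red

namespace Fermat.Agent.FFM

variable {K k : Type*} [Field K] [Field k] [IsAlgClosed K] [IsAlgClosed k] [CharZero K]
  {A : ValuationSubring K} {π : A →+* k}
  {F Fk : Type*} [Field F] [Algebra K F] [Field Fk] [Algebra k Fk] [IsFnField K F]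
  [IsFnField k Fk] {R : ConstRed A π F Fk}
  {Γ : Type*} [Group Γ] [MulSemiringAction Γ K]

section Push

variable {S : Spec R}

theorem push_linEq {D E : Divisor K F} (h : LinEq D E) : LinEq (push S D) (push S E) := by
  obtain ⟨f, hf, hfe⟩ := h.exists_divOf
  obtain ⟨c, hc, z, hz, hred⟩ := R.exists_isRed_mul hf
  have h1 := push_divOf (S := S) hred hz
  have h2 : RR.divOf (K := K) (algebraMap K F c * f) = RR.divOf f := by
    ext P
    rw [RR.divOf_apply, RR.divOf_apply, Place.ord_mul _ (by simpa using hc) hf, ord_algebraMap,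
      zero_add]
  rw [h2] at h1
  rw [hfe, push_add, h1]
  exact linEq_add_divOf _ hz

theorem push_neg (D : Divisor K F) : push S (-D) = -push S D := by
  have h := push_sub (S := S) 0 D
  rw [zero_sub] at h
  rw [h]
  simp [push]

theorem push_zero : push S (0 : Divisor K F) = 0 := Finsupp.mapDomain_zero

theorem push_sum {ι : Type*} (s : Finset ι) (f : ι → Divisor K F) :
    push S (∑ i ∈ s, f i) = ∑ i ∈ s, push S (f i) := Finsupp.mapDomain_finsetSum

theorem push_apply_eq_zero {D : Divisor K F} {Q : Place k Fk} (h : ∀ P, S.r P = Q → D P = 0) :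
    push S D Q = 0 := by
  classical
  rw [push, mapDomain_apply_sum]
  refine Finset.sum_eq_zero fun P hP => ?_
  rw [Finset.mem_filter] at hP
  exact h P hP.2

/-- an effective divisor with reduced specialisation is a sum of distinct places. -/
theorem exists_eq_sum_single (s : Finset (Place k Fk)) (E : Divisor K F) (h0 : 0 ≤ E)
    (h : push S E = sumDiv s) : ∃ p : Place k Fk → Place K F, (∀ Q ∈ s, S.r (p Q) = Q) ∧
      E = ∑ Q ∈ s, Finsupp.single (p Q) 1 := by
  classical
  induction s using Finset.induction_on generalizing E with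
  | empty =>
    refine ⟨Function.surjInv S.surj, by simp, ?_⟩
    rw [Finset.sum_empty]
    refine (eq_of_le_of_degree_le h0 ?_).symm
    rw [← degree_push (S := S) E, h, sumDiv, Finset.sum_empty, map_zero, map_zero]
  | insert Q s hQ ih =>
    have h1 : push S E Q = 1 := by
      rw [h, sumDiv_apply, if_pos (Finset.mem_insert_self Q s)]
    obtain ⟨P, hP, hEP⟩ : ∃ P, S.r P = Q ∧ 1 ≤ E P := by
      by_contra hcon
      push Not at hcon
      have : push S E Q = 0 := push_apply_eq_zero fun P hP => by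
        have h2 := hcon P hP
        have h3 := h0 P
        rw [Finsupp.coe_zero, Pi.zero_apply] at h3
        omega
      omega
    obtain ⟨p, hp, hpe⟩ := ih (E - Finsupp.single P 1) (by
      intro P'
      have h3 := h0 P'
      rw [Finsupp.coe_zero, Pi.zero_apply] at h3 ⊢
      rw [Finsupp.sub_apply, Finsupp.single_apply]
      split_ifs with hPP
      · subst hPP; omega
      · omega) (by
      rw [push_sub, push_single, hP, h, sumDiv_insert hQ, add_sub_cancel_right])
    refine ⟨Function.update p Q P, fun Q' hQ' => ?_, ?_⟩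
    · rcases Finset.mem_insert.mp hQ' with rfl | hQ''
      · rw [Function.update_self, hP]
      · rw [Function.update_of_ne (by rintro rfl; exact hQ hQ''), hp Q' hQ'']
    · rw [Finset.sum_insert hQ, Function.update_self]
      rw [← add_sub_cancel (Finsupp.single P 1) E, hpe]
      congr 1
      refine Finset.sum_congr rfl fun Q' hQ' => ?_
      rw [Function.update_of_ne (by rintro rfl; exact hQ hQ')]

theorem eq_of_sum_single_eq (s : Finset (Place k Fk)) {p p' : Place k Fk → Place K F}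
    (hp : ∀ Q ∈ s, S.r (p Q) = Q) (hp' : ∀ Q ∈ s, S.r (p' Q) = Q)
    (h : ∑ Q ∈ s, (Finsupp.single (p Q) 1 : Divisor K F) = ∑ Q ∈ s, Finsupp.single (p' Q) 1) :
    ∀ Q ∈ s, p Q = p' Q := by
  classical
  intro Q hQ
  have h1 := DFunLike.congr_fun h (p Q)
  rw [Finsupp.finsetSum_apply, Finsupp.finsetSum_apply, Finset.sum_eq_single Q] at h1
  · rw [Finsupp.single_eq_same] at h1
    by_contra hne
    rw [Finset.sum_eq_zero] at h1
    · exact one_ne_zero h1
    · intro Q' hQ'
      rw [Finsupp.single_apply, if_neg]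
      intro heq
      have : Q' = Q := by rw [← hp' Q' hQ', heq, hp Q hQ]
      subst this
      exact hne heq.symm
  · intro Q' hQ' hne
    rw [Finsupp.single_apply, if_neg]
    intro heq
    exact hne (by rw [← hp Q' hQ', heq, hp Q hQ])
  · intro h; exact absurd hQ h

theorem push_sum_single (s : Finset (Place k Fk)) {p : Place k Fk → Place K F}
    (hp : ∀ Q ∈ s, S.r (p Q) = Q) :
    push S (∑ Q ∈ s, Finsupp.single (p Q) 1) = sumDiv s := by
  rw [push_sum, sumDiv]
  exact Finset.sum_congr rfl fun Q hQ => by rw [push_single, hp Q hQ]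

theorem sum_single_nonneg (s : Finset (Place k Fk)) (p : Place k Fk → Place K F) :
    (0 : Divisor K F) ≤ ∑ Q ∈ s, Finsupp.single (p Q) 1 := by
  classical
  refine Finset.sum_nonneg fun Q _ => fun P => ?_
  rw [Finsupp.single_apply]
  change (0 : ℤ) ≤ _
  split_ifs <;> omega

end Push

/-- An admissible datum. -/
structure Datum (S : Spec R) (ρ : Γ →* SemilinearAut K F) where
  /-- the reductions of the points of the divisors -/
  E : Finset (Place k Fk)
  /-- the auxiliary divisor -/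
  B : Divisor K F
  /-- local parameters -/
  t : Place k Fk → F
  card : E.card = genusFF k Fk
  nonsp : ell (sumDiv E) = 1
  inv : ∀ g, ρ g • B = B
  off : ∀ P, S.r P ∈ E → B P = 0
  deg : Divisor.degree B = genusFF k Fk
  par : ∀ Q ∈ E, LocPar S ρ Q (t Q)

namespace Datum

variable {S : Spec R} {ρ : Γ →* SemilinearAut K F} (G : Geo S ρ) (d : Datum S ρ)

/-- the class of the reduction for which the datum is admissible -/
noncomputable def cls : Divisor k Fk := sumDiv d.E - push S d.B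

theorem degree_cls : Divisor.degree d.cls = 0 := by
  rw [cls, map_sub, degree_push, degree_sumDiv, d.card, d.deg, sub_self]

include G in
theorem exists_pt {D : Divisor K F} (h : LinEq (push S D) d.cls) :
    ∃ p : Place k Fk → Place K F, (∀ Q ∈ d.E, S.r (p Q) = Q) ∧
      LinEq (∑ Q ∈ d.E, Finsupp.single (p Q) 1) (d.B + D) := by
  have h1 : LinEq (push S (d.B + D)) (sumDiv d.E) := by
    rw [push_add]
    have := (LinEq.refl (push S d.B)).add h
    rwa [cls, add_sub_cancel] at this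
  have hdeg : Divisor.degree (d.B + D) = genusFF k Fk := by
    rw [← degree_push (S := S), h1.degree_eq, degree_sumDiv, d.card]
  have hpos : 0 < ell (d.B + D) := by
    have := riemann_ineq (d.B + D)
    rw [hdeg, G.genus_eq] at this
    omega
  obtain ⟨E, hE0, hE⟩ := exists_effective_linEq hpos
  have h2 : push S E = sumDiv d.E := by
    refine eq_of_linEq ?_ (sumDiv_nonneg _) ((push_linEq hE).trans h1) d.nonsp.le
    have := push_mono (S := S) hE0
    rwa [push_zero] at this
  obtain ⟨p, hp, rfl⟩ := exists_eq_sum_single d.E E hE0 h2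
  exact ⟨p, hp, hE⟩

open Classical in
/-- the points of the divisor representing the class of `B + D` -/
noncomputable def pt (D : Divisor K F) : Place k Fk → Place K F :=
  if h : LinEq (push S D) d.cls then (d.exists_pt G h).choose else Function.surjInv S.surj

theorem r_pt {D : Divisor K F} {Q : Place k Fk} (hQ : Q ∈ d.E) : S.r (d.pt G D Q) = Q := by
  unfold pt
  split_ifs with h
  · exact (d.exists_pt G h).choose_spec.1 Q hQ
  · exact Function.surjInv_eq S.surj Q

theorem linEq_pt {D : Divisor K F} (h : LinEq (push S D) d.cls) :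
    LinEq (∑ Q ∈ d.E, Finsupp.single (d.pt G D Q) 1) (d.B + D) := by
  rw [pt, dif_pos h]
  exact (d.exists_pt G h).choose_spec.2

theorem pt_unique {D : Divisor K F} (h : LinEq (push S D) d.cls) {p : Place k Fk → Place K F}
    (hp : ∀ Q ∈ d.E, S.r (p Q) = Q)
    (hlin : LinEq (∑ Q ∈ d.E, Finsupp.single (p Q) 1) (d.B + D)) :
    ∀ Q ∈ d.E, p Q = d.pt G D Q := by
  refine eq_of_sum_single_eq d.E hp (fun Q hQ => d.r_pt G hQ) ?_
  refine eq_of_linEq (sum_single_nonneg _ _) (sum_single_nonneg _ _)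
    (hlin.trans (d.linEq_pt G h).symm) ?_
  refine (G.ell_le _).trans ?_
  rw [push_sum_single d.E (fun Q hQ => d.r_pt G hQ), d.nonsp]

theorem pt_congr {D D' : Divisor K F} (h : LinEq (push S D) d.cls) (hD : LinEq D' D) :
    ∀ Q ∈ d.E, d.pt G D' Q = d.pt G D Q := by
  have h' : LinEq (push S D') d.cls := (push_linEq hD).trans h
  exact d.pt_unique G h (fun Q hQ => d.r_pt G hQ)
    ((d.linEq_pt G h').trans ((LinEq.refl _).add hD))

include G in
theorem push_smul (g : Γ) (D : Divisor K F) : push S (ρ g • D) = push S D := by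
  rw [SemilinearAut.divisor_smul_def, push, ← Finsupp.mapDomain_comp]
  congr 1
  funext P
  exact G.r_smul g P

theorem pt_smul {D : Divisor K F} (h : LinEq (push S D) d.cls) (g : Γ) :
    ∀ Q ∈ d.E, d.pt G (ρ g • D) Q = ρ g • d.pt G D Q := by
  have h' : LinEq (push S (ρ g • D)) d.cls := by rwa [push_smul G g D]
  intro Q hQ
  symm
  refine d.pt_unique G h' (p := fun Q => ρ g • d.pt G D Q) (fun Q hQ => ?_) ?_ Q hQ
  · rw [G.r_smul, d.r_pt G hQ]
  · have h2 := (d.linEq_pt G h).smul (ρ g)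
    rw [smul_add, d.inv, Finset.smul_sum] at h2
    simpa only [SemilinearAut.smul_single] using h2

/-- the coordinates of a divisor class -/
noncomputable def co (D : Divisor K F) (Q : Place k Fk) : K := ev (d.pt G D Q) (d.t Q)

theorem co_mem_nonunits (D : Divisor K F) {Q : Place k Fk} (hQ : Q ∈ d.E) :
    d.co G D Q ∈ A.nonunits := (d.par Q hQ).ev_mem_nonunits (d.r_pt G hQ)

theorem co_mem (D : Divisor K F) {Q : Place k Fk} (hQ : Q ∈ d.E) : d.co G D Q ∈ A :=
  mem_of_mem_nonunits (d.co_mem_nonunits G D hQ)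

theorem co_congr {D D' : Divisor K F} (h : LinEq (push S D) d.cls) (hD : LinEq D' D)
    {Q : Place k Fk} (hQ : Q ∈ d.E) : d.co G D' Q = d.co G D Q := by
  rw [co, co, d.pt_congr G h hD Q hQ]

theorem co_smul {D : Divisor K F} (h : LinEq (push S D) d.cls) (g : Γ) {Q : Place k Fk}
    (hQ : Q ∈ d.E) : d.co G (ρ g • D) Q = g • d.co G D Q := by
  rw [co, co, d.pt_smul G h g Q hQ,
    ← G.ev_smul g _ ((d.par Q hQ).reg.2 _ (d.r_pt G hQ)), (d.par Q hQ).inv]

theorem linEq_of_co_eq {D D' : Divisor K F} (h : LinEq (push S D) d.cls)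
    (h' : LinEq (push S D') d.cls) (he : ∀ Q ∈ d.E, d.co G D Q = d.co G D' Q) : LinEq D D' := by
  have h1 : ∀ Q ∈ d.E, d.pt G D Q = d.pt G D' Q := fun Q hQ =>
    (d.par Q hQ).eq_of_ev_eq (d.r_pt G hQ) (d.r_pt G hQ) (he Q hQ)
  have h2 := d.linEq_pt G h
  rw [Finset.sum_congr rfl fun Q hQ => by rw [h1 Q hQ]] at h2
  have h3 := (h2.symm.trans (d.linEq_pt G h')).sub (LinEq.refl d.B)
  rwa [add_sub_cancel_left, add_sub_cancel_left] at h3

end Datum

section Fam

variable {S : Spec R} {ρ : Γ →* SemilinearAut K F}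
variable {X : Type*} [MulAction Γ X]

variable (ρ) in
/-- families of divisors (classes) with constant reduction -/
structure Fam (S : Spec R) (x : Divisor k Fk) (P : X → Divisor K F) : Prop where
  red : ∀ a, LinEq (push S (P a)) x
  equiv : ∀ (g : Γ) a, LinEq (P (g • a)) (ρ g • P a)

theorem Fam.congr {x x' : Divisor k Fk} {P : X → Divisor K F} (h : Fam ρ S x P) (hx : LinEq x x') :
    Fam ρ S x' P := ⟨fun a => (h.red a).trans hx, h.equiv⟩

theorem Fam.neg {x : Divisor k Fk} {P : X → Divisor K F} (h : Fam ρ S x P) :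
    Fam ρ S (-x) (fun a => -P a) :=
  ⟨fun a => by rw [push_neg]; exact (h.red a).neg,
    fun g a => by rw [smul_neg]; exact (h.equiv g a).neg⟩

theorem Fam.add {x x' : Divisor k Fk} {P P' : X → Divisor K F} (h : Fam ρ S x P)
    (h' : Fam ρ S x' P') : Fam ρ S (x + x') (fun a => P a + P' a) :=
  ⟨fun a => by rw [push_add]; exact (h.red a).add (h'.red a),
    fun g a => by rw [smul_add]; exact (h.equiv g a).add (h'.equiv g a)⟩

theorem Fam.zero : Fam ρ S (0 : Divisor k Fk) (fun _ : X => (0 : Divisor K F)) :=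
  ⟨fun _ => by rw [push_zero]; exact LinEq.refl _, fun g _ => by rw [smul_zero]; exact LinEq.refl _⟩

variable (G : Geo S ρ)

/-- the coordinates of the family lie in `T`. -/
def IsInt (T : Subring (X → K)) (d : Datum S ρ) (P : X → Divisor K F) : Prop :=
  ∀ Q ∈ d.E, (fun a => d.co G (P a) Q) ∈ T

theorem Fam.isEquiv {d : Datum S ρ} {P : X → Divisor K F} (h : Fam ρ S d.cls P)
    {Q : Place k Fk} (hQ : Q ∈ d.E) : IsEquiv Γ (fun a => d.co G (P a) Q) := by
  intro g a
  change d.co G (P (g • a)) Q = g • d.co G (P a) Q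
  rw [← d.co_smul G (h.red a) g hQ]
  refine d.co_congr G ?_ (h.equiv g a) hQ
  rw [Datum.push_smul G]
  exact h.red a

/-- two data in general position -/
structure Sep (d d' : Datum S ρ) : Prop where
  disj : Disjoint d.E d'.E
  left : ∀ P, S.r P ∈ d.E → d'.B P = 0
  right : ∀ P, S.r P ∈ d'.E → d.B P = 0

theorem Sep.symm {d d' : Datum S ρ} (h : Sep d d') : Sep d' d := ⟨h.disj.symm, h.right, h.left⟩

variable [Fintype X] {T : Subring (X → K)} (hT : FunOrder Γ A T)

include hT in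
/-- The chord theorem for three families. -/
theorem chord3 {d₁ d₂ d₃ : Datum S ρ} (h12 : Sep d₁ d₂) (h13 : Sep d₁ d₃) (h23 : Sep d₂ d₃)
    {P₁ P₂ P₃ : X → Divisor K F} (hP₁ : Fam ρ S d₁.cls P₁) (hP₂ : Fam ρ S d₂.cls P₂)
    (hP₃ : Fam ρ S d₃.cls P₃) (hsum : ∀ a, LinEq (P₁ a + P₂ a + P₃ a) 0)
    (h₁ : IsInt G T d₁ P₁) (h₂ : IsInt G T d₂ P₂) : IsInt G T d₃ P₃ := by
  classical
  rcases isEmpty_or_nonempty X with hX | hX
  · intro Q _
    convert T.zero_mem using 1
  obtain ⟨a₀⟩ := hX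
  have hcls : LinEq (d₁.cls + d₂.cls + d₃.cls) 0 := by
    have h1 := push_linEq (S := S) (hsum a₀)
    rw [push_zero, push_add, push_add] at h1
    exact ((((hP₁.red a₀).add (hP₂.red a₀)).add (hP₃.red a₀)).symm).trans h1
  set C : Divisor K F := d₁.B + d₂.B + d₃.B with hC
  have hdis12 : ∀ Q, Q ∈ d₁.E → Q ∉ d₂.E := fun Q h h' => Finset.disjoint_left.mp h12.disj h h'
  have hdis13 : ∀ Q, Q ∈ d₁.E → Q ∉ d₃.E := fun Q h h' => Finset.disjoint_left.mp h13.disj h h'
  have hdis23 : ∀ Q, Q ∈ d₂.E → Q ∉ d₃.E := fun Q h h' => Finset.disjoint_left.mp h23.disj h h'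
  have hdisj : Disjoint (d₁.E ∪ d₂.E) d₃.E := by
    rw [Finset.disjoint_union_left]
    exact ⟨h13.disj, h23.disj⟩
  -- the points
  let p : Place k Fk → X → Place K F := fun Q a =>
    if Q ∈ d₁.E then d₁.pt G (P₁ a) Q else if Q ∈ d₂.E then d₂.pt G (P₂ a) Q
      else d₃.pt G (P₃ a) Q
  let t : Place k Fk → F := fun Q =>
    if Q ∈ d₁.E then d₁.t Q else if Q ∈ d₂.E then d₂.t Q else d₃.t Q
  have hp1 : ∀ Q ∈ d₁.E, ∀ a, p Q a = d₁.pt G (P₁ a) Q := fun Q hQ a => if_pos hQ
  have hp2 : ∀ Q ∈ d₂.E, ∀ a, p Q a = d₂.pt G (P₂ a) Q := fun Q hQ a => by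
    simp only [p]
    rw [if_neg (fun h => hdis12 Q h hQ), if_pos hQ]
  have hp3 : ∀ Q ∈ d₃.E, ∀ a, p Q a = d₃.pt G (P₃ a) Q := fun Q hQ a => by
    simp only [p]
    rw [if_neg (fun h => hdis13 Q h hQ), if_neg (fun h => hdis23 Q h hQ)]
  have ht1 : ∀ Q ∈ d₁.E, t Q = d₁.t Q := fun Q hQ => if_pos hQ
  have ht2 : ∀ Q ∈ d₂.E, t Q = d₂.t Q := fun Q hQ => by
    simp only [t]
    rw [if_neg (fun h => hdis12 Q h hQ), if_pos hQ]
  have ht3 : ∀ Q ∈ d₃.E, t Q = d₃.t Q := fun Q hQ => by
    simp only [t]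
    rw [if_neg (fun h => hdis13 Q h hQ), if_neg (fun h => hdis23 Q h hQ)]
  have hcases : ∀ Q ∈ (d₁.E ∪ d₂.E) ∪ d₃.E, Q ∈ d₁.E ∨ Q ∈ d₂.E ∨ Q ∈ d₃.E := by
    intro Q hQ
    rw [Finset.mem_union, Finset.mem_union, or_assoc] at hQ
    exact hQ
  have hsmul : ∀ (d : Datum S ρ) (P : X → Divisor K F), Fam ρ S d.cls P → ∀ Q ∈ d.E, ∀ (g : Γ) a,
      d.pt G (P (g • a)) Q = ρ g • d.pt G (P a) Q := by
    intro d P hP Q hQ g a
    rw [← d.pt_smul G (hP.red a) g Q hQ]
    refine d.pt_congr G ?_ (hP.equiv g a) Q hQ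
    rw [Datum.push_smul G]
    exact hP.red a
  have hsumsplit : ∀ a, ∑ Q ∈ (d₁.E ∪ d₂.E) ∪ d₃.E, (Finsupp.single (p Q a) 1 : Divisor K F) =
      ∑ Q ∈ d₁.E, Finsupp.single (d₁.pt G (P₁ a) Q) 1 +
      ∑ Q ∈ d₂.E, Finsupp.single (d₂.pt G (P₂ a) Q) 1 +
      ∑ Q ∈ d₃.E, Finsupp.single (d₃.pt G (P₃ a) Q) 1 := by
    intro a
    rw [Finset.sum_union hdisj, Finset.sum_union h12.disj]
    congr 1
    · congr 1
      · exact Finset.sum_congr rfl fun Q hQ => by rw [hp1 Q hQ]
      · exact Finset.sum_congr rfl fun Q hQ => by rw [hp2 Q hQ]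
    · exact Finset.sum_congr rfl fun Q hQ => by rw [hp3 Q hQ]
  have hlin : ∀ a, LinEq (∑ Q ∈ (d₁.E ∪ d₂.E) ∪ d₃.E, (Finsupp.single (p Q a) 1 : Divisor K F)) C := by
    intro a
    rw [hsumsplit]
    refine (((d₁.linEq_pt G (hP₁.red a)).add (d₂.linEq_pt G (hP₂.red a))).add
      (d₃.linEq_pt G (hP₃.red a))).trans ?_
    have h1 := (LinEq.refl C).add (hsum a)
    rw [add_zero] at h1
    refine LinEq.trans (linEq_of_eq ?_) h1
    rw [hC]
    abel
  choose h hh0 hh using fun a => (hlin a).exists_divOf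
  have hdegC : Divisor.degree C = 3 * (genusFF k Fk : ℤ) := by
    rw [hC, map_add, map_add, d₁.deg, d₂.deg, d₃.deg]; ring
  have hcard : (d₁.E ∪ d₂.E).card = 2 * genusFF k Fk := by
    rw [Finset.card_union_of_disjoint h12.disj, d₁.card, d₂.card]; ring
  have hC1 : ell C = (d₁.E ∪ d₂.E).card + 1 := by
    have h1 := ell_eq_of_lt_degree (D := C) (by rw [hdegC, G.genus_eq]; omega)
    rw [hdegC, G.genus_eq] at h1
    rw [hcard]
    omega
  have hC2 : ell (push S C) = (d₁.E ∪ d₂.E).card + 1 := by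
    rw [← hC1, G.ell_eq_of_lt (by rw [hdegC]; omega)]
  have hpushC : LinEq (push S C - sumDiv (d₁.E ∪ d₂.E)) (sumDiv d₃.E) := by
    have h1 : sumDiv (d₁.E ∪ d₂.E) = sumDiv d₁.E + sumDiv d₂.E := by
      rw [sumDiv, Finset.sum_union h12.disj]; rfl
    have h2 : push S C - sumDiv (d₁.E ∪ d₂.E) = sumDiv d₃.E - (d₁.cls + d₂.cls + d₃.cls) := by
      rw [h1, hC, push_add, push_add, Datum.cls, Datum.cls, Datum.cls]
      abel
    rw [h2]
    have h3 := (LinEq.refl (sumDiv d₃.E)).sub hcls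
    rwa [sub_zero] at h3
  have hmain := chord G hT (d₁.E ∪ d₂.E) d₃.E hdisj C
    (fun g => by rw [hC, smul_add, smul_add, d₁.inv, d₂.inv, d₃.inv])
    (fun Q hQ P hP => by
      rw [hC, Finsupp.add_apply, Finsupp.add_apply]
      rcases hcases Q hQ with hQ | hQ | hQ <;> rw [← hP] at hQ
      · rw [d₁.off P hQ, h12.left P hQ, h13.left P hQ]; rfl
      · rw [d₂.off P hQ, h12.right P hQ, h23.left P hQ]; rfl
      · rw [d₃.off P hQ, h13.right P hQ, h23.right P hQ]; rfl)
    hC1 hC2 (by rw [hpushC.ell_eq, d₃.nonsp]) p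
    (fun Q hQ a => by
      rcases hcases Q hQ with hQ | hQ | hQ
      · rw [hp1 Q hQ, d₁.r_pt G hQ]
      · rw [hp2 Q hQ, d₂.r_pt G hQ]
      · rw [hp3 Q hQ, d₃.r_pt G hQ])
    (fun Q hQ g a => by
      rcases hcases Q hQ with hQ | hQ | hQ
      · rw [hp1 Q hQ, hp1 Q hQ, hsmul d₁ P₁ hP₁ Q hQ]
      · rw [hp2 Q hQ, hp2 Q hQ, hsmul d₂ P₂ hP₂ Q hQ]
      · rw [hp3 Q hQ, hp3 Q hQ, hsmul d₃ P₃ hP₃ Q hQ])
    h hh0 (fun a => by rw [hh a]; abel) t
    (fun Q hQ => by
      rcases hcases Q hQ with hQ | hQ | hQ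
      · rw [ht1 Q hQ]; exact d₁.par Q hQ
      · rw [ht2 Q hQ]; exact d₂.par Q hQ
      · rw [ht3 Q hQ]; exact d₃.par Q hQ)
    (fun Q hQ => by
      rcases Finset.mem_union.mp hQ with hQ | hQ
      · have h1 := h₁ Q hQ
        have h2 : (fun a => ev (p Q a) (t Q)) = fun a => d₁.co G (P₁ a) Q := by
          funext a
          rw [hp1 Q hQ, ht1 Q hQ]; rfl
        rwa [h2]
      · have h1 := h₂ Q hQ
        have h2 : (fun a => ev (p Q a) (t Q)) = fun a => d₂.co G (P₂ a) Q := by
          funext a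
          rw [hp2 Q hQ, ht2 Q hQ]; rfl
        rwa [h2])
  intro Q hQ
  have h1 := hmain Q hQ
  have h2 : (fun a => ev (p Q a) (t Q)) = fun a => d₃.co G (P₃ a) Q := by
    funext a
    rw [hp3 Q hQ, ht3 Q hQ]; rfl
  rwa [h2] at h1

end Fam

end Fermat.Agent.FFM
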