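import Fermat.Agent.FFM.Integral

/-!
# The order attached to a finite group of divisor classes
-/

set_option autoImplicit false
set_option linter.unusedSectionVars false
set_option linter.style.haveILetI false

open AlgebraicCurve Fermat.Agent.FF Fermat.Agent.RR Fermat.Agent.Red
open scoped TensorProduct

namespace Fermat.Agent.FFM

section Tens

variable {K X Y : Type*} [Field K]

/-- the ring of functions `(x, y) ↦ ∑ a_i x * b_i y` -/
noncomputable def tensHom (H₁ : Subring (X → K)) (H₂ : Subring (Y → K)) :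
    (H₁ ⊗[ℤ] H₂) →ₐ[ℤ] (X × Y → K) :=
  Algebra.TensorProduct.lift
    (((RingHom.pi fun z : X × Y => Pi.evalRingHom (fun _ : X => K) z.1).comp
      H₁.subtype).toIntAlgHom)
    (((RingHom.pi fun z : X × Y => Pi.evalRingHom (fun _ : Y => K) z.2).comp
      H₂.subtype).toIntAlgHom)
    (fun _ _ => Commute.all _ _)

theorem tensHom_tmul (H₁ : Subring (X → K)) (H₂ : Subring (Y → K)) (a : H₁) (b : H₂) (x : X)
    (y : Y) : tensHom H₁ H₂ (a ⊗ₜ b) (x, y) = (a : X → K) x * (b : Y → K) y := by
  rw [tensHom, Algebra.TensorProduct.lift_tmul]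
  rfl

/-- the image of the tensor product -/
noncomputable def tensRing (H₁ : Subring (X → K)) (H₂ : Subring (Y → K)) : Subring (X × Y → K) :=
  (tensHom H₁ H₂).toRingHom.range

theorem mem_tensRing_fst {H₁ : Subring (X → K)} {H₂ : Subring (Y → K)} {a : X → K} (ha : a ∈ H₁) :
    (fun z : X × Y => a z.1) ∈ tensRing H₁ H₂ := by
  refine ⟨(⟨a, ha⟩ : H₁) ⊗ₜ (1 : H₂), ?_⟩
  funext ⟨x, y⟩
  refine (tensHom_tmul H₁ H₂ ⟨a, ha⟩ 1 x y).trans ?_
  exact mul_one _

theorem mem_tensRing_snd {H₁ : Subring (X → K)} {H₂ : Subring (Y → K)} {b : Y → K} (hb : b ∈ H₂) :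
    (fun z : X × Y => b z.2) ∈ tensRing H₁ H₂ := by
  refine ⟨(1 : H₁) ⊗ₜ (⟨b, hb⟩ : H₂), ?_⟩
  funext ⟨x, y⟩
  refine (tensHom_tmul H₁ H₂ 1 ⟨b, hb⟩ x y).trans ?_
  exact one_mul _

theorem exists_sum_of_mem_tensRing {H₁ : Subring (X → K)} {H₂ : Subring (Y → K)} {f : X × Y → K}
    (hf : f ∈ tensRing H₁ H₂) : ∃ (n : ℕ) (a : Fin n → X → K) (b : Fin n → Y → K),
      (∀ i, a i ∈ H₁) ∧ (∀ i, b i ∈ H₂) ∧ ∀ x y, f (x, y) = ∑ i, a i x * b i y := by
  obtain ⟨z, rfl⟩ := hf
  induction z using TensorProduct.induction_on with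
  | zero => exact ⟨0, Fin.elim0, Fin.elim0, fun i => i.elim0, fun i => i.elim0, by simp⟩
  | tmul a b =>
    refine ⟨1, fun _ => a.1, fun _ => b.1, fun _ => a.2, fun _ => b.2, fun x y => ?_⟩
    rw [Fin.sum_univ_one]
    exact tensHom_tmul H₁ H₂ a b x y
  | add z w hz hw =>
    obtain ⟨n, a, b, ha, hb, h⟩ := hz
    obtain ⟨m, a', b', ha', hb', h'⟩ := hw
    refine ⟨n + m, Fin.append a a', Fin.append b b', ?_, ?_, ?_⟩
    · intro i; refine Fin.addCases (fun i => ?_) (fun i => ?_) i
      · simpa using ha i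
      · simpa using ha' i
    · intro i; refine Fin.addCases (fun i => ?_) (fun i => ?_) i
      · simpa using hb i
      · simpa using hb' i
    · intro x y
      rw [map_add, Pi.add_apply, h, h', Fin.sum_univ_add]
      simp

end Tens

variable {K k : Type*} [Field K] [Field k] [IsAlgClosed K] [IsAlgClosed k] [CharZero K]
  {A : ValuationSubring K} {π : A →+* k}
  {F Fk : Type*} [Field F] [Algebra K F] [Field Fk] [Algebra k Fk] [IsFnField K F]
  [IsFnField k Fk] {R : ConstRed A π F Fk}
  {Γ : Type*} [Group Γ] [MulSemiringAction Γ K]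

/-- A finite group of divisor classes with representatives. -/
structure Rep (ρ : Γ →* SemilinearAut K F) {M : Type*} [AddCommGroup M] [MulAction Γ M]
    (rep : M → Divisor K F) : Prop where
  deg : ∀ m, Divisor.degree (rep m) = 0
  add : ∀ m m', LinEq (rep m + rep m') (rep (m + m'))
  smul : ∀ (g : Γ) m, LinEq (rep (g • m)) (ρ g • rep m)
  inj : ∀ m m', LinEq (rep m) (rep m') → m = m'

variable {S : Spec R} {ρ : Γ →* SemilinearAut K F} (G : Geo S ρ)
  {M : Type*} [AddCommGroup M] [MulAction Γ M] {rep : M → Divisor K F} (hR : Rep ρ rep)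

/-- the reduction of a class -/
noncomputable def redCl (S : Spec R) (rep : M → Divisor K F) (m : M) : Pic k Fk :=
  QuotientAddGroup.mk (push S (rep m))

theorem redCl_eq_iff {m m' : M} :
    redCl S rep m = redCl S rep m' ↔ LinEq (push S (rep m)) (push S (rep m')) := by
  unfold redCl LinEq
  rw [QuotientAddGroup.eq, ← neg_mem_iff]
  have : -(-push S (rep m) + push S (rep m')) = push S (rep m) - push S (rep m') := by abel
  rw [this]

include G hR in
theorem redCl_smul (g : Γ) (m : M) : redCl S rep (g • m) = redCl S rep m := by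
  rw [redCl_eq_iff]
  have h := push_linEq (S := S) (hR.smul g m)
  rwa [Datum.push_smul G] at h

include hR in
theorem redCl_add (m m' : M) : redCl S rep (m + m') = redCl S rep m + redCl S rep m' := by
  unfold redCl
  rw [← QuotientAddGroup.mk_add, QuotientAddGroup.eq, ← neg_mem_iff]
  have h := push_linEq (S := S) (hR.add m m').symm
  unfold LinEq at h
  rw [push_add] at h
  have : -(-push S (rep (m + m')) + (push S (rep m) + push S (rep m'))) =
      push S (rep (m + m')) - (push S (rep m) + push S (rep m')) := by abel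
  rw [this]
  exact h

/-- the elements with given reduction -/
def Fib (S : Spec R) (rep : M → Divisor K F) (c : Pic k Fk) : Type _ := {m : M // redCl S rep m = c}

noncomputable instance [Fintype M] (c : Pic k Fk) : Fintype (Fib S rep c) := by
  classical
  exact inferInstanceAs (Fintype {m : M // redCl S rep m = c})

/-- the action on the fibres -/
@[reducible] def fibAction (c : Pic k Fk) : MulAction Γ (Fib S rep c) where
  smul g m := ⟨g • m.1, (redCl_smul G hR g m.1).trans m.2⟩
  one_smul m := Subtype.ext (one_smul Γ m.1)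
  mul_smul g h m := Subtype.ext (mul_smul g h m.1)

variable (inf : Place K F) (hinf : ∀ g, ρ g • inf = inf)

include G hR hinf in
theorem exists_dat (c : Pic k Fk) : ∃ d : Datum S ρ, ∀ m : Fib S rep c,
    LinEq (push S (rep m.1)) d.cls := by
  by_cases h : Nonempty (Fib S rep c)
  · obtain ⟨m₀⟩ := h
    obtain ⟨d, hd, -⟩ := exists_datum G inf hinf (push S (rep m₀.1))
      (by rw [degree_push, hR.deg]) ∅
    refine ⟨d, fun m => ?_⟩
    exact (redCl_eq_iff.mp (m.2.trans m₀.2.symm)).trans hd.symm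
  · obtain ⟨d, hd, -⟩ := exists_datum G inf hinf 0 (map_zero _) ∅
    exact ⟨d, fun m => absurd ⟨m⟩ h⟩

/-- the chosen datum -/
noncomputable def dat (c : Pic k Fk) : Datum S ρ := (exists_dat G hR inf hinf c).choose

theorem dat_spec {c : Pic k Fk} (m : Fib S rep c) :
    LinEq (push S (rep m.1)) (dat G hR inf hinf c).cls := (exists_dat G hR inf hinf c).choose_spec m

/-- the coordinates on a fibre -/
noncomputable def cth (c : Pic k Fk) (Q : (dat G hR inf hinf c).E) (m : Fib S rep c) : K :=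
  (dat G hR inf hinf c).co G (rep m.1) Q

/-- the order on a fibre -/
noncomputable def fibOrder (c : Pic k Fk) : Subring (Fib S rep c → K) :=
  genOrder Γ A (cth G hR inf hinf c)

theorem fam_fib (c : Pic k Fk) : letI := fibAction (Γ := Γ) G hR c
    Fam ρ S (dat G hR inf hinf c).cls (fun m : Fib S rep c => rep m.1) := by
  letI := fibAction (Γ := Γ) G hR c
  exact ⟨fun m => dat_spec G hR inf hinf m, fun g m => hR.smul g m.1⟩

theorem cth_equiv (c : Pic k Fk) (Q : (dat G hR inf hinf c).E) :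
    letI := fibAction (Γ := Γ) G hR c
    IsEquiv Γ (cth G hR inf hinf c Q) := by
  letI := fibAction (Γ := Γ) G hR c
  exact (fam_fib G hR inf hinf c).isEquiv G Q.2

include hR in
theorem cth_sep (c : Pic k Fk) (m m' : Fib S rep c) (hne : m ≠ m') :
    ∃ Q, cth G hR inf hinf c Q m ≠ cth G hR inf hinf c Q m' := by
  by_contra hcon
  push Not at hcon
  apply hne
  apply Subtype.ext
  apply hR.inj
  exact (dat G hR inf hinf c).linEq_of_co_eq G (dat_spec G hR inf hinf m)
    (dat_spec G hR inf hinf m') fun Q hQ => hcon ⟨Q, hQ⟩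

theorem funOrder_fib [Fintype M] (c : Pic k Fk) : letI := fibAction (Γ := Γ) G hR c
    FunOrder Γ A (fibOrder G hR inf hinf c) := by
  letI := fibAction (Γ := Γ) G hR c
  exact funOrder_genOrder (fun Q m => (dat G hR inf hinf c).co_mem G _ Q.2)
    (cth_equiv G hR inf hinf c) (cth_sep G hR inf hinf c) (fun g a ha => G.smul_mem_A g ha)

/-- **The order** attached to the group of divisor classes. -/
noncomputable def theOrder : Subring (M → K) where
  carrier := {φ | ∀ c, (fun m : Fib S rep c => φ m.1) ∈ fibOrder G hR inf hinf c}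
  mul_mem' h h' c := mul_mem (h c) (h' c)
  one_mem' c := one_mem _
  add_mem' h h' c := add_mem (h c) (h' c)
  zero_mem' c := zero_mem _
  neg_mem' h c := neg_mem (h c)

theorem mem_theOrder {φ : M → K} : φ ∈ theOrder G hR inf hinf ↔
    ∀ c, (fun m : Fib S rep c => φ m.1) ∈ fibOrder G hR inf hinf c := Iff.rfl

open Classical in
/-- extension by zero from a fibre -/
noncomputable def extz (c : Pic k Fk) (ψ : Fib S rep c → K) : M → K := fun m =>
  if h : redCl S rep m = c then ψ ⟨m, h⟩ else 0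

theorem extz_mem {c : Pic k Fk} {ψ : Fib S rep c → K} (h : ψ ∈ fibOrder G hR inf hinf c) :
    extz c ψ ∈ theOrder G hR inf hinf := by
  intro c'
  by_cases hc : c' = c
  · subst hc
    convert h using 1
    funext m
    exact dif_pos m.2
  · convert (fibOrder G hR inf hinf c').zero_mem using 1
    funext m
    exact dif_neg (fun h => hc (m.2.symm.trans h))

include hR in
theorem theOrder_mem_A {φ : M → K} (h : φ ∈ theOrder G hR inf hinf) (m : M) : φ m ∈ A :=
  letI := fibAction (Γ := Γ) G hR (redCl S rep m)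
  genOrder_mem_A (fun Q m => (dat G hR inf hinf _).co_mem G _ Q.2) _ (h (redCl S rep m)) ⟨m, rfl⟩

theorem theOrder_equiv {φ : M → K} (h : φ ∈ theOrder G hR inf hinf) : IsEquiv Γ φ := by
  intro g m
  letI := fibAction (Γ := Γ) G hR (redCl S rep m)
  exact genOrder_equiv (cth_equiv G hR inf hinf _) _ (h (redCl S rep m)) g ⟨m, rfl⟩

theorem theOrder_const {a : K} (ha : IsInv Γ A a) : (fun _ => a) ∈ theOrder G hR inf hinf :=
  fun c =>
    letI := fibAction (Γ := Γ) G hR c
    const_mem_genOrder _ ha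

theorem theOrder_sep {m m' : M} (h : ∀ φ ∈ theOrder G hR inf hinf, φ m = φ m') : m = m' := by
  by_contra hne
  letI := fibAction (Γ := Γ) G hR (redCl S rep m')
  by_cases hc : redCl S rep m = redCl S rep m'
  · obtain ⟨Q, hQ⟩ := cth_sep G hR inf hinf (redCl S rep m') ⟨m, hc⟩ ⟨m', rfl⟩
      (fun h => hne (congrArg Subtype.val h))
    have h1 := h _ (extz_mem G hR inf hinf (mem_genOrder (cth G hR inf hinf (redCl S rep m')) Q))
    rw [extz, extz, dif_pos hc, dif_pos rfl] at h1
    exact hQ h1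
  · have h1 := h _ (extz_mem G hR inf hinf (c := redCl S rep m) (one_mem _))
    rw [extz, extz, dif_pos rfl, dif_neg (fun h => hc h.symm)] at h1
    exact one_ne_zero h1

section Add

variable [Fintype M]

/-- The addition is integral. -/
theorem add_mem_fib (c₁ c₂ : Pic k Fk) {φ : Fib S rep (c₁ + c₂) → K}
    (hφ : φ ∈ fibOrder G hR inf hinf (c₁ + c₂)) :
    (fun z : Fib S rep c₁ × Fib S rep c₂ =>
      φ ⟨z.1.1 + z.2.1, by rw [redCl_add hR, z.1.2, z.2.2]⟩) ∈
      tensRing (fibOrder G hR inf hinf c₁) (fibOrder G hR inf hinf c₂) := by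
  letI := fibAction (Γ := Γ) G hR c₁
  letI := fibAction (Γ := Γ) G hR c₂
  letI := fibAction (Γ := Γ) G hR (c₁ + c₂)
  set d₁ := dat G hR inf hinf c₁ with hd₁
  set d₂ := dat G hR inf hinf c₂ with hd₂
  set d₃ := dat G hR inf hinf (c₁ + c₂) with hd₃
  let θ : d₁.E ⊕ d₂.E → Fib S rep c₁ × Fib S rep c₂ → K := fun Q z =>
    Sum.elim (fun Q => cth G hR inf hinf c₁ Q z.1) (fun Q => cth G hR inf hinf c₂ Q z.2) Q
  have hT : FunOrder Γ A (genOrder Γ A θ) := by
    refine funOrder_genOrder ?_ ?_ ?_ (fun g a ha => G.smul_mem_A g ha)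
    · rintro (Q | Q) z
      · exact d₁.co_mem G _ Q.2
      · exact d₂.co_mem G _ Q.2
    · rintro (Q | Q) g z
      · exact cth_equiv G hR inf hinf c₁ Q g z.1
      · exact cth_equiv G hR inf hinf c₂ Q g z.2
    · rintro ⟨x, y⟩ ⟨x', y'⟩ hne
      by_cases hx : x = x'
      · subst hx
        obtain ⟨Q, hQ⟩ := cth_sep G hR inf hinf c₂ y y' (fun h => hne (by rw [h]))
        exact ⟨Sum.inr Q, hQ⟩
      · obtain ⟨Q, hQ⟩ := cth_sep G hR inf hinf c₁ x x' hx
        exact ⟨Sum.inl Q, hQ⟩
  have hle : genOrder Γ A θ ≤ tensRing (fibOrder G hR inf hinf c₁) (fibOrder G hR inf hinf c₂) := by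
    refine genOrder_le (fun a ha => ?_) ?_
    · exact mem_tensRing_fst (a := fun _ => a) (const_mem_genOrder _ ha)
    · rintro (Q | Q)
      · exact mem_tensRing_fst (mem_genOrder (cth G hR inf hinf c₁) Q)
      · exact mem_tensRing_snd (mem_genOrder (cth G hR inf hinf c₂) Q)
  apply hle
  have hint : IsInt G (genOrder Γ A θ) d₃
      (fun z : Fib S rep c₁ × Fib S rep c₂ => rep (z.1.1 + z.2.1)) := by
    refine isInt_add G hT inf hinf (d₁ := d₁) (d₂ := d₂) (P₁ := fun z => rep z.1.1)
      (P₂ := fun z => rep z.2.1) ?_ ?_ ?_ (fun z => hR.add _ _) ?_ ?_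
    · exact ⟨fun z => dat_spec G hR inf hinf z.1, fun g z => hR.smul g z.1.1⟩
    · exact ⟨fun z => dat_spec G hR inf hinf z.2, fun g z => hR.smul g z.2.1⟩
    · refine ⟨fun z => dat_spec G hR inf hinf
        (⟨z.1.1 + z.2.1, by rw [redCl_add hR, z.1.2, z.2.2]⟩ : Fib S rep (c₁ + c₂)), fun g z => ?_⟩
      change LinEq (rep (g • z.1.1 + g • z.2.1)) _
      refine (hR.add _ _).symm.trans (((hR.smul g _).add (hR.smul g _)).trans ?_)
      rw [← smul_add]
      exact (hR.add _ _).smul (ρ g)
    · intro Q hQ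
      exact mem_genOrder θ (Sum.inl ⟨Q, hQ⟩)
    · intro Q hQ
      exact mem_genOrder θ (Sum.inr ⟨Q, hQ⟩)
  -- pull back
  let pb : (Fib S rep (c₁ + c₂) → K) →+* (Fib S rep c₁ × Fib S rep c₂ → K) :=
    RingHom.pi fun z => Pi.evalRingHom (fun _ : Fib S rep (c₁ + c₂) => K)
      ⟨z.1.1 + z.2.1, by rw [redCl_add hR, z.1.2, z.2.2]⟩
  have hpb : fibOrder G hR inf hinf (c₁ + c₂) ≤ (genOrder Γ A θ).comap pb := by
    refine genOrder_le (fun a ha => ?_) (fun Q => ?_)
    · exact const_mem_genOrder _ ha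
    · exact hint Q Q.2
  exact hpb hφ

theorem add_mem_theOrder {φ : M → K} (hφ : φ ∈ theOrder G hR inf hinf) :
    (fun z : M × M => φ (z.1 + z.2)) ∈
      tensRing (theOrder G hR inf hinf) (theOrder G hR inf hinf) := by
  classical
  let I : Finset (Pic k Fk) := Finset.univ.image (redCl S rep)
  have hI : ∀ m, redCl S rep m ∈ I := fun m => Finset.mem_image_of_mem _ (Finset.mem_univ m)
  have h1 := fun c₁ c₂ => exists_sum_of_mem_tensRing (add_mem_fib G hR inf hinf c₁ c₂ (hφ (c₁ + c₂)))
  choose n a b ha hb hab using h1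
  have h2 : (fun z : M × M => φ (z.1 + z.2)) = ∑ c₁ ∈ I, ∑ c₂ ∈ I, ∑ i : Fin (n c₁ c₂),
      (fun z : M × M => extz c₁ (a c₁ c₂ i) z.1) * (fun z : M × M => extz c₂ (b c₁ c₂ i) z.2) := by
    funext ⟨x, y⟩
    rw [Finset.sum_apply, Finset.sum_eq_single (redCl S rep x)]
    · rw [Finset.sum_apply, Finset.sum_eq_single (redCl S rep y)]
      · rw [Finset.sum_apply]
        have h3 := hab (redCl S rep x) (redCl S rep y) ⟨x, rfl⟩ ⟨y, rfl⟩
        refine h3.trans ?_
        refine Finset.sum_congr rfl fun i _ => ?_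
        rw [Pi.mul_apply, extz, extz, dif_pos rfl, dif_pos rfl]
      · intro c hc hne
        rw [Finset.sum_apply]
        refine Finset.sum_eq_zero fun i _ => ?_
        rw [Pi.mul_apply, extz, extz, dif_neg (fun h : redCl S rep y = c => hne h.symm), mul_zero]
      · intro h; exact absurd (hI y) h
    · intro c hc hne
      rw [Finset.sum_apply]
      refine Finset.sum_eq_zero fun c' _ => ?_
      rw [Finset.sum_apply]
      refine Finset.sum_eq_zero fun i _ => ?_
      rw [Pi.mul_apply, extz, dif_neg (fun h : redCl S rep x = c => hne h.symm), zero_mul]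
    · intro h; exact absurd (hI x) h
  rw [h2]
  exact sum_mem fun c₁ _ => sum_mem fun c₂ _ => sum_mem fun i _ =>
    mul_mem (mem_tensRing_fst (extz_mem G hR inf hinf (ha c₁ c₂ i)))
      (mem_tensRing_snd (extz_mem G hR inf hinf (hb c₁ c₂ i)))

end Add

end Fermat.Agent.FFM
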