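import Fermat.Agent.FFM.Newton
import Fermat.Agent.FFM.HopfOrder
import Fermat.Agent.Flat.Basic

/-!
# Descent of function orders from the maximal unramified extension
-/

set_option autoImplicit false
set_option linter.unusedSectionVars false
set_option linter.style.haveILetI false

namespace Fermat.Agent.FFM

open Fermat.Agent.Flat

variable {K : Type*} [Field K] {G : Type*} [Group G] [MulSemiringAction G K]
  {Γ : Subgroup G} {A : ValuationSubring K} {R : Type*} [CommRing R] [Algebra R K]

/-- The arithmetic input for the descent: `σ` is a Frobenius element, `Γ` the inertia group,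
`R` the localisation of `ℤ` at `ℓ`. -/
structure DescData (R : Type*) [CommRing R] [Algebra R K] (Γ : Subgroup G)
    (A : ValuationSubring K) (ℓ : ℕ) (σ : G) : Prop where
  rankOne : RankOne A
  prime : ℓ.Prime
  ell_mem : (ℓ : K) ∈ A.nonunits
  ell_ne : (ℓ : K) ≠ 0
  unif : ∀ a : K, IsInv Γ A a → a ∈ A.nonunits → DvdA A (ℓ : K) a
  smul_mem : ∀ g ∈ Γ, ∀ a ∈ A, g • a ∈ A
  frob : ∀ a ∈ A, σ • a - a ^ ℓ ∈ A.nonunits
  frob_inv : ∀ a : K, IsInv Γ A a → IsInv Γ A (σ • a)
  le : ∀ r : R, algebraMap R K r ∈ A
  ge : ∀ a ∈ A, (∀ g : G, g • a = a) → ∃ r : R, algebraMap R K r = a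

variable {ℓ : ℕ} {σ : G} (hD : DescData R Γ A ℓ σ)

theorem nonunits_add {a b : K} (ha : a ∈ A.nonunits) (hb : b ∈ A.nonunits) :
    a + b ∈ A.nonunits := by
  rw [ValuationSubring.mem_nonunits_iff] at ha hb ⊢
  exact lt_of_le_of_lt (A.valuation.map_add a b) (max_lt ha hb)

theorem nonunits_neg {a : K} (ha : a ∈ A.nonunits) : -a ∈ A.nonunits := by
  rw [ValuationSubring.mem_nonunits_iff] at ha ⊢
  rwa [Valuation.map_neg]

theorem nonunits_sub {a b : K} (ha : a ∈ A.nonunits) (hb : b ∈ A.nonunits) :
    a - b ∈ A.nonunits := by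
  rw [sub_eq_add_neg]
  exact nonunits_add ha (nonunits_neg hb)

theorem nonunits_mul {a b : K} (ha : a ∈ A.nonunits) (hb : b ∈ A) : a * b ∈ A.nonunits := by
  rw [ValuationSubring.mem_nonunits_iff] at ha ⊢
  rw [map_mul]
  calc A.valuation a * A.valuation b ≤ A.valuation a * 1 :=
        mul_le_mul_right ((A.valuation_le_one_iff b).mpr hb) _
    _ < 1 := by rwa [mul_one]

theorem inv_mem_of_notMem_nonunits {a : K} (ha : a ∈ A) (h : a ∉ A.nonunits) : a⁻¹ ∈ A := by
  rw [ValuationSubring.mem_nonunits_iff, not_lt] at h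
  rw [← A.valuation_le_one_iff, map_inv₀]
  exact inv_le_one_of_one_le₀ h

theorem nonunits_of_pow {a : K} {n : ℕ} (ha : a ∈ A) (h : a ^ n ∈ A.nonunits) :
    a ∈ A.nonunits := by
  by_contra h'
  have h1 := pow_mem (inv_mem_of_notMem_nonunits ha h') n
  have h2 := nonunits_mul h h1
  have ha0 : a ≠ 0 := by
    rintro rfl
    exact h' (by rw [ValuationSubring.mem_nonunits_iff, map_zero]; exact zero_lt_one)
  rw [← mul_pow, mul_inv_cancel₀ ha0, one_pow, ValuationSubring.mem_nonunits_iff, map_one] at h2
  exact lt_irrefl _ h2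

theorem one_notMem_nonunits : (1 : K) ∉ A.nonunits := by
  rw [ValuationSubring.mem_nonunits_iff, map_one]
  exact lt_irrefl _

section Incl

include hD

theorem DescData.frob_mem {a : K} (ha : a ∈ A) : σ • a ∈ A := by
  have h := mem_of_mem_nonunits (hD.frob a ha)
  have := add_mem h (pow_mem ha ℓ)
  rwa [sub_add_cancel] at this

theorem DescData.frob_nonunits {a : K} (ha : a ∈ A.nonunits) : σ • a ∈ A.nonunits := by
  have haA := mem_of_mem_nonunits ha
  have h1 := hD.frob a haA
  have h2 : a ^ ℓ ∈ A.nonunits := by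
    obtain ⟨n, hn⟩ := Nat.exists_eq_succ_of_ne_zero hD.prime.ne_zero
    rw [hn, Nat.succ_eq_add_one, pow_succ']
    exact nonunits_mul ha (pow_mem haA n)
  have := nonunits_add h1 h2
  rwa [sub_add_cancel] at this

theorem DescData.exists_int {a : K} (ha : a ∈ A) (h : a ^ ℓ - a ∈ A.nonunits) :
    ∃ c : ℤ, a - c ∈ A.nonunits := by
  haveI : Fact ℓ.Prime := ⟨hD.prime⟩
  have hnu : ∀ x : A, (x : K) ∈ A.nonunits ↔ IsLocalRing.residue A x = 0 := by
    intro x
    rw [IsLocalRing.residue_eq_zero_iff, A.valuation_lt_one_iff, ValuationSubring.mem_nonunits_iff]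
  haveI : CharP (IsLocalRing.ResidueField A) ℓ := by
    refine (CharP.charP_iff_prime_eq_zero hD.prime).mpr ?_
    have h1 := (hnu (ℓ : A)).mp (by push_cast; exact hD.ell_mem)
    rwa [map_natCast] at h1
  set x : A := ⟨a, ha⟩ with hx
  have h1 : IsLocalRing.residue A x ^ ℓ = IsLocalRing.residue A x := by
    rw [← sub_eq_zero, ← map_pow, ← map_sub, ← hnu]
    exact h
  rw [← Subfield.mem_bot_iff_pow_eq_self, mem_bot_iff_intCast] at h1
  obtain ⟨c, hc⟩ := h1
  refine ⟨c, ?_⟩
  have h2 := (hnu (x - (c : A))).mpr (by rw [map_sub, map_intCast, hc, sub_self])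
  push_cast at h2
  exact h2

/-- elements can be multiplied into the valuation ring by powers of `ℓ`. -/
theorem DescData.exists_pow_mul_mem (a : K) : ∃ n : ℕ, (ℓ : K) ^ n * a ∈ A := by
  by_cases ha : a ∈ A
  · exact ⟨0, by rwa [pow_zero, one_mul]⟩
  have ha0 : a ≠ 0 := by rintro rfl; exact ha A.zero_mem
  have hainv : a⁻¹ ∈ A := (A.mem_or_inv_mem a).resolve_left ha
  obtain ⟨n, d, hd, hn⟩ := hD.rankOne _ hD.ell_mem a⁻¹ hainv (inv_ne_zero ha0)
  refine ⟨n, ?_⟩
  rw [hn]
  have : a⁻¹ * d * a = d := by field_simp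
  rwa [this]

end Incl

variable {M : Type*} [AddCommGroup M] [Fintype M] [DistribMulAction G M]
  {H : Subring (M → K)}

/-- the descended order -/
def descOrder (R : Type*) [CommRing R] [Algebra R K] [Setup R K G] (H : Subring (M → K))
    (hH : FunOrder Γ A H) (hle : ∀ r : R, algebraMap R K r ∈ A) : Subalgebra R (M → K) where
  carrier := {φ | φ ∈ H ∧ ∀ (g : G) m, φ (g • m) = g • φ m}
  mul_mem' h h' := ⟨mul_mem h.1 h'.1, fun g m => by
    rw [Pi.mul_apply, Pi.mul_apply, smul_mul', h.2, h'.2]⟩
  one_mem' := ⟨one_mem _, fun g m => by rw [Pi.one_apply, Pi.one_apply, smul_one]⟩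
  add_mem' h h' := ⟨add_mem h.1 h'.1, fun g m => by
    rw [Pi.add_apply, Pi.add_apply, smul_add, h.2, h'.2]⟩
  zero_mem' := ⟨zero_mem _, fun g m => by rw [Pi.zero_apply, Pi.zero_apply, smul_zero]⟩
  algebraMap_mem' r := ⟨hH.const _ ⟨hle r, fun g => Setup.smul_algebraMap (g : G) r⟩,
    fun g m => (Setup.smul_algebraMap g r).symm⟩

variable [IsDomain R] [IsPrincipalIdealRing R] [Setup R K G] (hH : FunOrder Γ A H)

theorem mem_descOrder {φ : M → K} : φ ∈ descOrder R H hH hD.le ↔
    φ ∈ H ∧ ∀ (g : G) m, φ (g • m) = g • φ m := Iff.rfl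

/-- equivariant functions are, up to powers of `ℓ`, in the order. -/
theorem exists_pow_mul_mem_descOrder {f : M → K} (hf : ∀ (g : G) m, f (g • m) = g • f m) :
    ∃ n : ℕ, (fun m => (ℓ : K) ^ n * f m) ∈ descOrder R H hH hD.le := by
  choose n hn using fun m => hD.exists_pow_mul_mem (f m)
  have hℓA := mem_of_mem_nonunits hD.ell_mem
  have hgℓ : ∀ (g : G) (n : ℕ), g • ((ℓ : K) ^ n) = (ℓ : K) ^ n := by
    intro g n
    rw [smul_pow']
    congr 1
    exact map_natCast (MulSemiringAction.toRingHom G K g) ℓ
  obtain ⟨n₁, hn₁⟩ := hH.mem_of_dvd hD.rankOne hD.ell_mem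
  set n₀ := Finset.univ.sup n with hn₀
  have h0 : ∀ m, (ℓ : K) ^ n₀ * f m ∈ A := by
    intro m
    obtain ⟨e, he⟩ := Nat.exists_eq_add_of_le (Finset.le_sup (f := n) (Finset.mem_univ m))
    rw [hn₀, he, pow_add, mul_comm ((ℓ : K) ^ n m), mul_assoc]
    exact mul_mem (pow_mem hℓA _) (hn m)
  have heq : ∀ (g : G) m, (ℓ : K) ^ (n₁ + n₀) * f (g • m) = g • ((ℓ : K) ^ (n₁ + n₀) * f m) := by
    intro g m
    rw [smul_mul', hgℓ, hf]
  refine ⟨n₁ + n₀, hn₁ _ (fun g m => heq g m) (fun m => ⟨_, h0 m, ?_⟩), heq⟩
  rw [pow_add, mul_assoc]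

/-- equivariant functions separate the points. -/
def SepFun (G K M : Type*) [Group G] [Field K] [MulSemiringAction G K] [AddCommGroup M]
    [DistribMulAction G M] : Prop :=
  ∀ m m' : M, m ≠ m' → ∃ f : M → K, (∀ (g : G) m, f (g • m) = g • f m) ∧ f m ≠ f m'

variable (hsep : SepFun G K M)

include hsep in
theorem descOrder_sep {m m' : M} (h : m ≠ m') : ∃ φ ∈ descOrder R H hH hD.le, φ m ≠ φ m' := by
  obtain ⟨f, hf, hne⟩ := hsep m m' h
  obtain ⟨n, hn⟩ := exists_pow_mul_mem_descOrder hD hH hf
  exact ⟨_, hn, fun h => hne (mul_left_cancel₀ (pow_ne_zero n hD.ell_ne) h)⟩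

/-- the order generated by the descended order and the invariant constants -/
def wOrder : Subring (M → K) :=
  genOrder Γ A (fun φ : descOrder R H hH hD.le => (φ : M → K))

include hsep in
theorem funOrder_wOrder : FunOrder Γ A (wOrder hD hH) := by
  refine funOrder_genOrder (fun φ m => hH.mem_A _ φ.2.1 m) (fun φ => hH.equiv _ φ.2.1)
    (fun m m' hne => ?_) (fun g a ha => hD.smul_mem g g.2 a ha)
  obtain ⟨φ, hφ, h⟩ := descOrder_sep hD hH hsep hne
  exact ⟨⟨φ, hφ⟩, h⟩

/-! ### Finiteness -/

include hsep in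
theorem span_descOrder : Submodule.span K ((descOrder R H hH hD.le : Set (M → K))) = ⊤ := by
  classical
  rw [eq_top_iff]
  intro f _
  -- the span is a subalgebra
  let B : Subalgebra K (M → K) := Algebra.adjoin K (descOrder R H hH hD.le : Set (M → K))
  have hB : Subalgebra.toSubmodule B = Submodule.span K (descOrder R H hH hD.le : Set (M → K)) := by
    rw [Algebra.adjoin_eq_span]
    congr 1
    exact congrArg (fun N : Submonoid (M → K) => (N : Set (M → K)))
      (Submonoid.closure_eq (descOrder R H hH hD.le).toSubmonoid)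
  rw [← hB, Subalgebra.mem_toSubmodule]
  have hδ : ∀ m : M, (Pi.single m 1 : M → K) ∈ B := by
    intro m
    have h1 := fun m' : M => fun h : m ≠ m' => descOrder_sep (R := R) hD hH hsep h
    choose φ hφ hne using h1
    let ψ : M → M → K := fun m' => if h : m ≠ m' then
      (fun x => (φ m' h x - φ m' h m') * (φ m' h m - φ m' h m')⁻¹) else 1
    have hψB : ∀ m', ψ m' ∈ B := by
      intro m'
      simp only [ψ]
      split_ifs with h
      · have h2 : (fun x => (φ m' h x - φ m' h m') * (φ m' h m - φ m' h m')⁻¹) =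
            (φ m' h - algebraMap K (M → K) (φ m' h m')) *
              algebraMap K (M → K) (φ m' h m - φ m' h m')⁻¹ := by
          funext x
          rfl
        rw [h2]
        exact mul_mem (sub_mem (Algebra.subset_adjoin (hφ m' h)) (B.algebraMap_mem _))
          (B.algebraMap_mem _)
      · exact one_mem _
    have h3 : (Pi.single m 1 : M → K) = ∏ m', ψ m' := by
      funext x
      rw [Finset.prod_apply]
      by_cases hx : x = m
      · subst hx
        rw [Pi.single_eq_same]
        symm
        refine Finset.prod_eq_one fun m' _ => ?_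
        simp only [ψ]
        split_ifs with h
        · exact mul_inv_cancel₀ (sub_ne_zero.mpr (hne m' h))
        · rfl
      · rw [Pi.single_eq_of_ne hx]
        symm
        refine Finset.prod_eq_zero (Finset.mem_univ x) ?_
        simp only [ψ]
        rw [dif_pos (fun h => hx h.symm)]
        rw [sub_self, zero_mul]
    rw [h3]
    exact prod_mem fun m' _ => hψB m'
  have h4 : f = ∑ m, algebraMap K (M → K) (f m) * Pi.single m 1 := by
    funext x
    rw [Finset.sum_apply, Finset.sum_eq_single x]
    · simp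
    · intro m _ hm
      simp [Pi.single_eq_of_ne hm.symm]
    · intro h; exact absurd (Finset.mem_univ x) h
  rw [h4]
  exact sum_mem fun m _ => mul_mem (B.algebraMap_mem _) (hδ m)

theorem pairing_mem {φ ψ : M → K} (hφ : φ ∈ descOrder R H hH hD.le)
    (hψ : ψ ∈ descOrder R H hH hD.le) : ∃ r : R, algebraMap R K r = ∑ m, φ m * ψ m := by
  refine hD.ge _ (sum_mem fun m _ => mul_mem (hH.mem_A _ hφ.1 m) (hH.mem_A _ hψ.1 m)) fun g => ?_
  rw [Finset.smul_sum, ← Equiv.sum_comp (MulAction.toPerm g : Equiv.Perm M) (fun m => φ m * ψ m)]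
  refine Finset.sum_congr rfl fun m _ => ?_
  rw [MulAction.toPerm_apply, hφ.2, hψ.2, smul_mul']

include hsep in
theorem descOrder_fg : (Subalgebra.toSubmodule (descOrder R H hH hD.le)).FG := by
  classical
  set O := descOrder R H hH hD.le with hO
  obtain ⟨s, hs, hspan⟩ := (Submodule.fg_span_iff_fg_span_finset_subset (R := K)
    (O : Set (M → K))).mp (by rw [span_descOrder hD hH hsep]; exact Module.Finite.fg_top)
  rw [span_descOrder hD hH hsep] at hspan
  -- the pairing with the elements of `s`
  let β : O →ₗ[R] (s → K) :=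
    { toFun := fun φ v => ∑ m, (φ : M → K) m * (v : M → K) m
      map_add' := fun a b => by
        funext v
        simp only [Subalgebra.coe_add, Pi.add_apply, add_mul, Finset.sum_add_distrib]
      map_smul' := fun c a => by
        funext v
        simp only [Subalgebra.coe_smul, Pi.smul_apply, RingHom.id_apply, Finset.smul_sum,
          smul_mul_assoc] }
  have hβ : Function.Injective β := by
    rw [injective_iff_map_eq_zero]
    intro φ hφ
    have h1 : ∀ v ∈ Submodule.span K (s : Set (M → K)), ∑ m, (φ : M → K) m * v m = 0 := by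
      intro v hv
      induction hv using Submodule.span_induction with
      | mem v hv => exact congrFun hφ ⟨v, hv⟩
      | zero => simp
      | add v w _ _ hv hw => simp only [Pi.add_apply, mul_add, Finset.sum_add_distrib, hv, hw,
          add_zero]
      | smul c v _ hv =>
        have : ∑ m, (φ : M → K) m * (c • v) m = c * ∑ m, (φ : M → K) m * v m := by
          rw [Finset.mul_sum]
          refine Finset.sum_congr rfl fun m _ => ?_
          rw [Pi.smul_apply, smul_eq_mul]
          ring
        rw [this, hv, mul_zero]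
    apply Subtype.ext
    funext m
    have h2 := h1 (Pi.single m 1) (by rw [← hspan]; exact Submodule.mem_top)
    rw [Finset.sum_eq_single m] at h2
    · rw [Pi.single_eq_same, mul_one] at h2
      exact h2
    · intro m' _ hne
      rw [Pi.single_eq_of_ne hne, mul_zero]
    · intro h; exact absurd (Finset.mem_univ m) h
  let ι : (s → R) →ₗ[R] (s → K) := LinearMap.pi fun v => (Algebra.linearMap R K).comp
    (LinearMap.proj v)
  have hrange : ∀ φ, β φ ∈ LinearMap.range ι := by
    intro φ
    choose r hr using fun v : s => pairing_mem (R := R) hD hH φ.2 (hs v.2)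
    refine ⟨r, ?_⟩
    funext v
    exact hr v
  haveI : Module.Finite R (LinearMap.range ι) := Module.Finite.range ι
  haveI : IsNoetherian R (LinearMap.range ι) := isNoetherian_of_isNoetherianRing_of_finite R _
  have hfin : Module.Finite R O :=
    Module.Finite.of_injective (β.codRestrict (LinearMap.range ι) hrange) (fun a b h => hβ (by
      have := congrArg Subtype.val h
      exact this))
  exact Module.Finite.iff_fg.mp hfin

/-! ### The key lemma -/

section Key

variable {r : ℕ} (b : Module.Basis (Fin r) R (descOrder R H hH hD.le))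

theorem linearIndependent_basis :
    LinearIndependent K (fun i => ((b i : descOrder R H hH hD.le) : M → K)) := by
  have hli := b.linearIndependent.map' (Subalgebra.toSubmodule (descOrder R H hH hD.le)).subtype
    (Submodule.ker_subtype _)
  exact linearIndependent_of_equivariant (R := R) G (fun g m => g • m)
    (fun g => MulAction.surjective g) _ (fun i g x => (b i).2.2 g x) hli

theorem wOrder_exists {φ : M → K} (hφ : φ ∈ wOrder (R := R) hD hH) :
    ∃ w : Fin r → K, (∀ i, IsInv Γ A (w i)) ∧
      φ = ∑ i, (fun _ => w i) * ((b i : descOrder R H hH hD.le) : M → K) := by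
  have hO : ∀ φ ∈ descOrder R H hH hD.le, ∃ w : Fin r → K, (∀ i, IsInv Γ A (w i)) ∧
      φ = ∑ i, (fun _ => w i) * ((b i : descOrder R H hH hD.le) : M → K) := by
    intro φ hφ
    refine ⟨fun i => algebraMap R K (b.repr ⟨φ, hφ⟩ i), fun i => ⟨hD.le _, fun g =>
      Setup.smul_algebraMap (g : G) _⟩, ?_⟩
    have h1 := congrArg (fun x : descOrder R H hH hD.le => (x : M → K)) (b.sum_repr ⟨φ, hφ⟩)
    simp only [AddSubmonoidClass.coe_finsetSum] at h1
    refine h1.symm.trans (Finset.sum_congr rfl fun i _ => ?_)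
    funext m
    change (b.repr ⟨φ, hφ⟩ i) • (((b i : descOrder R H hH hD.le) : M → K) m) = _
    rw [Algebra.smul_def]
    rfl
  have hadd : ∀ φ ψ : M → K, (∃ w : Fin r → K, (∀ i, IsInv Γ A (w i)) ∧
      φ = ∑ i, (fun _ => w i) * ((b i : descOrder R H hH hD.le) : M → K)) →
      (∃ w : Fin r → K, (∀ i, IsInv Γ A (w i)) ∧
      ψ = ∑ i, (fun _ => w i) * ((b i : descOrder R H hH hD.le) : M → K)) →
      (∃ w : Fin r → K, (∀ i, IsInv Γ A (w i)) ∧
      φ + ψ = ∑ i, (fun _ => w i) * ((b i : descOrder R H hH hD.le) : M → K)) := by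
    rintro φ ψ ⟨w, hw, rfl⟩ ⟨w', hw', rfl⟩
    refine ⟨w + w', fun i => (hw i).add (hw' i), ?_⟩
    rw [← Finset.sum_add_distrib]
    refine Finset.sum_congr rfl fun i _ => ?_
    rw [← add_mul]
    rfl
  have hsmul : ∀ (a : K) (φ : M → K), IsInv Γ A a → (∃ w : Fin r → K, (∀ i, IsInv Γ A (w i)) ∧
      φ = ∑ i, (fun _ => w i) * ((b i : descOrder R H hH hD.le) : M → K)) →
      (∃ w : Fin r → K, (∀ i, IsInv Γ A (w i)) ∧
      (fun _ => a) * φ = ∑ i, (fun _ => w i) * ((b i : descOrder R H hH hD.le) : M → K)) := by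
    rintro a φ ha ⟨w, hw, rfl⟩
    refine ⟨fun i => a * w i, fun i => ha.mul (hw i), ?_⟩
    rw [Finset.mul_sum]
    refine Finset.sum_congr rfl fun i _ => ?_
    rw [← mul_assoc]
    rfl
  have hsum : ∀ (s : Finset (Fin r)) (f : Fin r → M → K), (∀ j ∈ s, ∃ w : Fin r → K,
      (∀ i, IsInv Γ A (w i)) ∧
      f j = ∑ i, (fun _ => w i) * ((b i : descOrder R H hH hD.le) : M → K)) →
      (∃ w : Fin r → K, (∀ i, IsInv Γ A (w i)) ∧
      ∑ j ∈ s, f j = ∑ i, (fun _ => w i) * ((b i : descOrder R H hH hD.le) : M → K)) := by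
    classical
    intro s f
    induction s using Finset.induction_on with
    | empty =>
      intro _
      refine ⟨0, fun i => IsInv.zero, ?_⟩
      rw [Finset.sum_empty]
      symm
      refine Finset.sum_eq_zero fun i _ => ?_
      funext m
      simp
    | insert j s hj ih =>
      intro h
      rw [Finset.sum_insert hj]
      exact hadd _ _ (h j (Finset.mem_insert_self j s))
        (ih fun j' hj' => h j' (Finset.mem_insert_of_mem hj'))
  let P : Subring (M → K) :=
    { carrier := {φ | ∃ w : Fin r → K, (∀ i, IsInv Γ A (w i)) ∧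
        φ = ∑ i, (fun _ => w i) * ((b i : descOrder R H hH hD.le) : M → K)}
      zero_mem' := hO 0 (zero_mem _)
      one_mem' := hO 1 (one_mem _)
      add_mem' := fun {φ ψ} h h' => hadd φ ψ h h'
      neg_mem' := by
        rintro φ ⟨w, hw, rfl⟩
        refine ⟨fun i => -w i, fun i => (hw i).neg, ?_⟩
        rw [← Finset.sum_neg_distrib]
        refine Finset.sum_congr rfl fun i _ => ?_
        rw [← neg_mul]
        rfl
      mul_mem' := by
        rintro φ ψ ⟨w, hw, rfl⟩ ⟨w', hw', rfl⟩
        rw [Set.mem_ofPred_eq, Finset.sum_mul]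
        refine hsum _ _ fun i _ => ?_
        rw [Finset.mul_sum]
        refine hsum _ _ fun j _ => ?_
        have h1 : (fun _ : M => w i) * ((b i : descOrder R H hH hD.le) : M → K) *
            ((fun _ : M => w' j) * ((b j : descOrder R H hH hD.le) : M → K)) =
            (fun _ => w i * w' j) * (((b i : descOrder R H hH hD.le) : M → K) *
              ((b j : descOrder R H hH hD.le) : M → K)) := by
          funext m
          simp only [Pi.mul_apply]
          ring
        rw [h1]
        exact hsmul _ _ ((hw i).mul (hw' j)) (hO _ (mul_mem (b i).2 (b j).2)) }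
  have hle : wOrder (R := R) hD hH ≤ P := by
    refine genOrder_le (fun a ha => ?_) (fun φ => hO φ φ.2)
    have h1 := hsmul a 1 ha (hO 1 (one_mem _))
    rwa [mul_one] at h1
  exact hle hφ

/-- **Key lemma**: the image of `R^r` modulo `ℓ` does not degenerate in `H`. -/
theorem key_lemma (hst : ∀ φ ∈ H, (fun m => σ • φ (σ⁻¹ • m)) ∈ H) (N : ℕ) :
    ∀ w : Fin r → K, (∀ i, IsInv Γ A (w i)) →
      (∃ h ∈ H, ∑ i, (fun _ => w i) * ((b i : descOrder R H hH hD.le) : M → K) =
        (fun _ => (ℓ : K)) * h) →
      {i | w i ∉ A.nonunits}.ncard ≤ N → ∀ i, w i ∈ A.nonunits := by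
  classical
  induction N with
  | zero =>
    intro w _ _ hN i
    by_contra hi
    rw [Nat.le_zero, Set.ncard_eq_zero (Set.toFinite _)] at hN
    exact (Set.eq_empty_iff_forall_notMem.mp hN i) hi
  | succ N ih =>
    intro w hw hh hN i₀
    by_contra hi₀
    obtain ⟨h, hhH, hh⟩ := hh
    have hw0 : w i₀ ≠ 0 := by
      intro h0
      exact hi₀ (by rw [h0, ValuationSubring.mem_nonunits_iff, map_zero]; exact zero_lt_one)
    have hinv : IsInv Γ A (w i₀)⁻¹ :=
      IsInv.inv (hw i₀).2 (inv_mem_of_notMem_nonunits (hw i₀).1 hi₀)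
    set w' : Fin r → K := fun i => (w i₀)⁻¹ * w i with hw'
    have hw'inv : ∀ i, IsInv Γ A (w' i) := fun i => hinv.mul (hw i)
    have hw'1 : w' i₀ = 1 := inv_mul_cancel₀ hw0
    have hw'nu : ∀ i, w i ∈ A.nonunits → w' i ∈ A.nonunits := fun i hi => by
      rw [hw']
      simp only
      rw [mul_comm]
      exact nonunits_mul hi hinv.1
    set h' : M → K := (fun _ => (w i₀)⁻¹) * h with hh'
    have hh'H : h' ∈ H := mul_mem (hH.const _ hinv) hhH
    have hf' : ∑ i, (fun _ => w' i) * ((b i : descOrder R H hH hD.le) : M → K) =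
        (fun _ => (ℓ : K)) * h' := by
      have h1 : ∑ i, (fun _ => w' i) * ((b i : descOrder R H hH hD.le) : M → K) =
          (fun _ => (w i₀)⁻¹) * ∑ i, (fun _ => w i) * ((b i : descOrder R H hH hD.le) : M → K) := by
        rw [Finset.mul_sum]
        refine Finset.sum_congr rfl fun i _ => ?_
        rw [← mul_assoc]
        rfl
      rw [h1, hh, hh']
      ring
    -- apply Frobenius
    have hσ : ∑ i, (fun _ => σ • w' i) * ((b i : descOrder R H hH hD.le) : M → K) =
        (fun _ => (ℓ : K)) * fun m => σ • h' (σ⁻¹ • m) := by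
      funext m
      have h1 := congrFun hf' (σ⁻¹ • m)
      have h2 := congrArg (fun x => σ • x) h1
      simp only [Finset.sum_apply, Pi.mul_apply, Finset.smul_sum, smul_mul'] at h2 ⊢
      have h3 : σ • (ℓ : K) = ℓ := map_natCast (MulSemiringAction.toRingHom G K σ) ℓ
      rw [h3] at h2
      rw [← h2]
      refine Finset.sum_congr rfl fun i _ => ?_
      rw [← (b i).2.2 σ, smul_inv_smul]
    have hsub : ∑ i, (fun _ => σ • w' i - w' i) * ((b i : descOrder R H hH hD.le) : M → K) =
        (fun _ => (ℓ : K)) * ((fun m => σ • h' (σ⁻¹ • m)) - h') := by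
      rw [mul_sub, ← hσ, ← hf', ← Finset.sum_sub_distrib]
      refine Finset.sum_congr rfl fun i _ => ?_
      rw [← sub_mul]
      rfl
    have hdiff : ∀ i, σ • w' i - w' i ∈ A.nonunits := by
      refine ih (fun i => σ • w' i - w' i) (fun i => ?_) ⟨_, sub_mem (hst h' hh'H) hh'H, hsub⟩ ?_
      · rw [sub_eq_add_neg]
        exact (hD.frob_inv _ (hw'inv i)).add (hw'inv i).neg
      · have hlt : {i | σ • w' i - w' i ∉ A.nonunits} ⊂ {i | w i ∉ A.nonunits} := by
          refine (Set.ssubset_iff_of_subset ?_).mpr ⟨i₀, hi₀, ?_⟩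
          · intro i hi hwi
            exact hi (nonunits_sub (hD.frob_nonunits (hw'nu i hwi)) (hw'nu i hwi))
          · intro hi
            apply hi
            rw [hw'1, smul_one, sub_self, ValuationSubring.mem_nonunits_iff, map_zero]
            exact zero_lt_one
        have := Set.ncard_lt_ncard hlt (Set.toFinite _)
        omega
    -- integral coefficients
    have hc : ∀ i, ∃ c : ℤ, w' i - c ∈ A.nonunits := fun i => by
      refine hD.exists_int (hw'inv i).1 ?_
      have h1 := nonunits_sub (hdiff i) (hD.frob _ (hw'inv i).1)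
      have h2 : w' i ^ ℓ - w' i = σ • w' i - w' i - (σ • w' i - w' i ^ ℓ) := by ring
      rw [h2]
      exact h1
    choose c hc using hc
    have hint : ∀ (g : G) (n : ℤ), g • (n : K) = n := fun g n =>
      map_intCast (MulSemiringAction.toRingHom G K g) n
    have hcinv : ∀ i, IsInv Γ A (w' i - c i) := fun i => by
      rw [sub_eq_add_neg]
      exact (hw'inv i).add (IsInv.neg ⟨intCast_mem A _, fun g => hint g _⟩)
    choose e he hce using fun i => hD.unif _ (hcinv i) (hc i)
    have heinv : ∀ i, IsInv Γ A (e i) := fun i => by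
      refine ⟨he i, fun g => ?_⟩
      have h1 := (hcinv i).2 g
      rw [hce i, smul_mul'] at h1
      have h3 : g • (ℓ : K) = ℓ := map_natCast (MulSemiringAction.toRingHom G K (g : G)) ℓ
      rw [h3] at h1
      exact mul_left_cancel₀ hD.ell_ne h1
    -- the function `(1/ℓ) ∑ c i b i`
    set ψ : M → K := h' - ∑ i, (fun _ => e i) * ((b i : descOrder R H hH hD.le) : M → K) with hψ
    have hψH : ψ ∈ H := sub_mem hh'H (sum_mem fun i _ => mul_mem (hH.const _ (heinv i)) (b i).2.1)
    have hψc : (fun _ => (ℓ : K)) * ψ =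
        ∑ i, (fun _ => (c i : K)) * ((b i : descOrder R H hH hD.le) : M → K) := by
      rw [hψ, mul_sub, ← hf', Finset.mul_sum, ← Finset.sum_sub_distrib]
      refine Finset.sum_congr rfl fun i _ => ?_
      rw [← mul_assoc]
      have h1 : (fun _ : M => (ℓ : K)) * (fun _ => e i) = fun _ => w' i - c i := by
        funext m
        exact (hce i).symm
      rw [h1, ← sub_mul]
      congr 1
      funext m
      simp
    have hψO : ψ ∈ descOrder R H hH hD.le := by
      refine ⟨hψH, fun g m => ?_⟩
      have h1 := congrFun hψc (g • m)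
      have h2 := congrArg (fun x => g • x) (congrFun hψc m)
      simp only [Finset.sum_apply, Pi.mul_apply, Finset.smul_sum, smul_mul', hint] at h1 h2
      have h3 : g • (ℓ : K) = ℓ := map_natCast (MulSemiringAction.toRingHom G K (g : G)) ℓ
      rw [h3] at h2
      have h4 : (ℓ : K) * ψ (g • m) = (ℓ : K) * g • ψ m := by
        rw [h1, h2]
        exact Finset.sum_congr rfl fun i _ => by rw [(b i).2.2]
      exact mul_left_cancel₀ hD.ell_ne h4
    -- compare coefficients
    have hcomp : (ℓ : R) • (⟨ψ, hψO⟩ : descOrder R H hH hD.le) = ∑ i, (c i : R) • b i := by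
      apply Subtype.ext
      rw [AddSubmonoidClass.coe_finsetSum]
      funext m
      have h1 := congrFun hψc m
      rw [Finset.sum_apply] at h1 ⊢
      change (ℓ : R) • ψ m = _
      rw [Algebra.smul_def, map_natCast]
      refine h1.trans (Finset.sum_congr rfl fun i _ => ?_)
      change _ = (c i : R) • (((b i : descOrder R H hH hD.le) : M → K) m)
      rw [Algebra.smul_def, map_intCast]
      rfl
    have hrep := congrArg (fun x => b.repr x i₀) hcomp
    simp only [map_smul, map_sum, Module.Basis.repr_self, Finsupp.smul_apply,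
      Finsupp.finsetSum_apply, Finsupp.single_apply, smul_eq_mul, mul_ite, mul_one, mul_zero,
      Finset.sum_ite_eq', Finset.mem_univ, if_true] at hrep
    have h1 := congrArg (algebraMap R K) hrep
    rw [map_mul, map_natCast, map_intCast] at h1
    have h2 : (c i₀ : K) ∈ A.nonunits := by
      rw [← h1]
      exact nonunits_mul hD.ell_mem (hD.le _)
    have h3 := nonunits_add (hc i₀) h2
    rw [sub_add_cancel, hw'1] at h3
    exact one_notMem_nonunits h3

include hsep in
/-- **Descent**: `H` is generated by the descended order and the invariant constants. -/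
theorem le_wOrder (hst : ∀ φ ∈ H, (fun m => σ • φ (σ⁻¹ • m)) ∈ H) :
    H ≤ wOrder (R := R) hD hH := by
  haveI := torsionFree_of_inj (Setup.inj (R := R) (Ω := K) (G := G)) M
    (Subalgebra.toSubmodule (descOrder R H hH hD.le))
  haveI hfin : Module.Finite R (descOrder R H hH hD.le) :=
    Module.Finite.iff_fg.mpr (descOrder_fg hD hH hsep)
  haveI : Module.IsTorsionFree R (descOrder R H hH hD.le) := this
  haveI : Module.Free R (descOrder R H hH hD.le) := Module.free_of_finite_type_torsion_free'
  let b := Module.finBasis R (descOrder R H hH hD.le)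
  have hW := funOrder_wOrder (R := R) hD hH hsep
  have key : ∀ n : ℕ, ∀ φ ∈ H, (fun _ => (ℓ : K)) ^ n * φ ∈ wOrder (R := R) hD hH →
      φ ∈ wOrder (R := R) hD hH := by
    intro n
    induction n with
    | zero => intro φ _ h; rwa [pow_zero, one_mul] at h
    | succ n ih =>
      intro φ hφ h
      have hℓH : (fun _ : M => (ℓ : K)) * φ ∈ H := mul_mem (hH.const _
        ⟨mem_of_mem_nonunits hD.ell_mem, fun g =>
          map_natCast (MulSemiringAction.toRingHom G K (g : G)) ℓ⟩) hφ
      have h1 := ih _ hℓH (by rwa [← mul_assoc, ← pow_succ])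
      obtain ⟨w, hw, hwe⟩ := wOrder_exists hD hH b h1
      have h2 := key_lemma hD hH b hst _ w hw ⟨φ, hφ, hwe.symm⟩ le_rfl
      choose e he hwe' using fun i => hD.unif _ (hw i) (h2 i)
      have heinv : ∀ i, IsInv Γ A (e i) := fun i => by
        refine ⟨he i, fun g => ?_⟩
        have h1 := (hw i).2 g
        rw [hwe' i, smul_mul'] at h1
        have h3 : g • (ℓ : K) = ℓ := map_natCast (MulSemiringAction.toRingHom G K (g : G)) ℓ
        rw [h3] at h1
        exact mul_left_cancel₀ hD.ell_ne h1
      have h3 : φ = ∑ i, (fun _ => e i) * ((b i : descOrder R H hH hD.le) : M → K) := by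
        funext m
        have h4 := congrFun hwe m
        rw [Finset.sum_apply] at h4 ⊢
        simp only [Pi.mul_apply] at h4 ⊢
        apply mul_left_cancel₀ hD.ell_ne
        rw [h4, Finset.mul_sum]
        refine Finset.sum_congr rfl fun i _ => ?_
        rw [hwe' i, mul_assoc]
      rw [h3]
      exact sum_mem fun i _ => mul_mem (hW.const _ (heinv i))
        (mem_genOrder (fun φ : descOrder R H hH hD.le => (φ : M → K)) (b i))
  intro φ hφ
  obtain ⟨n, hn⟩ := hW.mem_of_dvd hD.rankOne hD.ell_mem
  refine key n φ hφ (hn _ ?_ fun m => ⟨φ m, hH.mem_A _ hφ m, rfl⟩)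
  intro g m
  have h3 : g • (ℓ : K) = ℓ := map_natCast (MulSemiringAction.toRingHom G K (g : G)) ℓ
  rw [Pi.mul_apply, Pi.mul_apply, hH.equiv _ hφ, smul_mul', Pi.pow_apply, Pi.pow_apply, smul_pow',
    h3]

include hsep in
/-- the descended order is an order in the sense of `Flat`. -/
theorem isOrder_descOrder (hst : ∀ φ ∈ H, (fun m => σ • φ (σ⁻¹ • m)) ∈ H)
    (hadd : ∀ φ ∈ H, (fun z : M × M => φ (z.1 + z.2)) ∈ tensRing H H) :
    IsOrder (DistribMulAction.toAddMonoidEnd G M) (descOrder R H hH hD.le) := by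
  refine ⟨descOrder_fg hD hH hsep, fun φ hφ g m => hφ.2 g m, fun m m' h => ?_, fun φ hφ => ?_⟩
  · by_contra hne
    obtain ⟨φ, hφ, h'⟩ := descOrder_sep (R := R) hD hH hsep hne
    exact h' (h φ hφ)
  · haveI := torsionFree_of_inj (Setup.inj (R := R) (Ω := K) (G := G)) M
      (Subalgebra.toSubmodule (descOrder R H hH hD.le))
    haveI hfin : Module.Finite R (descOrder R H hH hD.le) :=
      Module.Finite.iff_fg.mpr (descOrder_fg hD hH hsep)
    haveI : Module.IsTorsionFree R (descOrder R H hH hD.le) := this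
    haveI : Module.Free R (descOrder R H hH hD.le) := Module.free_of_finite_type_torsion_free'
    let b := Module.finBasis R (descOrder R H hH hD.le)
    set bf : Fin (Module.finrank R (descOrder R H hH hD.le)) → M → K := fun i =>
      ((b i : descOrder R H hH hD.le) : M → K) with hbf
    have hle := le_wOrder (R := R) hD hH hsep hst
    obtain ⟨n, a, c, ha, hc, hac⟩ := exists_sum_of_mem_tensRing (hadd φ hφ.1)
    choose wa hwa hwae using fun i => wOrder_exists hD hH b (hle (ha i))
    choose wc hwc hwce using fun i => wOrder_exists hD hH b (hle (hc i))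
    let w := fun (j : Fin (Module.finrank R (descOrder R H hH hD.le)) ×
      Fin (Module.finrank R (descOrder R H hH hD.le))) => ∑ i, wa i j.1 * wc i j.2
    have hexp : ∀ x y, φ (x + y) = ∑ j, w j * (bf j.1 x * bf j.2 y) := by
      intro x y
      rw [hac x y]
      have h1 : ∀ i, a i x * c i y = ∑ j : Fin (Module.finrank R (descOrder R H hH hD.le)) ×
          Fin (Module.finrank R (descOrder R H hH hD.le)),
          wa i j.1 * wc i j.2 * (bf j.1 x * bf j.2 y) := by
        intro i
        have h2 := congrFun (hwae i) x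
        have h3 := congrFun (hwce i) y
        rw [Finset.sum_apply] at h2 h3
        rw [h2, h3, Finset.sum_mul_sum, Fintype.sum_prod_type]
        refine Finset.sum_congr rfl fun j _ => Finset.sum_congr rfl fun l _ => ?_
        simp only [Pi.mul_apply, hbf]
        ring
      simp only [h1]
      rw [Finset.sum_comm]
      refine Finset.sum_congr rfl fun j _ => ?_
      rw [← Finset.sum_mul]
    have hwA : ∀ j, w j ∈ A := fun j =>
      sum_mem fun i _ => mul_mem (hwa i j.1).1 (hwc i j.2).1
    have hli := linearIndependent_mul (linearIndependent_basis hD hH b)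
      (linearIndependent_basis hD hH b)
    have hwG : ∀ (g : G) j, g • w j = w j := by
      intro g j
      rw [← sub_eq_zero]
      refine Fintype.linearIndependent_iff.mp hli (fun j => g • w j - w j) ?_ j
      funext ⟨x, y⟩
      have h1 := hexp (g⁻¹ • x) (g⁻¹ • y)
      have h2 := congrArg (fun u => g • u) h1
      simp only [Finset.smul_sum, smul_mul'] at h2
      rw [← hφ.2, smul_add, smul_inv_smul, smul_inv_smul, hexp x y] at h2
      simp only [hbf] at h2
      rw [Finset.sum_apply, Pi.zero_apply]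
      simp only [Pi.smul_apply, smul_eq_mul, sub_mul, Finset.sum_sub_distrib]
      rw [sub_eq_zero, h2]
      refine Finset.sum_congr rfl fun j _ => ?_
      rw [← (b j.1).2.2, ← (b j.2).2.2, smul_inv_smul, smul_inv_smul]
    choose r hr using fun j => hD.ge (w j) (hwA j) (fun g => hwG g j)
    rw [mem_tens_iff]
    let e := (Fintype.equivFin (Fin (Module.finrank R (descOrder R H hH hD.le)) ×
      Fin (Module.finrank R (descOrder R H hH hD.le))))
    refine ⟨_, fun i => r (e.symm i) • bf (e.symm i).1, fun i => bf (e.symm i).2, fun i => ?_,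
      fun i => (b (e.symm i).2).2, fun x y => ?_⟩
    · exact Submodule.smul_mem _ _ (b (e.symm i).1).2
    · change φ (x + y) = _
      rw [hexp x y, ← Equiv.sum_comp e.symm]
      refine Finset.sum_congr rfl fun i _ => ?_
      change _ = (r (e.symm i) • bf (e.symm i).1 x) * _
      rw [Algebra.smul_def, hr, mul_assoc]

end Key

end Fermat.Agent.FFM
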