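import Mathlib
import Fermat.Prelude.Def_AlgebraicCurve_BaseChangeGalois
import Fermat.Agent.RR.Duality
import Fermat.Agent.Red.Lattice

/-!
# Values of functions at places; residue discs
-/

set_option autoImplicit false
set_option linter.unusedSectionVars false
set_option linter.style.haveILetI false

open AlgebraicCurve Fermat.Agent.FF Fermat.Agent.RR Fermat.Agent.Red

namespace Fermat.Agent.FFM

section Ev

variable {K F : Type*} [Field K] [Field F] [Algebra K F] [IsAlgClosed K] [IsFnField K F]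

open Classical in
/-- the value of a function at a place (`0` at poles). -/
noncomputable def ev (P : Place K F) (f : F) : K :=
  if h : 0 ≤ P.ord f then (exists_sub_ord_pos P h).choose else 0

theorem ev_spec (P : Place K F) {f : F} (h : 0 ≤ P.ord f) :
    f - algebraMap K F (ev P f) = 0 ∨ 0 < P.ord (f - algebraMap K F (ev P f)) := by
  rw [ev, dif_pos h]
  exact (exists_sub_ord_pos P h).choose_spec

theorem ord_nonneg_of_sub (P : Place K F) {f : F} {a : K}
    (h : f - algebraMap K F a = 0 ∨ 0 < P.ord (f - algebraMap K F a)) : 0 ≤ P.ord f := by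
  rw [← mem_iff_ord_nonneg]
  have h1 : f = (f - algebraMap K F a) + algebraMap K F a := by ring
  rw [h1]
  refine add_mem ?_ (P.algebraMap_mem' a)
  rw [mem_iff_ord_nonneg]
  rcases h with h | h
  · rw [h]; simp
  · exact h.le

theorem ev_unique (P : Place K F) {f : F} {a : K}
    (h : f - algebraMap K F a = 0 ∨ 0 < P.ord (f - algebraMap K F a)) : ev P f = a := by
  have h0 := ord_nonneg_of_sub P h
  have h1 := ev_spec P h0
  by_contra hne
  have h2 : (f - algebraMap K F a) - (f - algebraMap K F (ev P f)) =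
      algebraMap K F (ev P f - a) := by rw [map_sub]; ring
  have h3 : algebraMap K F (ev P f - a) ≠ 0 := by
    rw [ne_eq, map_eq_zero_iff _ (algebraMap K F).injective, sub_eq_zero]
    exact hne
  have h4 : P.ord (algebraMap K F (ev P f - a)) = 0 := ord_algebraMap P _
  have h5 : (f - algebraMap K F a) + -(f - algebraMap K F (ev P f)) = 0 ∨
      1 ≤ P.ord ((f - algebraMap K F a) + -(f - algebraMap K F (ev P f))) := by
    apply le_ord_add P (n := 1)
    · exact h.imp id fun h => h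
    · rw [neg_eq_zero, ord_neg]
      exact h1.imp id fun h => h
  rw [← sub_eq_add_neg, h2] at h5
  rcases h5 with h5 | h5
  · exact h3 h5
  · omega

theorem ev_algebraMap (P : Place K F) (a : K) : ev P (algebraMap K F a) = a :=
  ev_unique P (Or.inl (sub_self _))

theorem ev_zero (P : Place K F) : ev P (0 : F) = 0 := by
  have := ev_algebraMap (F := F) P 0
  rwa [map_zero] at this

theorem ev_one (P : Place K F) : ev P (1 : F) = 1 := by
  have := ev_algebraMap (F := F) P 1
  rwa [map_one] at this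

theorem ev_add (P : Place K F) {f g : F} (hf : 0 ≤ P.ord f) (hg : 0 ≤ P.ord g) :
    ev P (f + g) = ev P f + ev P g := by
  apply ev_unique
  have h1 : f + g - algebraMap K F (ev P f + ev P g) =
      (f - algebraMap K F (ev P f)) + (g - algebraMap K F (ev P g)) := by rw [map_add]; ring
  rw [h1]
  exact (le_ord_add P (n := 1) (ev_spec P hf) (ev_spec P hg)).imp id fun h => h

theorem mem_val {P : Place K F} {f : F} (h : 0 ≤ P.ord f) : f ∈ P.toValuationSubring :=
  mem_of_ord_nonneg P h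

theorem ord_add_nonneg (P : Place K F) {f g : F} (hf : 0 ≤ P.ord f) (hg : 0 ≤ P.ord g) :
    0 ≤ P.ord (f + g) := by
  rw [← mem_iff_ord_nonneg] at hf hg ⊢
  exact add_mem hf hg

theorem ord_mul_nonneg (P : Place K F) {f g : F} (hf : 0 ≤ P.ord f) (hg : 0 ≤ P.ord g) :
    0 ≤ P.ord (f * g) := by
  rw [← mem_iff_ord_nonneg] at hf hg ⊢
  exact mul_mem hf hg

theorem ord_sub_nonneg (P : Place K F) {f g : F} (hf : 0 ≤ P.ord f) (hg : 0 ≤ P.ord g) :
    0 ≤ P.ord (f - g) := by
  rw [← mem_iff_ord_nonneg] at hf hg ⊢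
  exact sub_mem hf hg

theorem ord_sub_algebraMap_nonneg (P : Place K F) {f : F} (hf : 0 ≤ P.ord f) (a : K) :
    0 ≤ P.ord (f - algebraMap K F a) :=
  ord_sub_nonneg P hf (by rw [ord_algebraMap])

theorem ev_mul (P : Place K F) {f g : F} (hf : 0 ≤ P.ord f) (hg : 0 ≤ P.ord g) :
    ev P (f * g) = ev P f * ev P g := by
  apply ev_unique
  have h1 : f * g - algebraMap K F (ev P f * ev P g) =
      (f - algebraMap K F (ev P f)) * g + algebraMap K F (ev P f) * (g - algebraMap K F (ev P g)) := by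
    rw [map_mul]; ring
  rw [h1]
  have h2 : ∀ u w : F, (u = 0 ∨ 0 < P.ord u) → 0 ≤ P.ord w → (u * w = 0 ∨ 1 ≤ P.ord (u * w)) := by
    intro u w hu hw
    rcases eq_or_ne u 0 with rfl | hu0
    · left; rw [zero_mul]
    rcases eq_or_ne w 0 with rfl | hw0
    · left; rw [mul_zero]
    right
    rw [P.ord_mul hu0 hw0]
    have := hu.resolve_left hu0
    omega
  refine (le_ord_add P (n := 1) (h2 _ _ (ev_spec P hf) hg) ?_).imp id fun h => h
  rw [mul_comm]
  exact h2 _ _ (ev_spec P hg) (by rw [ord_algebraMap])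

theorem ev_neg (P : Place K F) {f : F} (hf : 0 ≤ P.ord f) : ev P (-f) = -ev P f := by
  have h := ev_mul P (f := algebraMap K F (-1)) (g := f) (by rw [ord_algebraMap]) hf
  rw [ev_algebraMap, map_neg, map_one, neg_one_mul, neg_one_mul] at h
  exact h

theorem ev_sub (P : Place K F) {f g : F} (hf : 0 ≤ P.ord f) (hg : 0 ≤ P.ord g) :
    ev P (f - g) = ev P f - ev P g := by
  rw [sub_eq_add_neg, ev_add P hf (by rwa [ord_neg]), ev_neg P hg, sub_eq_add_neg]

theorem ord_pow_nonneg (P : Place K F) {f : F} (hf : 0 ≤ P.ord f) (n : ℕ) : 0 ≤ P.ord (f ^ n) := by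
  rw [ord_pow]; positivity

theorem ev_pow (P : Place K F) {f : F} (hf : 0 ≤ P.ord f) (n : ℕ) : ev P (f ^ n) = ev P f ^ n := by
  induction n with
  | zero => rw [pow_zero, pow_zero, ev_one]
  | succ n ih => rw [pow_succ, pow_succ, ev_mul P (ord_pow_nonneg P hf n) hf, ih]

theorem ord_sum_nonneg {ι : Type*} (P : Place K F) (s : Finset ι) (f : ι → F)
    (h : ∀ i ∈ s, 0 ≤ P.ord (f i)) : 0 ≤ P.ord (∑ i ∈ s, f i) := by
  rw [← mem_iff_ord_nonneg]
  exact sum_mem fun i hi => mem_of_ord_nonneg P (h i hi)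

theorem ev_sum {ι : Type*} (P : Place K F) (s : Finset ι) (f : ι → F)
    (h : ∀ i ∈ s, 0 ≤ P.ord (f i)) : ev P (∑ i ∈ s, f i) = ∑ i ∈ s, ev P (f i) := by
  classical
  induction s using Finset.induction_on with
  | empty => simp [ev_zero]
  | insert i s hi ih =>
    have h1 := fun j hj => h j (Finset.mem_insert_of_mem hj)
    rw [Finset.sum_insert hi, Finset.sum_insert hi,
      ev_add P (h i (Finset.mem_insert_self i s)) (ord_sum_nonneg P s f h1), ih h1]

theorem ev_eq_zero_iff (P : Place K F) {f : F} (h : 0 ≤ P.ord f) :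
    ev P f = 0 ↔ f = 0 ∨ 0 < P.ord f := by
  constructor
  · intro h0
    have := ev_spec P h
    rwa [h0, map_zero, sub_zero] at this
  · intro h0
    apply ev_unique
    rwa [map_zero, sub_zero]

theorem ev_ne_zero_iff (P : Place K F) {f : F} (h : 0 ≤ P.ord f) :
    ev P f ≠ 0 ↔ f ≠ 0 ∧ P.ord f = 0 := by
  rw [ne_eq, ev_eq_zero_iff P h, not_or, not_lt]
  exact and_congr_right fun _ => ⟨fun h' => le_antisymm h' h, fun h' => h'.le⟩

/-- semilinear equivariance of the values -/
theorem ev_smul (g : SemilinearAut K F) (P : Place K F) {f : F} (h : 0 ≤ P.ord f) :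
    ev (g • P) (g • f) = SemilinearAut.baseAut g (ev P f) := by
  apply ev_unique
  have h1 : g • f - algebraMap K F (SemilinearAut.baseAut g (ev P f)) =
      g • (f - algebraMap K F (ev P f)) := by
    rw [smul_sub, SemilinearAut.smul_algebraMap]
  rw [h1, SemilinearAut.ord_smul, smul_eq_zero_iff_eq]
  exact ev_spec P h

end Ev

section Disc

variable {K k : Type*} [Field K] [Field k] [IsAlgClosed K] [IsAlgClosed k] [CharZero K]
  {A : ValuationSubring K} {π : A →+* k}
  {F Fk : Type*} [Field F] [Algebra K F] [Field Fk] [Algebra k Fk] [IsFnField K F]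
  [IsFnField k Fk] {R : ConstRed A π F Fk} (S : Spec R)

/-- `f` is integral and regular on the residue disc of `Q`. -/
def Reg (Q : Place k Fk) (f : F) : Prop := f ∈ R.O ∧ ∀ P, S.r P = Q → 0 ≤ P.ord f

variable {S}

theorem Reg.add {Q : Place k Fk} {f g : F} (hf : Reg S Q f) (hg : Reg S Q g) : Reg S Q (f + g) :=
  ⟨add_mem hf.1 hg.1, fun P hP => ord_add_nonneg P (hf.2 P hP) (hg.2 P hP)⟩

theorem Reg.sub {Q : Place k Fk} {f g : F} (hf : Reg S Q f) (hg : Reg S Q g) : Reg S Q (f - g) :=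
  ⟨sub_mem hf.1 hg.1, fun P hP => ord_sub_nonneg P (hf.2 P hP) (hg.2 P hP)⟩

theorem Reg.mul {Q : Place k Fk} {f g : F} (hf : Reg S Q f) (hg : Reg S Q g) : Reg S Q (f * g) :=
  ⟨mul_mem hf.1 hg.1, fun P hP => ord_mul_nonneg P (hf.2 P hP) (hg.2 P hP)⟩

theorem Reg.const {Q : Place k Fk} {a : K} (ha : a ∈ A) : Reg S Q (algebraMap K F a) :=
  ⟨(R.algebraMap_mem_iff a).2 ha, fun P _ => by rw [ord_algebraMap]⟩

theorem Reg.sum {Q : Place k Fk} {ι : Type*} (s : Finset ι) (f : ι → F)
    (h : ∀ i ∈ s, Reg S Q (f i)) : Reg S Q (∑ i ∈ s, f i) :=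
  ⟨sum_mem fun i hi => (h i hi).1, fun P hP => ord_sum_nonneg P s f fun i hi => (h i hi).2 P hP⟩

theorem Reg.zero {Q : Place k Fk} : Reg S Q (0 : F) := ⟨zero_mem _, fun P _ => by simp⟩

theorem Reg.pow {Q : Place k Fk} {f : F} (hf : Reg S Q f) (n : ℕ) : Reg S Q (f ^ n) :=
  ⟨pow_mem hf.1 n, fun P hP => ord_pow_nonneg P (hf.2 P hP) n⟩

/-- the reduction of a regular function is regular. -/
theorem Reg.ord_rd_nonneg {Q : Place k Fk} {f : F} (hf : Reg S Q f) : 0 ≤ Q.ord (R.rd f) := by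
  rcases eq_or_ne (R.rd f) 0 with h | h
  · rw [h]; simp
  · exact S.ord_nonneg (R.isRed_rd hf.1) h Q hf.2

theorem Reg.mem_A {Q : Place k Fk} {f : F} (hf : Reg S Q f) {P : Place K F} (hP : S.r P = Q) :
    ev P f ∈ A := by
  by_contra haA
  set a := ev P f with ha
  have ha0 : a ≠ 0 := by rintro h; rw [h] at haA; exact haA A.zero_mem
  have hainv : a⁻¹ ∈ A := (A.mem_or_inv_mem a).resolve_left haA
  have hπ : π ⟨a⁻¹, hainv⟩ = 0 := by
    rw [R.pi_eq_zero_iff]
    intro hu
    obtain ⟨b, hb⟩ := hu.exists_right_inv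
    have hb' : a⁻¹ * (b : K) = 1 := congrArg Subtype.val hb
    have : (b : K) = a := by field_simp at hb'; exact hb'
    exact haA (this ▸ b.2)
  have h1 : R.IsRed (1 - algebraMap K F a⁻¹ * f) 1 := by
    have := R.isRed_one.sub ((R.isRed_algebraMap hainv).mul (R.isRed_rd hf.1))
    rwa [hπ, map_zero, zero_mul, sub_zero] at this
  have hreg : ∀ P', S.r P' = Q → 0 ≤ P'.ord (1 - algebraMap K F a⁻¹ * f) := fun P' hP' =>
    ord_sub_nonneg P' (by rw [Place.ord_one]) (ord_mul_nonneg P' (by rw [ord_algebraMap])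
      (hf.2 P' hP'))
  have h2 : 1 - algebraMap K F a⁻¹ * f = algebraMap K F (-a⁻¹) * (f - algebraMap K F a) := by
    rw [mul_sub, ← map_mul, neg_mul, inv_mul_cancel₀ ha0, map_neg, map_neg, map_one]
    ring
  have h3 := S.ord_le h1 one_ne_zero Q hreg hP
  rw [Place.ord_one, h2] at h3
  rcases ev_spec P (hf.2 P hP) with h4 | h4
  · have h5 : 1 - algebraMap K F a⁻¹ * f = 0 := by rw [h2, h4, mul_zero]
    exact h1.ne_zero one_ne_zero h5
  · rw [← ha] at h4
    have h5 : f - algebraMap K F a ≠ 0 := by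
      intro h5
      rw [h5] at h4
      simp at h4
    rw [P.ord_mul (by simpa using ha0) h5, ord_algebraMap] at h3
    omega

/-- values are compatible with reduction -/
theorem Reg.pi_ev {Q : Place k Fk} {f : F} (hf : Reg S Q f) {P : Place K F} (hP : S.r P = Q) :
    π ⟨ev P f, hf.mem_A hP⟩ = ev Q (R.rd f) := by
  symm
  apply ev_unique
  have h1 := (R.isRed_rd hf.1).sub (R.isRed_algebraMap (hf.mem_A hP))
  rcases eq_or_ne (R.rd f - algebraMap k Fk (π ⟨ev P f, hf.mem_A hP⟩)) 0 with h0 | h0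
  · exact Or.inl h0
  · right
    have h2 := S.ord_le h1 h0 Q (fun P' hP' => ord_sub_algebraMap_nonneg P' (hf.2 P' hP') _) hP
    have h3 : f - algebraMap K F (ev P f) ≠ 0 := h1.ne_zero h0
    have h4 := (ev_spec P (hf.2 P hP)).resolve_left h3
    omega

theorem mem_nonunits_iff_pi (R : ConstRed A π F Fk) {a : K} (ha : a ∈ A) :
    a ∈ A.nonunits ↔ π ⟨a, ha⟩ = 0 := by
  rw [R.pi_eq_zero_iff, ValuationSubring.mem_nonunits_iff, ← mem_nonunits_iff,
    ← IsLocalRing.mem_maximalIdeal]
  exact (A.valuation_lt_one_iff ⟨a, ha⟩).symm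

theorem Reg.ev_mem_nonunits {Q : Place k Fk} {f : F} (hf : Reg S Q f) {P : Place K F}
    (hP : S.r P = Q) (h0 : ev Q (R.rd f) = 0) : ev P f ∈ A.nonunits := by
  rw [mem_nonunits_iff_pi R (hf.mem_A hP), hf.pi_ev hP, h0]

end Disc

end Fermat.Agent.FFM
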