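import Fermat.Agent.FFM.ChordMain
import Fermat.Agent.Red.Genus

/-!
# General position on a curve
-/

set_option autoImplicit false
set_option linter.unusedSectionVars false
set_option linter.style.haveILetI false

open AlgebraicCurve Fermat.Agent.FF Fermat.Agent.RR Fermat.Agent.Red

namespace Fermat.Agent.FFM

variable {K F : Type*} [Field K] [Field F] [Algebra K F]

/-- linear equivalence -/
def LinEq (D E : Divisor K F) : Prop := D - E ∈ Divisor.principal (K := K) (F := F)

theorem LinEq.refl (D : Divisor K F) : LinEq D D := by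
  unfold LinEq; rw [sub_self]; exact zero_mem _

theorem LinEq.symm {D E : Divisor K F} (h : LinEq D E) : LinEq E D := by
  unfold LinEq at h ⊢; rw [← neg_sub]; exact neg_mem h

theorem LinEq.trans {D E G : Divisor K F} (h : LinEq D E) (h' : LinEq E G) : LinEq D G := by
  unfold LinEq at h h' ⊢; rw [← sub_add_sub_cancel D E G]; exact add_mem h h'

theorem LinEq.add {D E D' E' : Divisor K F} (h : LinEq D E) (h' : LinEq D' E') :
    LinEq (D + D') (E + E') := by
  unfold LinEq at h h' ⊢; rw [add_sub_add_comm]; exact add_mem h h'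

theorem LinEq.neg {D E : Divisor K F} (h : LinEq D E) : LinEq (-D) (-E) := by
  unfold LinEq at h ⊢
  have : -D - -E = -(D - E) := by abel
  rw [this]; exact neg_mem h

theorem LinEq.sub {D E D' E' : Divisor K F} (h : LinEq D E) (h' : LinEq D' E') :
    LinEq (D - D') (E - E') := by
  rw [sub_eq_add_neg, sub_eq_add_neg]; exact h.add h'.neg

theorem linEq_of_eq {D E : Divisor K F} (h : D = E) : LinEq D E := h ▸ LinEq.refl D

theorem LinEq.smul {D E : Divisor K F} (h : LinEq D E) (g : SemilinearAut K F) :
    LinEq (g • D) (g • E) := by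
  unfold LinEq at h ⊢
  rw [← smul_sub]
  exact SemilinearAut.smul_mem_principal g h

variable [IsAlgClosed K] [IsFnField K F]

theorem LinEq.exists_divOf {D E : Divisor K F} (h : LinEq D E) :
    ∃ f : F, f ≠ 0 ∧ D = E + RR.divOf f := by
  obtain ⟨f, hf, h⟩ := h
  refine ⟨f, hf, ?_⟩
  ext v
  rw [Finsupp.add_apply, RR.divOf_apply, ← h v, Finsupp.sub_apply]
  ring

theorem linEq_add_divOf (D : Divisor K F) {f : F} (hf : f ≠ 0) : LinEq (D + RR.divOf f) D :=
  ⟨f, hf, fun v => by rw [add_sub_cancel_left, RR.divOf_apply]⟩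

theorem LinEq.degree_eq {D E : Divisor K F} (h : LinEq D E) :
    Divisor.degree D = Divisor.degree E := by
  obtain ⟨f, -, rfl⟩ := h.exists_divOf
  rw [map_add, RR.degree_divOf, add_zero]

theorem LinEq.ell_eq {D E : Divisor K F} (h : LinEq D E) : ell D = ell E := by
  obtain ⟨f, hf, rfl⟩ := h.exists_divOf
  exact ell_add_divOf E hf

/-- effective divisors in a class with `ℓ ≤ 1` are unique. -/
theorem eq_of_linEq {D E : Divisor K F} (hD : 0 ≤ D) (hE : 0 ≤ E) (h : LinEq D E)
    (hl : ell E ≤ 1) : D = E := by
  obtain ⟨f, hf, rfl⟩ := h.exists_divOf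
  have h1 : f ∈ riemannRochSpace E := by rwa [mem_riemannRochSpace_iff_divOf hf]
  have h2 : (1 : F) ∈ riemannRochSpace E := by
    rw [mem_riemannRochSpace_iff_divOf one_ne_zero]
    have : RR.divOf (K := K) (1 : F) = 0 := by ext v; simp
    rwa [this, add_zero]
  -- `f` is a constant
  have h3 : ∃ c : K, f = algebraMap K F c := by
    by_contra hcon
    push Not at hcon
    have hli : LinearIndependent K ![(⟨1, h2⟩ : riemannRochSpace E), ⟨f, h1⟩] := by
      rw [LinearIndependent.pair_iff]
      intro s t hst
      have hst' : s • (1 : F) + t • f = 0 := congrArg Subtype.val hst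
      by_cases ht : t = 0
      · subst ht
        rw [zero_smul, add_zero, smul_eq_zero] at hst'
        exact ⟨hst'.resolve_right one_ne_zero, rfl⟩
      · exfalso
        apply hcon (-(s / t))
        have h4 : algebraMap K F t ≠ 0 := by simpa using ht
        rw [Algebra.smul_def, Algebra.smul_def, mul_one] at hst'
        rw [map_neg, map_div₀]
        field_simp
        linear_combination hst'
    have h5 := hli.fintype_card_le_finrank
    rw [Fintype.card_fin] at h5
    have h6 : Module.finrank K (riemannRochSpace E) = ell E := rfl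
    omega
  obtain ⟨c, rfl⟩ := h3
  have h7 : RR.divOf (K := K) (algebraMap K F c) = 0 := by
    ext v
    rw [RR.divOf_apply, ord_algebraMap]
    rfl
  rw [h7, add_zero]

theorem exists_effective_linEq {D : Divisor K F} (h : 0 < ell D) :
    ∃ E : Divisor K F, 0 ≤ E ∧ LinEq E D := by
  obtain ⟨f, hf, hf0⟩ := exists_mem_ne_zero_of_ell_pos h
  exact ⟨D + RR.divOf f, (mem_riemannRochSpace_iff_divOf hf0).1 hf, linEq_add_divOf D hf0⟩

theorem sumDiv_insert [DecidableEq (Place K F)] {s : Finset (Place K F)} {Q : Place K F}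
    (h : Q ∉ s) : sumDiv (insert Q s) = sumDiv s + Finsupp.single Q 1 := by
  rw [sumDiv, Finset.sum_insert h, add_comm]; rfl

/-- general reduced effective divisors are non special. -/
theorem exists_nonspecial (Z : Finset (Place K F)) (n : ℕ) (hn : n ≤ genusFF K F) :
    ∃ s : Finset (Place K F), s.card = n ∧ Disjoint s Z ∧ ell (sumDiv s) = 1 := by
  classical
  induction n with
  | zero => exact ⟨∅, rfl, Finset.disjoint_empty_left Z, by rw [sumDiv, Finset.sum_empty, ell_zero]⟩
  | succ n ih =>
    obtain ⟨s, hs, hZ, hl⟩ := ih (by omega)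
    set B := sumDiv s with hB
    have hBd : Divisor.degree B = n := by rw [hB, degree_sumDiv, hs]
    obtain ⟨W, hW⟩ := RR.exists_isCanonical K F
    have h1 := hW.riemann_roch B
    have h2 : 0 < RR.ell (W - B) := by
      rw [hl, hBd] at h1
      omega
    obtain ⟨f, hf, hf0⟩ := RR.exists_mem_ne_zero_of_ell_pos h2
    have hfe := (RR.mem_riemannRochSpace_iff_divOf hf0).1 hf
    haveI := infinite_places (K := K) (F := F)
    obtain ⟨Q, hQ⟩ := Infinite.exists_notMem_finset ((W - B + RR.divOf f).support ∪ s ∪ Z)
    rw [Finset.mem_union, Finset.mem_union, not_or, not_or, Finsupp.notMem_support_iff] at hQ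
    obtain ⟨⟨hQ, hQs⟩, hQZ⟩ := hQ
    refine ⟨insert Q s, by rw [Finset.card_insert_of_notMem hQs, hs], ?_, ?_⟩
    · rw [Finset.disjoint_insert_left]
      exact ⟨hQZ, hZ⟩
    · rw [sumDiv_insert hQs, ← hB]
      have h3 := hW.riemann_roch (B + Finsupp.single Q 1)
      rw [map_add, RR.degree_single', hBd] at h3
      have h4 : RR.ell (W - (B + Finsupp.single Q 1)) < RR.ell (W - B) := by
        apply Submodule.finrank_lt_finrank_of_lt
        refine lt_of_le_of_ne (RR.riemannRochSpace_mono ?_) ?_
        · intro v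
          simp only [Finsupp.sub_apply, Finsupp.add_apply, Finsupp.single_apply]
          split_ifs <;> omega
        · intro heq
          rw [← heq, RR.mem_riemannRochSpace_iff_divOf hf0] at hf
          have h5 := hf Q
          simp only [Finsupp.coe_zero, Pi.zero_apply, Finsupp.add_apply, Finsupp.sub_apply,
            Finsupp.single_eq_same] at h5 hQ
          omega
      have h5 : RR.ell B ≤ RR.ell (B + Finsupp.single Q 1) :=
        RR.ell_mono (RR.single_one_le Q le_rfl)
      rw [hl, hBd] at h1
      omega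

/-- classes of large degree contain effective divisors avoiding a given finite set. -/
theorem exists_effective_avoiding (D : Divisor K F)
    (hD : 2 * (genusFF K F : ℤ) ≤ Divisor.degree D) (Z : Finset (Place K F)) :
    ∃ G : Divisor K F, 0 ≤ G ∧ LinEq G D ∧ ∀ Q ∈ Z, G Q = 0 := by
  classical
  have hl := ell_eq_of_lt_degree (D := D) (by omega)
  let N : Place K F → Submodule K (riemannRochSpace D) := fun Q =>
    (riemannRochSpace (D - Finsupp.single Q 1)).comap (riemannRochSpace D).subtype
  have hN : ∀ Q, N Q ≠ ⊤ := by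
    intro Q htop
    have h1 : riemannRochSpace D ≤ riemannRochSpace (D - Finsupp.single Q 1) := by
      intro f hf
      have : (⟨f, hf⟩ : riemannRochSpace D) ∈ N Q := htop ▸ Submodule.mem_top
      exact this
    have h2 : ell D ≤ ell (D - Finsupp.single Q 1) := Submodule.finrank_mono h1
    have h3 := ell_eq_of_lt_degree (D := D - Finsupp.single Q 1)
      (by rw [map_sub, degree_single']; omega)
    rw [map_sub, degree_single'] at h3
    omega
  have hpos : 0 < ell D := by omega
  have hbot : (⊥ : Submodule K (riemannRochSpace D)) ≠ ⊤ := by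
    intro h
    obtain ⟨f, hf, hf0⟩ := exists_mem_ne_zero_of_ell_pos hpos
    have : (⟨f, hf⟩ : riemannRochSpace D) ∈ (⊥ : Submodule K (riemannRochSpace D)) :=
      h ▸ Submodule.mem_top
    rw [Submodule.mem_bot] at this
    exact hf0 (congrArg Subtype.val this)
  haveI : Infinite K := IsAlgClosed.instInfinite
  have hcov := Subspace.biUnion_ne_univ_of_top_notMem (k := K) (E := riemannRochSpace D)
    (s := insert ⊥ (Z.image N)) (by
      rw [Finset.mem_insert, not_or, Finset.mem_image]
      refine ⟨fun h => hbot h.symm, ?_⟩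
      rintro ⟨Q, -, hQ⟩
      exact hN Q hQ)
  obtain ⟨f, hf⟩ := (Set.ne_univ_iff_exists_notMem _).mp hcov
  simp only [Set.mem_iUnion, not_exists, Finset.mem_insert, Finset.mem_image] at hf
  have hf0 : (f : F) ≠ 0 := by
    intro h
    apply hf ⊥ (Or.inl rfl)
    rw [SetLike.mem_coe, Submodule.mem_bot]
    exact Subtype.ext h
  have hfe := (mem_riemannRochSpace_iff_divOf hf0).1 f.2
  refine ⟨D + RR.divOf (f : F), hfe, linEq_add_divOf D hf0, fun Q hQ => ?_⟩
  by_contra hne
  apply hf (N Q) (Or.inr ⟨Q, hQ, rfl⟩)
  change (f : F) ∈ riemannRochSpace (D - Finsupp.single Q 1)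
  rw [mem_riemannRochSpace_iff_divOf hf0]
  intro v
  have h5 := hfe v
  rw [Finsupp.coe_zero, Pi.zero_apply] at h5 ⊢
  rw [Finsupp.add_apply] at h5 hne ⊢
  rw [Finsupp.sub_apply, Finsupp.single_apply]
  split_ifs with hv
  · subst hv
    omega
  · omega

/-- local parameters with a pole at one given place only. -/
theorem exists_ord_eq_one_of_ne (c Q : Place K F) (_h : Q ≠ c) (m : ℕ)
    (hm : 2 * genusFF K F + 2 ≤ m) :
    ∃ z ∈ riemannRochSpace (Finsupp.single c (m : ℤ) : Divisor K F), Q.ord z = 1 := by
  classical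
  have h1 := ell_eq_of_lt_degree
    (D := (Finsupp.single c (m : ℤ) : Divisor K F) - Finsupp.single Q 1)
    (by rw [map_sub, degree_single', degree_single']; omega)
  have h2 := ell_eq_of_lt_degree
    (D := (Finsupp.single c (m : ℤ) : Divisor K F) - Finsupp.single Q 2)
    (by rw [map_sub, degree_single', degree_single']; omega)
  rw [map_sub, degree_single', degree_single'] at h1 h2
  have h3 : ¬ riemannRochSpace ((Finsupp.single c (m : ℤ) : Divisor K F) - Finsupp.single Q 1) ≤
      riemannRochSpace ((Finsupp.single c (m : ℤ) : Divisor K F) - Finsupp.single Q 2) := by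
    intro h
    have h4 := Submodule.finrank_mono h
    change ell _ ≤ ell _ at h4
    omega
  obtain ⟨z, hz, hz'⟩ := Set.not_subset.mp h3
  have hz0 : z ≠ 0 := by
    rintro rfl
    exact hz' (zero_mem _)
  have hz1 := hz
  rw [SetLike.mem_coe, mem_riemannRochSpace_iff_divOf hz0] at hz1 hz'
  refine ⟨z, riemannRochSpace_mono ?_ hz, ?_⟩
  · intro v
    rw [Finsupp.sub_apply, Finsupp.single_apply, Finsupp.single_apply]
    split_ifs <;> omega
  · have h5 := hz1 Q
    simp only [Finsupp.coe_zero, Pi.zero_apply, Finsupp.add_apply, Finsupp.sub_apply,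
      Finsupp.single_eq_same, Finsupp.single_apply, if_neg _h.symm, RR.divOf_apply] at h5
    by_contra hne
    apply hz'
    intro v
    have h6 := hz1 v
    simp only [Finsupp.coe_zero, Pi.zero_apply, Finsupp.add_apply, Finsupp.sub_apply,
      Finsupp.single_apply, RR.divOf_apply] at h6 ⊢
    by_cases hv : Q = v
    · subst hv
      rw [if_neg _h.symm] at h6 ⊢
      rw [if_pos rfl] at h6 ⊢
      omega
    · rw [if_neg hv] at h6 ⊢
      omega

end Fermat.Agent.FFM
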