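import Fermat.Agent.FFM.Datum

/-!
# Existence of data; integral families form a group
-/

set_option autoImplicit false
set_option linter.unusedSectionVars false
set_option linter.style.haveILetI false

open AlgebraicCurve Fermat.Agent.FF Fermat.Agent.RR Fermat.Agent.Red

namespace Fermat.Agent.FFM

variable {K k : Type*} [Field K] [Field k] [IsAlgClosed K] [IsAlgClosed k] [CharZero K]
  {A : ValuationSubring K} {π : A →+* k}
  {F Fk : Type*} [Field F] [Algebra K F] [Field Fk] [Algebra k Fk] [IsFnField K F]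
  [IsFnField k Fk] {R : ConstRed A π F Fk}
  {Γ : Type*} [Group Γ] [MulSemiringAction Γ K]
  {S : Spec R} {ρ : Γ →* SemilinearAut K F} (G : Geo S ρ)

include G in
/-- local parameters exist at all places different from the reduction of a fixed place. -/
theorem exists_locPar (inf : Place K F) (hinf : ∀ g, ρ g • inf = inf) (Q : Place k Fk)
    (hQ : Q ≠ S.r inf) : ∃ t, LocPar S ρ Q t := by
  classical
  obtain ⟨z, hz, hz1⟩ := exists_ord_eq_one_of_ne (S.r inf) Q hQ (2 * genusFF k Fk + 2) le_rfl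
  have hpush : push S (Finsupp.single inf ((2 * genusFF k Fk + 2 : ℕ) : ℤ)) =
      Finsupp.single (S.r inf) ((2 * genusFF k Fk + 2 : ℕ) : ℤ) := push_single _ _
  rw [← hpush] at hz
  obtain ⟨f, hf, hfz, hfΓ⟩ := G.exists_lift (D := Finsupp.single inf ((2 * genusFF k Fk + 2 : ℕ) : ℤ))
    (fun g => by rw [SemilinearAut.smul_single, hinf])
    (G.ell_eq_of_lt (by rw [degree_single']; push_cast; omega)) hz
  refine ⟨f, ⟨hfz.mem, fun P hP => ?_⟩, by rw [hfz.rd_eq, hz1], hfΓ⟩
  refine ord_nonneg_of_mem_L ?_ hf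
  rw [Finsupp.single_apply, if_neg]
  rintro rfl
  exact hQ hP.symm

include G in
theorem exists_datum (inf : Place K F) (hinf : ∀ g, ρ g • inf = inf) (x : Divisor k Fk)
    (hx : Divisor.degree x = 0) (Z : Finset (Place k Fk)) :
    ∃ d : Datum S ρ, LinEq d.cls x ∧ Disjoint d.E Z ∧ ∀ P, S.r P ∈ Z → d.B P = 0 := by
  classical
  set g := genusFF k Fk with hg
  have hpar : ∀ Q : Place k Fk, Q ≠ S.r inf → ∃ t, LocPar S ρ Q t := fun Q hQ =>
    exists_locPar G inf hinf Q hQ
  obtain ⟨s, hs, hsZ, hsl⟩ := exists_nonspecial (insert (S.r inf) Z) g le_rfl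
  rw [Finset.disjoint_insert_right] at hsZ
  have hsinf : ∀ Q ∈ s, Q ≠ S.r inf := fun Q hQ h => hsZ.1 (h ▸ hQ)
  haveI := infinite_places (K := k) (F := Fk)
  obtain ⟨Q₀, hQ₀⟩ := Infinite.exists_notMem_finset (insert (S.r inf) (s ∪ Z))
  rw [Finset.mem_insert, Finset.mem_union, not_or, not_or] at hQ₀
  obtain ⟨hQ₀inf, hQ₀s, hQ₀Z⟩ := hQ₀
  obtain ⟨t₀, ht₀⟩ := hpar Q₀ hQ₀inf
  obtain ⟨G₀, hG₀, hG₀lin, hG₀Z⟩ := exists_effective_avoiding
    (Finsupp.single Q₀ ((3 * g : ℕ) : ℤ) - sumDiv s + x : Divisor k Fk)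
    (by rw [map_add, map_sub, hx, degree_single', degree_sumDiv, hs]; push_cast; omega)
    (insert (S.r inf) (s ∪ Z))
  -- lifts of places
  let cen : Place k Fk → Place K F := fun Q =>
    if h : Q ≠ S.r inf then (hpar Q h).choose_spec.center else inf
  have hcen : ∀ Q, S.r (cen Q) = Q := by
    intro Q
    simp only [cen]
    split_ifs with h
    · exact (hpar Q h).choose_spec.r_center
    · rw [not_not] at h; exact h.symm
  have hcenΓ : ∀ (γ : Γ) Q, ρ γ • cen Q = cen Q := by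
    intro γ Q
    simp only [cen]
    split_ifs with h
    · exact (hpar Q h).choose_spec.smul_center G.toGeoBase γ
    · exact hinf γ
  set Ĝ : Divisor K F := ∑ Q ∈ G₀.support, Finsupp.single (cen Q) (G₀ Q) with hĜ
  have hpushĜ : push S Ĝ = G₀ := by
    rw [hĜ, push_sum]
    conv_rhs => rw [← G₀.sum_single]
    exact Finset.sum_congr rfl fun Q _ => by rw [push_single, hcen]
  have hcls : LinEq (sumDiv s - push S (Finsupp.single (cen Q₀) ((3 * g : ℕ) : ℤ) - Ĝ)) x := by
    rw [push_sub, push_single, hcen, hpushĜ]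
    have h1 := (LinEq.refl (sumDiv s - Finsupp.single Q₀ ((3 * g : ℕ) : ℤ))).add hG₀lin
    refine LinEq.trans (linEq_of_eq ?_) (h1.trans (linEq_of_eq ?_)) <;> abel
  have hdeg : Divisor.degree (Finsupp.single (cen Q₀) ((3 * g : ℕ) : ℤ) - Ĝ : Divisor K F) = g := by
    have h1 := hcls.degree_eq
    rw [hx, map_sub, degree_sumDiv, degree_push, hs] at h1
    omega
  have hoff : ∀ P, S.r P ∈ s ∪ Z → (Finsupp.single (cen Q₀) ((3 * g : ℕ) : ℤ) - Ĝ : Divisor K F) P = 0 := by
    intro P hP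
    rw [Finsupp.sub_apply, Finsupp.single_apply, if_neg, zero_sub, neg_eq_zero, hĜ,
      Finsupp.finsetSum_apply]
    · refine Finset.sum_eq_zero fun Q hQ => ?_
      rw [Finsupp.single_apply]
      split_ifs with h
      · rw [← h, hcen] at hP
        exact hG₀Z Q (Finset.mem_insert_of_mem hP)
      · rfl
    · intro h
      rw [← h, hcen] at hP
      rcases Finset.mem_union.mp hP with h' | h'
      · exact hQ₀s h'
      · exact hQ₀Z h'
  refine ⟨⟨s, Finsupp.single (cen Q₀) ((3 * g : ℕ) : ℤ) - Ĝ,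
    fun Q => if h : Q ≠ S.r inf then (hpar Q h).choose else 0, hs, hsl, fun γ => ?_,
    fun P hP => hoff P (Finset.mem_union_left _ hP), hdeg, fun Q hQ => ?_⟩, hcls, hsZ.2,
    fun P hP => hoff P (Finset.mem_union_right _ hP)⟩
  · rw [smul_sub, hĜ, Finset.smul_sum, SemilinearAut.smul_single, hcenΓ]
    congr 1
    exact Finset.sum_congr rfl fun Q _ => by rw [SemilinearAut.smul_single, hcenΓ]
  · rw [dif_pos (hsinf Q hQ)]
    exact (hpar Q (hsinf Q hQ)).choose_spec

open Classical in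
/-- the places involved in a datum. -/
noncomputable def Datum.supp (d : Datum S ρ) : Finset (Place k Fk) :=
  d.E ∪ d.B.support.image S.r

theorem Datum.sep_of_supp {d d' : Datum S ρ} {Z : Finset (Place k Fk)} (hZ : d.supp ⊆ Z)
    (h1 : Disjoint d'.E Z) (h2 : ∀ P, S.r P ∈ Z → d'.B P = 0) : Sep d d' := by
  classical
  refine ⟨?_, fun P hP => h2 P (hZ (Finset.mem_union_left _ hP)), fun P hP => ?_⟩
  · rw [Finset.disjoint_left] at h1 ⊢
    intro Q hQ hQ'
    exact h1 hQ' (hZ (Finset.mem_union_left _ hQ))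
  · by_contra hne
    apply Finset.disjoint_left.mp h1 hP
    apply hZ
    apply Finset.mem_union_right
    rw [Finset.mem_image]
    exact ⟨P, Finsupp.mem_support_iff.mpr hne, rfl⟩

include G in
theorem exists_datum_sep (inf : Place K F) (hinf : ∀ g, ρ g • inf = inf) (x : Divisor k Fk)
    (hx : Divisor.degree x = 0) (d d' : Datum S ρ) :
    ∃ d'' : Datum S ρ, LinEq d''.cls x ∧ Sep d d'' ∧ Sep d' d'' := by
  classical
  obtain ⟨d'', h1, h2, h3⟩ := exists_datum G inf hinf x hx (d.supp ∪ d'.supp)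
  exact ⟨d'', h1, Datum.sep_of_supp Finset.subset_union_left h2 h3,
    Datum.sep_of_supp Finset.subset_union_right h2 h3⟩

section Fam

variable {X : Type*} [MulAction Γ X] [Fintype X] {T : Subring (X → K)} (hT : FunOrder Γ A T)
  (inf : Place K F) (hinf : ∀ g, ρ g • inf = inf)

include hT in
theorem isInt_zero (d : Datum S ρ) (hd : LinEq d.cls 0) :
    IsInt G T d (fun _ : X => (0 : Divisor K F)) := by
  intro Q hQ
  refine hT.const _ ⟨d.co_mem G 0 hQ, fun g => ?_⟩
  rw [← d.co_smul G (by rw [push_zero]; exact hd.symm) g hQ, smul_zero]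

theorem isInt_congr {d : Datum S ρ} {P P' : X → Divisor K F} (hP : Fam ρ S d.cls P)
    (h : ∀ a, LinEq (P' a) (P a)) (hi : IsInt G T d P) : IsInt G T d P' := by
  intro Q hQ
  have : (fun a => d.co G (P' a) Q) = fun a => d.co G (P a) Q := by
    funext a
    exact d.co_congr G (hP.red a) (h a) hQ
  rw [this]
  exact hi Q hQ

include hT hinf in
theorem isInt_neg_sep {d d' : Datum S ρ} (hs : Sep d d') {P P' : X → Divisor K F}
    (hP : Fam ρ S d.cls P) (hP' : Fam ρ S d'.cls P') (hPP : ∀ a, LinEq (P a + P' a) 0)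
    (h : IsInt G T d P) : IsInt G T d' P' := by
  obtain ⟨d₂, hcls, hs1, hs2⟩ := exists_datum_sep G inf hinf 0 (map_zero _) d d'
  refine chord3 G hT hs1 hs hs2.symm hP (Fam.zero.congr hcls.symm) hP' (fun a => ?_) h
    (isInt_zero G hT d₂ hcls)
  rw [add_zero]
  exact hPP a

include hT hinf in
/-- integrality does not depend on the datum. -/
theorem isInt_indep {d d' : Datum S ρ} {P : X → Divisor K F} (hP : Fam ρ S d.cls P)
    (hP' : Fam ρ S d'.cls P) (h : IsInt G T d P) : IsInt G T d' P := by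
  obtain ⟨d₃, hcls, hs1, hs2⟩ := exists_datum_sep G inf hinf (-d.cls)
    (by rw [map_neg, d.degree_cls, neg_zero]) d d'
  have hneg : Fam ρ S d₃.cls (fun a => -P a) := hP.neg.congr hcls.symm
  have h1 : IsInt G T d₃ (fun a => -P a) := isInt_neg_sep G hT inf hinf hs1 hP hneg
    (fun a => by rw [add_neg_cancel]; exact LinEq.refl _) h
  exact isInt_neg_sep G hT inf hinf hs2.symm hneg hP'
    (fun a => by rw [neg_add_cancel]; exact LinEq.refl _) h1

include hT hinf in
theorem isInt_neg {d d' : Datum S ρ} {P P' : X → Divisor K F}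
    (hP : Fam ρ S d.cls P) (hP' : Fam ρ S d'.cls P') (hPP : ∀ a, LinEq (P a + P' a) 0)
    (h : IsInt G T d P) : IsInt G T d' P' := by
  obtain ⟨d₃, hcls, hs1, -⟩ := exists_datum_sep G inf hinf (-d.cls)
    (by rw [map_neg, d.degree_cls, neg_zero]) d d'
  have hneg : Fam ρ S d₃.cls (fun a => -P a) := hP.neg.congr hcls.symm
  have h1 : IsInt G T d₃ (fun a => -P a) := isInt_neg_sep G hT inf hinf hs1 hP hneg
    (fun a => by rw [add_neg_cancel]; exact LinEq.refl _) h
  have hlin : ∀ a, LinEq (P' a) (-P a) := by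
    intro a
    have h2 := (hPP a).sub (LinEq.refl (P a))
    rwa [add_sub_cancel_left, zero_sub] at h2
  have hP'2 : Fam ρ S d₃.cls P' := ⟨fun a => (push_linEq (hlin a)).trans (hneg.red a), hP'.equiv⟩
  exact isInt_indep G hT inf hinf hP'2 hP' (isInt_congr G hneg hlin h1)

include hT hinf in
/-- integral families are closed under addition. -/
theorem isInt_add {d₁ d₂ d₃ : Datum S ρ} {P₁ P₂ P₃ : X → Divisor K F} (hP₁ : Fam ρ S d₁.cls P₁)
    (hP₂ : Fam ρ S d₂.cls P₂) (hP₃ : Fam ρ S d₃.cls P₃)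
    (hadd : ∀ a, LinEq (P₁ a + P₂ a) (P₃ a)) (h₁ : IsInt G T d₁ P₁) (h₂ : IsInt G T d₂ P₂) :
    IsInt G T d₃ P₃ := by
  -- put `d₂` in general position with respect to `d₁`
  obtain ⟨e₂, he₂, hs12, -⟩ := exists_datum_sep G inf hinf d₂.cls d₂.degree_cls d₁ d₁
  have hP₂' : Fam ρ S e₂.cls P₂ := hP₂.congr he₂.symm
  have h₂' : IsInt G T e₂ P₂ := isInt_indep G hT inf hinf hP₂ hP₂' h₂
  obtain ⟨e₃, he₃, hs13, hs23⟩ := exists_datum_sep G inf hinf (-(d₁.cls + d₂.cls))
    (by rw [map_neg, map_add, d₁.degree_cls, d₂.degree_cls, add_zero, neg_zero]) d₁ e₂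
  have hN : Fam ρ S e₃.cls (fun a => -(P₁ a + P₂ a)) := (hP₁.add hP₂).neg.congr he₃.symm
  have h3 : IsInt G T e₃ (fun a => -(P₁ a + P₂ a)) := chord3 G hT hs12 hs13 hs23 hP₁ hP₂' hN
    (fun a => by rw [add_neg_cancel]; exact LinEq.refl _) h₁ h₂'
  refine isInt_neg G hT inf hinf hN hP₃ (fun a => ?_) h3
  have h4 := (LinEq.refl (-(P₁ a + P₂ a))).add (hadd a).symm
  rwa [neg_add_cancel] at h4

end Fam

end Fermat.Agent.FFM
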