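import Fermat.Agent.FFM.Descent
import Fermat.Agent.Flat.Global

/-!
# Separating equivariant functions on smooth Galois modules
-/

set_option autoImplicit false
set_option linter.unusedSectionVars false
set_option linter.style.haveILetI false

noncomputable section

namespace Fermat.Agent.FFM

local notation "Qb" => AlgebraicClosure ℚ
local notation "GalQ" => (AlgebraicClosure ℚ ≃ₐ[ℚ] AlgebraicClosure ℚ)

/-- an element with prescribed open stabiliser. -/
theorem exists_stabilizer_eq (H : Subgroup GalQ) (E : IntermediateField ℚ Qb)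
    [FiniteDimensional ℚ E] (hE : E.fixingSubgroup ≤ H) :
    ∃ α : Qb, ∀ g : GalQ, g • α = α ↔ g ∈ H := by
  have hopen : IsOpen (H : Set GalQ) := Subgroup.isOpen_mono hE E.fixingSubgroup_isOpen
  have hclosed : IsClosed (H : Set GalQ) := Subgroup.isClosed_of_isOpen H hopen
  let L := IntermediateField.fixedField H
  have hfix : L.fixingSubgroup = H :=
    InfiniteGalois.fixingSubgroup_fixedField (⟨H, hclosed⟩ : ClosedSubgroup GalQ)
  have hLE : L ≤ E := by
    have h1 : IntermediateField.fixedField H ≤ IntermediateField.fixedField E.fixingSubgroup :=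
      IntermediateField.fixedField_antitone hE
    rwa [InfiniteGalois.fixedField_fixingSubgroup] at h1
  haveI : FiniteDimensional ℚ L :=
    Submodule.finiteDimensional_of_le (S₁ := L.toSubalgebra.toSubmodule)
      (S₂ := E.toSubalgebra.toSubmodule) hLE
  obtain ⟨α, hα⟩ := @Field.exists_primitive_element ℚ L _ _ (IntermediateField.algebra' L) _ _
  have hL : L = IntermediateField.adjoin ℚ {(α : Qb)} := by
    have h1 := IntermediateField.lift_adjoin_simple ℚ L α
    exact (IntermediateField.lift_top ℚ L).symm.trans
      ((congrArg IntermediateField.lift hα).symm.trans h1)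
  refine ⟨α, fun g => ⟨fun h => ?_, fun h => ?_⟩⟩
  · rw [← hfix, IntermediateField.mem_fixingSubgroup_iff]
    intro y hy
    rw [hL] at hy
    have h2 : IntermediateField.adjoin ℚ {(α : Qb)} ≤
        IntermediateField.fixedField (Subgroup.zpowers g) := by
      rw [IntermediateField.adjoin_simple_le_iff, IntermediateField.mem_fixedField_iff]
      intro f hf
      obtain ⟨n, rfl⟩ := Subgroup.mem_zpowers_iff.mp hf
      have h3 : g ∈ MulAction.stabilizer GalQ (α : Qb) := h
      exact (MulAction.stabilizer GalQ (α : Qb)).zpow_mem h3 n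
    exact (IntermediateField.mem_fixedField_iff _ _).mp (h2 hy) g (Subgroup.mem_zpowers g)
  · rw [← hfix, IntermediateField.mem_fixingSubgroup_iff] at h
    exact h α α.2

theorem sepFun_of_smooth {M : Type*} [AddCommGroup M] [DistribMulAction GalQ M]
    (h : ∀ m : M, ∃ E : IntermediateField ℚ Qb, FiniteDimensional ℚ E ∧
      ∀ σ : GalQ, (∀ y ∈ E, σ y = y) → σ • m = m) : SepFun GalQ Qb M := by
  classical
  intro m m' hne
  by_cases horb : ∃ g : GalQ, g • m = m'
  · obtain ⟨E, hE, hEm⟩ := h m
    obtain ⟨α, hα⟩ := exists_stabilizer_eq (MulAction.stabilizer GalQ m) E (fun g hg =>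
      hEm g ((IntermediateField.mem_fixingSubgroup_iff _ _).mp hg))
    have hα' : ∀ g g' : GalQ, g • m = g' • m → g • α = g' • α := by
      intro g g' h1
      have h2 : (g'⁻¹ * g) • α = α := by
        rw [hα, MulAction.mem_stabilizer_iff, mul_smul, h1, inv_smul_smul]
      rw [mul_smul, inv_smul_eq_iff] at h2
      exact h2
    refine ⟨fun x => if h : ∃ g : GalQ, g • m = x then h.choose • α else 0, fun g x => ?_, ?_⟩
    · dsimp only
      by_cases hx : ∃ g : GalQ, g • m = x
      · have hx' : ∃ g' : GalQ, g' • m = g • x := by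
          obtain ⟨g', rfl⟩ := hx
          exact ⟨g * g', mul_smul _ _ _⟩
        rw [dif_pos hx, dif_pos hx', ← mul_smul]
        apply hα'
        rw [hx'.choose_spec, mul_smul, hx.choose_spec]
      · have hx' : ¬ ∃ g' : GalQ, g' • m = g • x := by
          rintro ⟨g', hg'⟩
          exact hx ⟨g⁻¹ * g', by rw [mul_smul, hg', inv_smul_smul]⟩
        rw [dif_neg hx, dif_neg hx', smul_zero]
    · have h1 : ∃ g : GalQ, g • m = m := ⟨1, one_smul _ _⟩
      dsimp only
      rw [dif_pos h1, dif_pos horb]
      intro h2
      apply hne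
      have h3 : (h1.choose⁻¹ * horb.choose) • α = α := by
        rw [mul_smul, ← h2, inv_smul_smul]
      rw [hα, MulAction.mem_stabilizer_iff, mul_smul, horb.choose_spec, inv_smul_eq_iff,
        h1.choose_spec] at h3
      exact h3.symm
  · refine ⟨fun x => if ∃ g : GalQ, g • m = x then 1 else 0, fun g x => ?_, ?_⟩
    · dsimp only
      by_cases hx : ∃ g : GalQ, g • m = x
      · have hx' : ∃ g' : GalQ, g' • m = g • x := by
          obtain ⟨g', rfl⟩ := hx
          exact ⟨g * g', mul_smul _ _ _⟩
        rw [if_pos hx, if_pos hx', smul_one]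
      · have hx' : ¬ ∃ g' : GalQ, g' • m = g • x := by
          rintro ⟨g', hg'⟩
          exact hx ⟨g⁻¹ * g', by rw [mul_smul, hg', inv_smul_smul]⟩
        rw [if_neg hx, if_neg hx', smul_zero]
    · dsimp only
      rw [if_pos ⟨1, one_smul _ _⟩, if_neg horb]
      exact one_ne_zero

end Fermat.Agent.FFM
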