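import Fermat.Agent.FFM.XZero
import Fermat.Agent.FFM.Sep
import Fermat.Agent.RepTwo.Geometry

/-!
# Finite Galois submodules of `J₀(N)` are flat at `ℓ ∤ N`
-/

set_option autoImplicit false
set_option linter.unusedSectionVars false
set_option linter.style.haveILetI false

open AlgebraicCurve ModularCurve

noncomputable section

namespace Fermat.Agent.FFM

local notation "Qb" => AlgebraicClosure ℚ
local notation "GalQ" => (AlgebraicClosure ℚ ≃ₐ[ℚ] AlgebraicClosure ℚ)

theorem smooth_jZero (N : ℕ) [NeZero N] (x : JZero N) :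
    ∃ E : IntermediateField ℚ Qb, FiniteDimensional ℚ E ∧
      ∀ σ : GalQ, (∀ y ∈ E, σ y = y) → σ • x = x := by
  haveI := RepTwo.hasPrincipalDivisors_bar N
  exact JZ.exists_level_pic0_of_hasPrincipalDivisors (F₀ := modularFunctionFieldFull N) x

/-- **finite Galois submodules of `J₀(N)` are flat at `ℓ ∤ N`.** -/
theorem isFlat_jZero {N : ℕ} [NeZero N] {ℓ : ℕ} [hℓ : Fact ℓ.Prime] (hN : ¬ ℓ ∣ N)
    {M : Type*} [AddCommGroup M] [Finite M] [DistribMulAction GalQ M]
    (i : M →+ JZero N) (hi : Function.Injective i) (hsmul : ∀ (g : GalQ) m, i (g • m) = g • i m) :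
    Flat.IsFlat (GaloisRep.ratLocalizedAt ℓ) (Ω := Qb) (DistribMulAction.toAddMonoidEnd GalQ M) := by
  haveI : Fintype M := Fintype.ofFinite M
  obtain ⟨A, hA⟩ := Frob.exists_liesOverPrime Qb hℓ.out
  obtain ⟨σ, hσ⟩ := Frob.exists_isFrobeniusAt A hℓ.out hA
  let π := IsLocalRing.residue A
  have hs : Function.Surjective π := IsLocalRing.residue_surjective
  have hπ : ∀ a : A, π a = 0 ↔ ¬ IsUnit a := fun a => by
    rw [IsLocalRing.residue_eq_zero_iff, IsLocalRing.mem_maximalIdeal]
    rfl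
  haveI := Red.isAlgClosed_of_surjective hs
  haveI := Red.charP_of_liesOverPrime hA hπ
  haveI := Red.isFnField_bar N
  haveI := Red.isFnField_fullC (k := IsLocalRing.ResidueField A) N ℓ hN
  obtain ⟨g, hg⟩ := exists_compat_frob hA hπ hs hN hσ
  exact isFlat_main (ρ := galX N) (geo_X hA hπ hs hN) (fun g a => rfl)
    (infPlace (qset_redX N hA hπ hs hN).order_x)
    (fun g => smul_inf_X hA hπ hs hN (g : GalQ)) hg (descData hA hσ) i hi hsmul
    (sepFun_of_smooth fun m => by
      obtain ⟨E, hE, h⟩ := smooth_jZero N (i m)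
      exact ⟨E, hE, fun σ hσ => hi (by rw [hsmul, h σ hσ])⟩)

end Fermat.Agent.FFM
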