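import Fermat.Agent.FFM.Order

/-!
# Newton's method in function orders
-/

set_option autoImplicit false
set_option linter.unusedSectionVars false

open Polynomial

namespace Fermat.Agent.FFM

variable {K : Type*} [Field K] {Γ : Type*} [Group Γ] [MulSemiringAction Γ K]
  {A : ValuationSubring K} {X : Type*} [MulAction Γ X]

/-- `a` divides `c` with respect to `A`. -/
def DvdA (A : ValuationSubring K) (a c : K) : Prop := ∃ d ∈ A, c = a * d

theorem DvdA.add {a b c : K} (h : DvdA A a b) (h' : DvdA A a c) : DvdA A a (b + c) := by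
  obtain ⟨d, hd, rfl⟩ := h
  obtain ⟨e, he, rfl⟩ := h'
  exact ⟨d + e, add_mem hd he, by ring⟩

theorem DvdA.neg {a b : K} (h : DvdA A a b) : DvdA A a (-b) := by
  obtain ⟨d, hd, rfl⟩ := h
  exact ⟨-d, neg_mem hd, by ring⟩

theorem DvdA.sub {a b c : K} (h : DvdA A a b) (h' : DvdA A a c) : DvdA A a (b - c) := by
  rw [sub_eq_add_neg]; exact h.add h'.neg

theorem DvdA.mul_left {a b c : K} (h : DvdA A a b) (hc : c ∈ A) : DvdA A a (c * b) := by
  obtain ⟨d, hd, rfl⟩ := h
  exact ⟨c * d, mul_mem hc hd, by ring⟩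

theorem DvdA.mul_right {a b c : K} (h : DvdA A a b) (hc : c ∈ A) : DvdA A a (b * c) := by
  rw [mul_comm]; exact h.mul_left hc

theorem DvdA.mul {a b c d : K} (h : DvdA A a b) (h' : DvdA A c d) : DvdA A (a * c) (b * d) := by
  obtain ⟨e, he, rfl⟩ := h
  obtain ⟨f, hf, rfl⟩ := h'
  exact ⟨e * f, mul_mem he hf, by ring⟩

theorem DvdA.pow {a b : K} (h : DvdA A a b) (n : ℕ) : DvdA A (a ^ n) (b ^ n) := by
  induction n with
  | zero => exact ⟨1, A.one_mem, by simp⟩
  | succ n ih => rw [pow_succ, pow_succ]; exact ih.mul h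

theorem DvdA.trans {a b c : K} (h : DvdA A a b) (h' : DvdA A b c) : DvdA A a c := by
  obtain ⟨e, he, rfl⟩ := h
  obtain ⟨f, hf, rfl⟩ := h'
  exact ⟨e * f, mul_mem he hf, by ring⟩

theorem DvdA.zero {a : K} : DvdA A a 0 := ⟨0, A.zero_mem, by simp⟩

theorem DvdA.refl {a : K} : DvdA A a a := ⟨1, A.one_mem, by simp⟩

theorem dvdA_pow_of_le {a : K} (ha : a ∈ A) {m n : ℕ} (h : m ≤ n) : DvdA A (a ^ m) (a ^ n) :=
  ⟨a ^ (n - m), pow_mem ha _, by rw [← pow_add, Nat.add_sub_cancel' h]⟩

theorem DvdA.mem {a c : K} (h : DvdA A a c) (ha : a ∈ A) : c ∈ A := by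
  obtain ⟨d, hd, rfl⟩ := h
  exact mul_mem ha hd

theorem DvdA.sum {ι : Type*} {a : K} {s : Finset ι} {f : ι → K} (h : ∀ i ∈ s, DvdA A a (f i)) :
    DvdA A a (∑ i ∈ s, f i) := by
  classical
  induction s using Finset.induction_on with
  | empty => simpa using DvdA.zero
  | insert i s hi ih =>
    rw [Finset.sum_insert hi]
    exact (h i (Finset.mem_insert_self i s)).add
      (ih fun j hj => h j (Finset.mem_insert_of_mem hj))

/-- A finite family of small elements has a small common divisor. -/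
theorem exists_small_dvd {ι : Type*} (s : Finset ι) (f : ι → K) (h : ∀ i ∈ s, f i ∈ A.nonunits) :
    ∃ a ∈ A.nonunits, ∀ i ∈ s, DvdA A a (f i) := by
  classical
  induction s using Finset.induction_on with
  | empty => exact ⟨0, by rw [ValuationSubring.mem_nonunits_iff]; simp, by simp⟩
  | insert i s hi ih =>
    obtain ⟨a, ha, hs⟩ := ih fun j hj => h j (Finset.mem_insert_of_mem hj)
    have hfi := h i (Finset.mem_insert_self i s)
    rcases le_total (A.valuation (f i)) (A.valuation a) with hle | hle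
    · refine ⟨a, ha, fun j hj => ?_⟩
      rcases Finset.mem_insert.mp hj with rfl | hj
      · rcases eq_or_ne a 0 with rfl | ha0
        · rw [map_zero, le_zero_iff, Valuation.zero_iff] at hle
          rw [hle]; exact DvdA.zero
        · refine ⟨f j / a, ?_, by field_simp⟩
          rw [← ValuationSubring.valuation_le_one_iff, map_div₀]
          exact div_le_one_of_le₀ hle zero_le
      · exact hs j hj
    · refine ⟨f i, hfi, fun j hj => ?_⟩
      rcases Finset.mem_insert.mp hj with rfl | hj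
      · exact DvdA.refl
      · have h1 : DvdA A (f i) a := by
          rcases eq_or_ne (f i) 0 with h0 | h0
          · rw [h0, map_zero, le_zero_iff, Valuation.zero_iff] at hle
            rw [hle]; exact DvdA.zero
          · refine ⟨a / f i, ?_, by field_simp⟩
            rw [← ValuationSubring.valuation_le_one_iff, map_div₀]
            exact div_le_one_of_le₀ hle zero_le
        exact h1.trans (hs j hj)

theorem mem_of_mem_nonunits {a : K} (h : a ∈ A.nonunits) : a ∈ A := by
  rw [ValuationSubring.mem_nonunits_iff] at h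
  rw [← ValuationSubring.valuation_le_one_iff]
  exact h.le

theorem DvdA.mem_nonunits {a b : K} (h : DvdA A a b) (ha : a ∈ A.nonunits) : b ∈ A.nonunits := by
  obtain ⟨d, hd, rfl⟩ := h
  rw [ValuationSubring.mem_nonunits_iff] at ha ⊢
  rw [← ValuationSubring.valuation_le_one_iff] at hd
  rw [map_mul]
  exact mul_lt_one_of_lt_of_le ha hd

/-- difference of powers -/
theorem dvdA_pow_sub_pow {a c s y : K} (ha : a ∈ A) (hs : DvdA A a s) (hy : DvdA A a y)
    (h : DvdA A c (s - y)) (l : ℕ) : DvdA A (a * c) (s ^ (l + 2) - y ^ (l + 2)) := by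
  rw [← (Commute.all s y).geom_sum₂_mul (l + 2)]
  refine DvdA.mul ?_ h
  refine DvdA.sum fun i hi => ?_
  rw [Finset.mem_range] at hi
  rcases Nat.eq_zero_or_pos i with rfl | hi0
  · rw [pow_zero, one_mul]
    have h1 : l + 2 - 1 - 0 = l + 1 := by omega
    rw [h1, pow_succ']
    exact hy.mul_right (pow_mem (hy.mem ha) _)
  · obtain ⟨j, rfl⟩ : ∃ j, i = j + 1 := Nat.exists_eq_succ_of_ne_zero hi0.ne'
    rw [pow_succ', mul_assoc]
    exact hs.mul_right (mul_mem (pow_mem (hs.mem ha) _) (pow_mem (hy.mem ha) _))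

/-- the rank one condition -/
def RankOne (A : ValuationSubring K) : Prop :=
  ∀ a ∈ A.nonunits, ∀ D ∈ A, D ≠ 0 → ∃ n : ℕ, DvdA A D (a ^ n)

variable [Fintype X] {T : Subring (X → K)}

theorem FunOrder.mem_of_dvd (hT : FunOrder Γ A T) (hr : RankOne A) {a : K}
    (ha : a ∈ A.nonunits) : ∃ n : ℕ, ∀ φ : X → K, IsEquiv Γ φ → (∀ x, DvdA A (a ^ n) (φ x)) →
      φ ∈ T := by
  obtain ⟨D, hD, hD0, hfull⟩ := hT.full
  obtain ⟨n, hn⟩ := hr a ha D hD.1 hD0
  refine ⟨n, fun φ he hφ => ?_⟩
  have h1 : ∀ x, DvdA A D (φ x) := fun x => hn.trans (hφ x)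
  have h2 := hfull (fun x => φ x / D) (fun x => by
    obtain ⟨d, hd, h⟩ := h1 x
    rw [h, mul_div_cancel_left₀ _ hD0]
    exact hd) (fun γ x => by
    change φ (γ • x) / D = γ • (φ x / D)
    rw [he γ x, div_eq_mul_inv, div_eq_mul_inv, smul_mul', smul_inv'', hD.2])
  have h3 : (fun x => D * (φ x / D)) = φ := by
    funext x
    field_simp
  rwa [h3] at h2

/-- approximable functions lie in the order. -/
theorem FunOrder.mem_of_approx (hT : FunOrder Γ A T) (hr : RankOne A) {φ : X → K}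
    (he : IsEquiv Γ φ) {a : K} (ha : a ∈ A.nonunits)
    (h : ∀ n : ℕ, ∃ ψ ∈ T, ∀ x, DvdA A (a ^ n) (φ x - ψ x)) : φ ∈ T := by
  obtain ⟨n, hn⟩ := hT.mem_of_dvd hr ha
  obtain ⟨ψ, hψ, hd⟩ := h n
  have h1 := hn (φ - ψ) (he.sub (hT.equiv ψ hψ)) hd
  have h2 : φ = (φ - ψ) + ψ := by ring
  rw [h2]
  exact add_mem h1 hψ

/-- **Newton's lemma**: a root of an equation with coefficients in `T` lies in `T`. -/
theorem FunOrder.newton (hT : FunOrder Γ A T) (hr : RankOne A) {s : X → K}
    (hs : IsEquiv Γ s) (hs0 : ∀ x, s x ∈ A.nonunits) (b : ℕ → X → K) (hb : ∀ l, b l ∈ T)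
    (hb0 : ∀ x, b 0 x ∈ A.nonunits) (hb1 : ∀ x, b 1 x ≠ 0) (hb1' : ∀ x, (b 1 x)⁻¹ ∈ A)
    (heq : ∀ n, ∃ r : X → K, (∀ x, r x ∈ A) ∧
      ∀ x, ∑ l ∈ Finset.range n, b l x * s x ^ l + s x ^ n * r x = 0) : s ∈ T := by
  classical
  obtain ⟨a, ha, had⟩ := exists_small_dvd (A := A) (Finset.univ : Finset (Bool × X))
    (fun p => if p.1 then s p.2 else b 0 p.2) (by
      rintro ⟨c, x⟩ -
      cases c
      · exact hb0 x
      · exact hs0 x)
  have has : ∀ x, DvdA A a (s x) := fun x => by simpa using had (true, x) (Finset.mem_univ _)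
  have hab : ∀ x, DvdA A a (b 0 x) := fun x => by simpa using had (false, x) (Finset.mem_univ _)
  have haA := mem_of_mem_nonunits ha
  have hinv : (fun x => (b 1 x)⁻¹) ∈ T := hT.inv_mem (hb 1) hb1 hb1'
  refine hT.mem_of_approx hr hs ha fun n => ?_
  obtain ⟨r, hrA, hr0⟩ := heq (n + 2)
  -- the iteration
  let step : (X → K) → (X → K) := fun y =>
    -(fun x => (b 1 x)⁻¹) * (b 0 + ∑ l ∈ Finset.range n, b (l + 2) * y ^ (l + 2))
  have hstep : ∀ y ∈ T, step y ∈ T := fun y hy =>
    mul_mem (neg_mem hinv) (add_mem (hb 0) (sum_mem fun l _ => mul_mem (hb _) (pow_mem hy _)))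
  have hstepx : ∀ (y : X → K) (x : X), step y x =
      -(b 1 x)⁻¹ * (b 0 x + ∑ l ∈ Finset.range n, b (l + 2) x * y x ^ (l + 2)) := by
    intro y x
    simp only [step, Pi.mul_apply, Pi.neg_apply, Pi.add_apply, Finset.sum_apply, Pi.pow_apply]
  have hsx : ∀ x, s x = -(b 1 x)⁻¹ * (b 0 x + ∑ l ∈ Finset.range n, b (l + 2) x * s x ^ (l + 2)
      + s x ^ (n + 2) * r x) := by
    intro x
    have h1 := hr0 x
    rw [Finset.sum_range_succ', Finset.sum_range_succ'] at h1
    have h2 := hb1 x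
    field_simp
    simp only [pow_zero, mul_one, zero_add, pow_one] at h1
    linear_combination h1
  have key : ∀ k : ℕ, ∃ y ∈ T, (∀ x, DvdA A a (y x)) ∧
      ∀ x, DvdA A (a ^ (min (k + 1) (n + 1))) (s x - y x) := by
    intro k
    induction k with
    | zero =>
      refine ⟨0, zero_mem _, fun x => DvdA.zero, fun x => ?_⟩
      simp only [zero_add, Pi.zero_apply, sub_zero]
      rw [min_eq_left (by omega), pow_one]
      exact has x
    | succ k ih =>
      obtain ⟨y, hy, hya, hys⟩ := ih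
      refine ⟨step y, hstep y hy, fun x => ?_, fun x => ?_⟩
      · rw [hstepx]
        refine DvdA.mul_left (DvdA.add (hab x) (DvdA.sum fun l _ => ?_)) (neg_mem (hb1' x))
        refine DvdA.mul_left ?_ (hT.mem_A _ (hb _) x)
        rw [pow_succ]
        exact (hya x).mul_left (pow_mem ((hya x).mem haA) _)
      · have h1 : s x - step y x = -(b 1 x)⁻¹ * (∑ l ∈ Finset.range n,
            b (l + 2) x * (s x ^ (l + 2) - y x ^ (l + 2)) + s x ^ (n + 2) * r x) := by
          rw [hstepx]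
          conv_lhs => rw [hsx x]
          simp only [mul_sub, Finset.sum_sub_distrib]
          ring
        rw [h1]
        refine DvdA.mul_left (DvdA.add (DvdA.sum fun l _ => ?_) ?_) (neg_mem (hb1' x))
        · refine DvdA.mul_left ?_ (hT.mem_A _ (hb _) x)
          refine DvdA.trans ?_ (dvdA_pow_sub_pow haA (has x) (hya x) (hys x) l)
          rw [← pow_succ']
          exact dvdA_pow_of_le haA (by omega)
        · refine DvdA.mul_right ?_ (hrA x)
          refine DvdA.trans ?_ ((has x).pow (n + 2))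
          exact dvdA_pow_of_le haA (by omega)
  obtain ⟨y, hy, -, h⟩ := key n
  refine ⟨y, hy, fun x => ?_⟩
  refine DvdA.trans ?_ (h x)
  exact dvdA_pow_of_le haA (by omega)

end Fermat.Agent.FFM
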