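import Fermat.Agent.Red.Gauss
import Fermat.Agent.FFM.Newton

/-!
# Laurent series with coefficients in a rank one valuation ring are completely integrally closed
-/

set_option autoImplicit false
set_option linter.unusedSectionVars false
set_option linter.style.haveILetI false

open ModularCurve Fermat.Agent.Red
open scoped nonZeroDivisors

noncomputable section

namespace Fermat.Agent.FFM

variable {K k : Type*} [Field K] [Field k] {A : ValuationSubring K} {π : A →+* k}

/-- a Laurent series with coefficients in `A` comes from `A((q))`. -/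
theorem exists_iota_of_coeff {f : LaurentSeries K} (h : ∀ n, f.coeff n ∈ A) :
    ∃ y : LaurentSeries A, iotaA A y = f := by
  refine ⟨⟨fun n => ⟨f.coeff n, h n⟩, ?_⟩, ?_⟩
  · convert f.isPWO_support using 1
    ext n
    simp only [Function.mem_support, HahnSeries.mem_support, ne_eq]
    rw [not_iff_not]
    exact ⟨fun h => congrArg Subtype.val h, fun h => Subtype.ext h⟩
  · ext n
    rw [coeffMap_coeff]
    rfl

theorem coeff_iota_mem (y : LaurentSeries A) (n : ℤ) : (iotaA A y).coeff n ∈ A := by
  rw [coeffMap_coeff]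
  exact Subtype.property _

/-- **complete integral closedness** -/
theorem coeff_mem_of_almost (hr : RankOne A) {f : LaurentSeries K} {r : LaurentSeries A}
    (hr0 : r ≠ 0) (h : ∀ n : ℕ, ∀ i, (iotaA A r * f ^ n).coeff i ∈ A) (i : ℤ) :
    f.coeff i ∈ A := by
  classical
  by_contra hi
  have hf0 : f ≠ 0 := by
    rintro rfl
    exact hi (by rw [HahnSeries.coeff_zero]; exact A.zero_mem)
  obtain ⟨n0, hn0, hmin⟩ := Int.exists_least_of_bdd (P := fun n => f.coeff n ∉ A)
    ⟨f.order, fun n hn => by
      by_contra hlt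
      apply hn
      rw [HahnSeries.coeff_eq_zero_of_lt_order (not_le.mp hlt)]
      exact A.zero_mem⟩ ⟨i, hi⟩
  -- the lower part
  obtain ⟨y0, hy0⟩ := exists_iota_of_coeff (A := A)
    (f := (⟨fun n => if n < n0 then f.coeff n else 0, by
      apply f.isPWO_support.mono
      intro n hn
      rw [Function.mem_support] at hn
      rw [HahnSeries.mem_support]
      intro h0
      apply hn
      rw [h0, ite_self]⟩ : LaurentSeries K)) (fun n => by
        change (if n < n0 then f.coeff n else 0) ∈ A
        split_ifs with hlt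
        · by_contra hcon
          exact absurd (hmin n hcon) (not_le.mpr hlt)
        · exact A.zero_mem)
  set f1 := f - iotaA A y0 with hf1
  have hf1c : ∀ n, f1.coeff n = if n < n0 then 0 else f.coeff n := by
    intro n
    rw [hf1, HahnSeries.coeff_sub, hy0]
    change f.coeff n - (if n < n0 then f.coeff n else 0) = _
    split_ifs <;> ring
  have hf10 : f1.coeff n0 = f.coeff n0 := by rw [hf1c, if_neg (lt_irrefl _)]
  set a := f.coeff n0 with ha
  have ha0 : a ≠ 0 := by
    intro h0
    exact hn0 (by rw [h0]; exact A.zero_mem)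
  have hf1ne : f1 ≠ 0 := by
    intro h0
    rw [h0, HahnSeries.coeff_zero] at hf10
    exact ha0 hf10.symm
  have hord : f1.order = n0 := by
    apply le_antisymm
    · apply HahnSeries.order_le_of_coeff_ne_zero
      rw [hf10]
      exact ha0
    · by_contra hlt
      have h1 : f1.coeff f1.order ≠ 0 := fun h => hf1ne (HahnSeries.coeff_order_eq_zero.mp h)
      rw [hf1c, if_pos (not_le.mp hlt)] at h1
      exact h1 rfl
  have hlead : f1.leadingCoeff = a := by
    rw [HahnSeries.leadingCoeff_eq, hord, hf10]
  -- all coefficients of `r * f1 ^ n` are integral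
  have h1 : ∀ n : ℕ, ∀ i, (iotaA A r * f1 ^ n).coeff i ∈ A := by
    intro n i
    have h2 : iotaA A r * f1 ^ n = ∑ m ∈ Finset.range (n + 1),
        (iotaA A r * f ^ m) * iotaA A ((-y0) ^ (n - m) * (n.choose m)) := by
      rw [hf1, sub_eq_add_neg, add_pow, Finset.mul_sum]
      refine Finset.sum_congr rfl fun m _ => ?_
      rw [map_mul, map_pow, map_neg, map_natCast]
      ring
    obtain ⟨z, hz⟩ : ∃ z : LaurentSeries A, iotaA A z = iotaA A r * f1 ^ n := by
      rw [h2]
      have h3 : ∀ m ∈ Finset.range (n + 1), ∃ z : LaurentSeries A,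
          iotaA A z = (iotaA A r * f ^ m) * iotaA A ((-y0) ^ (n - m) * (n.choose m)) := by
        intro m _
        obtain ⟨w, hw⟩ := exists_iota_of_coeff (h m)
        exact ⟨w * ((-y0) ^ (n - m) * (n.choose m)), by rw [map_mul, hw]⟩
      choose! z hz using h3
      exact ⟨∑ m ∈ Finset.range (n + 1), z m, by
        rw [map_sum]
        exact Finset.sum_congr rfl fun m hm => hz m hm⟩
    rw [← hz]
    exact coeff_iota_mem z i
  have hr0' : iotaA A r ≠ 0 := fun h => hr0 (iotaA_injective (by rw [h, map_zero]))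
  set c := (iotaA A r).leadingCoeff with hc
  have hc0 : c ≠ 0 := HahnSeries.leadingCoeff_ne_zero.mpr hr0'
  have hcA : c ∈ A := by
    rw [hc, HahnSeries.leadingCoeff_eq]
    exact coeff_iota_mem r _
  have h2 : ∀ n : ℕ, c * a ^ n ∈ A := by
    intro n
    have h3 := h1 n (iotaA A r * f1 ^ n).order
    rw [← HahnSeries.leadingCoeff_eq, HahnSeries.leadingCoeff_mul] at h3
    have h4 : (f1 ^ n).leadingCoeff = a ^ n := by
      clear h3
      induction n with
      | zero => rw [pow_zero, pow_zero, HahnSeries.leadingCoeff_one]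
      | succ n ih => rw [pow_succ, HahnSeries.leadingCoeff_mul, ih, hlead, pow_succ]
    rwa [h4] at h3
  have hainv : a⁻¹ ∈ A.nonunits := by
    have h5 : a⁻¹ ∈ A := (A.mem_or_inv_mem a).resolve_left hn0
    rw [ValuationSubring.mem_nonunits_iff_exists_mem_maximalIdeal]
    refine ⟨h5, (IsLocalRing.mem_maximalIdeal _).mpr fun hu => hn0 ?_⟩
    obtain ⟨b, hb⟩ := hu.exists_right_inv
    have hb' : a⁻¹ * (b : K) = 1 := congrArg Subtype.val hb
    have : (b : K) = a := by field_simp at hb'; exact hb'
    exact this ▸ b.2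
  obtain ⟨n, d, hd, hn⟩ := hr _ hainv c hcA hc0
  apply hn0
  have h6 : a = c * a ^ (n + 1) * d := by
    have h7 : a ^ (n + 1) * (a⁻¹) ^ n = a := by
      rw [pow_succ', mul_assoc, ← mul_pow, mul_inv_cancel₀ ha0, one_pow, mul_one]
    rw [hn] at h7
    exact h7.symm.trans (by ring)
  rw [h6]
  exact mul_mem (h2 _) hd

theorem exists_iota_of_almost (hr : RankOne A) {f : LaurentSeries K} {r : LaurentSeries A}
    (hr0 : r ≠ 0) (h : ∀ n : ℕ, ∃ y, iotaA A y = iotaA A r * f ^ n) :
    ∃ y : LaurentSeries A, iotaA A y = f :=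
  exists_iota_of_coeff (coeff_mem_of_almost hr hr0 fun n i => by
    obtain ⟨y, hy⟩ := h n
    rw [← hy]
    exact coeff_iota_mem y i)

/-- integral elements of `K((q))` over `A((q))` which are integral for the Gauss valuation have
integral coefficients. -/
theorem exists_iota_of_gRed (hr : RankOne A) {f : LaurentSeries K} {z : LaurentSeries k}
    (h : GRed π f z) (hf : (iotaA A).IsIntegralElem f) :
    ∃ y : LaurentSeries A, iotaA A y = f ∧ rhoA π y = z := by
  obtain ⟨a, b, hb, h1, h2⟩ := h
  have hb0 : b ≠ 0 := by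
    rintro rfl
    exact hb (map_zero _)
  letI : Algebra (LaurentSeries A) (LaurentSeries K) := (iotaA A).toAlgebra
  have hint : IsIntegral (LaurentSeries A) f := hf
  obtain ⟨r, hr0, hr'⟩ := hint.isAlmostIntegral_of_exists_smul_mem_range
    ⟨b, mem_nonZeroDivisors_of_ne_zero hb0, a, by
      rw [Algebra.smul_def, mul_comm]
      exact h1.symm⟩
  obtain ⟨y, hy⟩ := exists_iota_of_almost hr (nonZeroDivisors.ne_zero hr0) (f := f) fun n => by
    obtain ⟨w, hw⟩ := hr' n
    exact ⟨w, hw.trans (Algebra.smul_def _ _)⟩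
  refine ⟨y, hy, ?_⟩
  have h3 : y * b = a := by
    apply iotaA_injective (A := A)
    rw [map_mul, hy, h1]
  rw [← h3, map_mul] at h2
  exact (mul_right_cancel₀ hb h2).symm

end Fermat.Agent.FFM
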