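import Fermat.Agent.FFM.Stable
import Fermat.Agent.FFM.Descent

/-!
# Flatness of finite groups of divisor classes: abstract assembly
-/

set_option autoImplicit false
set_option linter.unusedSectionVars false
set_option linter.style.haveILetI false

open AlgebraicCurve Fermat.Agent.FF Fermat.Agent.RR Fermat.Agent.Red

namespace Fermat.Agent.FFM

section Full

variable {K k : Type*} [Field K] [Field k] [IsAlgClosed K] [IsAlgClosed k] [CharZero K]
  {A : ValuationSubring K} {π : A →+* k}
  {F Fk : Type*} [Field F] [Algebra K F] [Field Fk] [Algebra k Fk] [IsFnField K F]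
  [IsFnField k Fk] {R : ConstRed A π F Fk}
  {Γ : Type*} [Group Γ] [MulSemiringAction Γ K]
  {S : Spec R} {ρ : Γ →* SemilinearAut K F} (G : Geo S ρ)
  {M : Type*} [AddCommGroup M] [Fintype M] [MulAction Γ M] {rep : M → Divisor K F}
  (hR : Rep ρ rep) (inf : Place K F) (hinf : ∀ g, ρ g • inf = inf)

theorem funOrder_theOrder : FunOrder Γ A (theOrder G hR inf hinf) := by
  classical
  refine ⟨fun φ h m => theOrder_mem_A G hR inf hinf h m, fun φ h => theOrder_equiv G hR inf hinf h,
    fun a ha => theOrder_const G hR inf hinf ha, ?_⟩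
  have h1 := fun c : Pic k Fk => by
    letI := fibAction (Γ := Γ) G hR c
    exact (funOrder_fib G hR inf hinf c).full
  choose D hD hD0 hfull using h1
  let I : Finset (Pic k Fk) := Finset.univ.image (redCl S rep)
  have hprod : ∀ J : Finset (Pic k Fk), IsInv Γ A (∏ c ∈ J, D c) := by
    intro J
    induction J using Finset.induction_on with
    | empty => rw [Finset.prod_empty]; exact IsInv.one
    | insert c J hc ih => rw [Finset.prod_insert hc]; exact (hD c).mul ih
  refine ⟨∏ c ∈ I, D c, hprod I, Finset.prod_ne_zero_iff.mpr fun c _ => hD0 c,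
    fun φ hφ he c => ?_⟩
  letI := fibAction (Γ := Γ) G hR c
  rcases isEmpty_or_nonempty (Fib S rep c) with hX | ⟨⟨m₀⟩⟩
  · convert (fibOrder G hR inf hinf c).zero_mem using 1
  have hcI : c ∈ I := by
    rw [← m₀.2]
    exact Finset.mem_image_of_mem _ (Finset.mem_univ _)
  have h2 : (fun m : Fib S rep c => (∏ c ∈ I, D c) * φ m.1) =
      (fun _ => ∏ c ∈ I.erase c, D c) * (fun m : Fib S rep c => D c * φ m.1) := by
    funext m
    rw [Pi.mul_apply, ← Finset.mul_prod_erase I D hcI]
    ring
  rw [h2]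
  exact mul_mem (const_mem_genOrder _ (hprod _))
    (hfull c (fun m => φ m.1) (fun m => hφ m.1) (fun g m => he g m.1))

end Full

section Rep

variable {K F : Type*} [Field K] [Field F] [Algebra K F]

/-- a representing divisor of a class. -/
noncomputable def repOf (x : Pic0 K F) : Divisor K F :=
  ((Pic0.mk_surjective x).choose : Divisor K F)

theorem repOf_spec (x : Pic0 K F) : ∃ D : Divisor.degZero (K := K) (F := F),
    (D : Divisor K F) = repOf x ∧ Pic0.mk D = x :=
  ⟨_, rfl, (Pic0.mk_surjective x).choose_spec⟩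

theorem mk_eq_mk_iff {D E : Divisor.degZero (K := K) (F := F)} :
    Pic0.mk D = Pic0.mk E ↔ LinEq (D : Divisor K F) (E : Divisor K F) := by
  unfold Pic0.mk LinEq
  rw [QuotientAddGroup.eq, AddSubgroup.mem_addSubgroupOf, ← neg_mem_iff]
  have : -((-D + E : Divisor.degZero (K := K) (F := F)) : Divisor K F) =
      (D : Divisor K F) - (E : Divisor K F) := by
    push_cast
    abel
  rw [this]

theorem rep_repOf {Γ : Type*} [Group Γ] (ρ : Γ →* SemilinearAut K F) {M : Type*} [AddCommGroup M]
    [MulAction Γ M] (i : M →+ Pic0 K F) (hi : Function.Injective i)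
    (hsmul : ∀ (g : Γ) m, i (g • m) = ρ g • i m) :
    Rep ρ (fun m => repOf (i m)) := by
  refine ⟨fun m => ?_, fun m m' => ?_, fun g m => ?_, fun m m' h => ?_⟩
  · obtain ⟨D, hD, -⟩ := repOf_spec (i m)
    rw [← hD]
    exact D.2
  · obtain ⟨D, hD, h1⟩ := repOf_spec (i m)
    obtain ⟨E, hE, h2⟩ := repOf_spec (i m')
    obtain ⟨E', hE', h3⟩ := repOf_spec (i (m + m'))
    have h4 : Pic0.mk (D + E) = Pic0.mk E' := by rw [Pic0.mk_add, h1, h2, h3, map_add]
    rw [mk_eq_mk_iff] at h4
    rw [← hD, ← hE, ← hE']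
    exact h4
  · obtain ⟨D, hD, h1⟩ := repOf_spec (i m)
    obtain ⟨E, hE, h2⟩ := repOf_spec (i (g • m))
    have h4 : Pic0.mk E = Pic0.mk (SemilinearAut.degZeroSMulHom (ρ g) D) := by
      rw [← SemilinearAut.pic0_smul_mk, h1, h2, hsmul]
    rw [mk_eq_mk_iff] at h4
    rw [← hD, ← hE]
    exact h4
  · obtain ⟨D, hD, h1⟩ := repOf_spec (i m)
    obtain ⟨E, hE, h2⟩ := repOf_spec (i m')
    apply hi
    rw [← h1, ← h2, mk_eq_mk_iff, hD, hE]
    exact h

end Rep

section Main

variable {K k : Type*} [Field K] [Field k] [IsAlgClosed K] [IsAlgClosed k] [CharZero K]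
  {A : ValuationSubring K} {π : A →+* k}
  {F Fk : Type*} [Field F] [Algebra K F] [Field Fk] [Algebra k Fk] [IsFnField K F]
  [IsFnField k Fk] {R : ConstRed A π F Fk}
  {G : Type*} [Group G] [MulSemiringAction G K] {Γ : Subgroup G}
  {S : Spec R} {ρ : G →* SemilinearAut K F}
  {Z : Type*} [CommRing Z] [IsDomain Z] [IsPrincipalIdealRing Z] [Algebra Z K]
  [Flat.Setup Z K G] {ℓ : ℕ} {σ : G} {τ : SemilinearAut k Fk} {c : Γ ≃ Γ}

/-- **Main theorem**: finite groups of divisor classes on a curve with good reduction are flat. -/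
theorem isFlat_main (hG : Geo S (ρ.comp Γ.subtype))
    (hbase : ∀ (g : G) (a : K), SemilinearAut.baseAut (ρ g) a = g • a)
    (inf : Place K F) (hinf : ∀ g : Γ, ρ g • inf = inf)
    (hσ : Compat S (ρ.comp Γ.subtype) (ρ σ) τ c) (hD : DescData Z Γ A ℓ σ)
    {M : Type*} [AddCommGroup M] [Fintype M] [DistribMulAction G M]
    (i : M →+ Pic0 K F) (hi : Function.Injective i) (hsmul : ∀ (g : G) m, i (g • m) = ρ g • i m)
    (hsep : SepFun G K M) :
    Flat.IsFlat Z (Ω := K) (DistribMulAction.toAddMonoidEnd G M) := by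
  have hR : Rep (ρ.comp Γ.subtype) (fun m => repOf (i m)) :=
    rep_repOf (ρ.comp Γ.subtype) i hi (fun g m => hsmul g m)
  have hRG : Rep ρ (fun m => repOf (i m)) := rep_repOf ρ i hi hsmul
  have hH := funOrder_theOrder hG hR inf hinf
  refine ⟨descOrder Z (theOrder hG hR inf hinf) hH hD.le, isOrder_descOrder hD hH hsep ?_ ?_⟩
  · intro φ hφ
    have h1 := theOrder_stable hG hσ hR inf hinf (MulAction.toPerm σ : Equiv.Perm M)
      (fun m => hRG.smul σ m) hφ
    have h2 : (fun m => SemilinearAut.baseAut (ρ σ) (φ ((MulAction.toPerm σ : Equiv.Perm M).symm m)))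
        = fun m => σ • φ (σ⁻¹ • m) := by
      funext m
      rw [hbase]
      rfl
    rwa [h2] at h1
  · intro φ hφ
    exact add_mem_theOrder hG hR inf hinf hφ

end Main

end Fermat.Agent.FFM
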