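import Mathlib

/-!
# Orders in algebras of equivariant functions

`K` is a field with an action of a group `Γ`, `A` a valuation ring of `K`, `X` a finite `Γ`-set.
A *function order* is a ring `T` of equivariant `A`-valued functions on `X` which contains the
constants and is of finite index.
-/

set_option autoImplicit false
set_option linter.unusedSectionVars false

open Polynomial

namespace Fermat.Agent.FFM

variable {K : Type*} [Field K] {Γ : Type*} [Group Γ] [MulSemiringAction Γ K]
  (A : ValuationSubring K) {X : Type*} [MulAction Γ X]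

variable (Γ) in
/-- equivariant functions -/
def IsEquiv (φ : X → K) : Prop := ∀ (γ : Γ) (x : X), φ (γ • x) = γ • φ x

variable (Γ) in
/-- the ring of `Γ`-invariant elements of `A`. -/
def IsInv (a : K) : Prop := a ∈ A ∧ ∀ γ : Γ, γ • a = a

variable (Γ) in
/-- Function orders. -/
structure FunOrder (T : Subring (X → K)) : Prop where
  mem_A : ∀ φ ∈ T, ∀ x, φ x ∈ A
  equiv : ∀ φ ∈ T, IsEquiv Γ φ
  const : ∀ a, IsInv Γ A a → (fun _ => a) ∈ T
  full : ∃ D, IsInv Γ A D ∧ D ≠ 0 ∧ ∀ φ : X → K, (∀ x, φ x ∈ A) → IsEquiv Γ φ →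
    (fun x => D * φ x) ∈ T

variable {A}

theorem IsInv.one : IsInv Γ A 1 := ⟨A.one_mem, fun γ => smul_one γ⟩

theorem IsInv.zero : IsInv Γ A 0 := ⟨A.zero_mem, fun γ => smul_zero γ⟩

theorem IsInv.mul {a b : K} (ha : IsInv Γ A a) (hb : IsInv Γ A b) : IsInv Γ A (a * b) :=
  ⟨mul_mem ha.1 hb.1, fun γ => by rw [smul_mul', ha.2, hb.2]⟩

theorem IsInv.add {a b : K} (ha : IsInv Γ A a) (hb : IsInv Γ A b) : IsInv Γ A (a + b) :=
  ⟨add_mem ha.1 hb.1, fun γ => by rw [smul_add, ha.2, hb.2]⟩

theorem IsInv.neg {a : K} (ha : IsInv Γ A a) : IsInv Γ A (-a) :=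
  ⟨neg_mem ha.1, fun γ => by rw [smul_neg, ha.2]⟩

theorem IsInv.pow {a : K} (ha : IsInv Γ A a) (n : ℕ) : IsInv Γ A (a ^ n) := by
  induction n with
  | zero => rw [pow_zero]; exact IsInv.one
  | succ n ih => rw [pow_succ]; exact ih.mul ha

theorem IsInv.inv {a : K} (ha : ∀ γ : Γ, γ • a = a) (h : a⁻¹ ∈ A) : IsInv Γ A a⁻¹ :=
  ⟨h, fun γ => by rw [smul_inv'', ha]⟩

theorem IsEquiv.pow {φ : X → K} (h : IsEquiv Γ φ) (n : ℕ) : IsEquiv Γ (φ ^ n) := fun γ x => by
  rw [Pi.pow_apply, Pi.pow_apply, h γ x, smul_pow']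

theorem IsEquiv.mul {φ ψ : X → K} (h : IsEquiv Γ φ) (h' : IsEquiv Γ ψ) : IsEquiv Γ (φ * ψ) :=
  fun γ x => by rw [Pi.mul_apply, Pi.mul_apply, h γ x, h' γ x, smul_mul']

theorem IsEquiv.add {φ ψ : X → K} (h : IsEquiv Γ φ) (h' : IsEquiv Γ ψ) : IsEquiv Γ (φ + ψ) :=
  fun γ x => by rw [Pi.add_apply, Pi.add_apply, h γ x, h' γ x, smul_add]

theorem IsEquiv.sub {φ ψ : X → K} (h : IsEquiv Γ φ) (h' : IsEquiv Γ ψ) : IsEquiv Γ (φ - ψ) :=
  fun γ x => by rw [Pi.sub_apply, Pi.sub_apply, h γ x, h' γ x, smul_sub]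

theorem IsEquiv.const {a : K} (h : ∀ γ : Γ, γ • a = a) : IsEquiv Γ (fun _ : X => a) :=
  fun γ _ => (h γ).symm

section Inv

variable [Fintype X] {T : Subring (X → K)} (hT : FunOrder Γ A T)

/-- the characteristic polynomial of an equivariant function has invariant coefficients -/
theorem isInv_coeff_prod {φ : X → K} (hφ : ∀ x, φ x ∈ A) (he : IsEquiv Γ φ) (n : ℕ) :
    IsInv Γ A ((∏ x, (Polynomial.X - C (φ x))).coeff n) := by
  constructor
  · have h1 : (∏ x, (Polynomial.X - C (φ x))) =
        (∏ x, (Polynomial.X - C (⟨φ x, hφ x⟩ : A))).map (algebraMap A K) := by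
      rw [Polynomial.map_prod]
      refine Finset.prod_congr rfl fun x _ => ?_
      simp only [Polynomial.map_sub, Polynomial.map_X, Polynomial.map_C]
      rfl
    rw [h1, Polynomial.coeff_map]
    exact Subtype.property _
  · intro γ
    have h2 : (∏ x, (Polynomial.X - C (φ x))).map (MulSemiringAction.toRingHom Γ K γ) =
        ∏ x, (Polynomial.X - C (φ x)) := by
      rw [Polynomial.map_prod, ← Equiv.prod_comp (MulAction.toPerm γ : Equiv.Perm X)
        (fun x => Polynomial.X - C (φ x))]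
      refine Finset.prod_congr rfl fun x _ => ?_
      simp only [Polynomial.map_sub, Polynomial.map_X, Polynomial.map_C,
        MulSemiringAction.toRingHom_apply, MulAction.toPerm_apply]
      rw [he γ x]
    have h3 := congrArg (fun p => Polynomial.coeff p n) h2
    simp only [Polynomial.coeff_map] at h3
    exact h3

include hT in
theorem FunOrder.eval_mem {p : K[X]} (hp : ∀ n, IsInv Γ A (p.coeff n)) {φ : X → K}
    (hφ : φ ∈ T) : (fun x => p.eval (φ x)) ∈ T := by
  have h1 : (fun x => p.eval (φ x)) =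
      ∑ i ∈ Finset.range (p.natDegree + 1), (fun _ : X => p.coeff i) * φ ^ i := by
    funext x
    rw [Polynomial.eval_eq_sum_range, Finset.sum_apply]
    rfl
  rw [h1]
  exact sum_mem fun i _ => mul_mem (hT.const _ (hp i)) (pow_mem hφ i)

include hT in
theorem FunOrder.inv_mem {φ : X → K} (hφ : φ ∈ T) (h0 : ∀ x, φ x ≠ 0) (hi : ∀ x, (φ x)⁻¹ ∈ A) :
    (fun x => (φ x)⁻¹) ∈ T := by
  classical
  set p : K[X] := ∏ x, (Polynomial.X - C (φ x)) with hp
  have hcoeff : ∀ n, IsInv Γ A (p.coeff n) := fun n =>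
    isInv_coeff_prod (hT.mem_A φ hφ) (hT.equiv φ hφ) n
  have hp0 : p.coeff 0 = ∏ x, (-φ x) := by
    rw [Polynomial.coeff_zero_eq_eval_zero, hp, Polynomial.eval_prod]
    refine Finset.prod_congr rfl fun x _ => ?_
    simp
  have hp0' : p.coeff 0 ≠ 0 := by
    rw [hp0]
    exact Finset.prod_ne_zero_iff.mpr fun x _ => neg_ne_zero.mpr (h0 x)
  have hp0A : (p.coeff 0)⁻¹ ∈ A := by
    rw [hp0, ← Finset.prod_inv_distrib]
    refine prod_mem fun x _ => ?_
    rw [inv_neg]
    exact neg_mem (hi x)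
  have hroot : ∀ x, p.eval (φ x) = 0 := fun x => by
    rw [hp, Polynomial.eval_prod]
    exact Finset.prod_eq_zero (Finset.mem_univ x) (by simp)
  have hq : (fun x => p.divX.eval (φ x)) ∈ T :=
    hT.eval_mem (fun n => by rw [Polynomial.coeff_divX]; exact hcoeff _) hφ
  have h2 : (fun x => (φ x)⁻¹) =
      (fun x => p.divX.eval (φ x)) * (fun _ : X => (-(p.coeff 0)⁻¹)) := by
    funext x
    have h3 := hroot x
    conv at h3 => lhs; rw [← Polynomial.X_mul_divX_add p]
    rw [Polynomial.eval_add, Polynomial.eval_mul, Polynomial.eval_X, Polynomial.eval_C] at h3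
    rw [Pi.mul_apply]
    have h4 := h0 x
    field_simp
    linear_combination h3
  rw [h2]
  exact mul_mem hq (hT.const _ ((IsInv.inv (hcoeff 0).2 hp0A).neg))

end Inv

/-! ### The order generated by a separating family -/

section Gen

variable {ι : Type*} (A) (Γ)

/-- the ring generated by functions and invariant constants -/
def genOrder (θ : ι → X → K) : Subring (X → K) :=
  Subring.closure ({φ | ∃ a, IsInv Γ A a ∧ φ = fun _ => a} ∪ Set.range θ)

variable {A Γ}

theorem mem_genOrder (θ : ι → X → K) (i : ι) : θ i ∈ genOrder Γ A θ :=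
  Subring.subset_closure (Or.inr ⟨i, rfl⟩)

theorem const_mem_genOrder (θ : ι → X → K) {a : K} (ha : IsInv Γ A a) :
    (fun _ => a) ∈ genOrder Γ A θ :=
  Subring.subset_closure (Or.inl ⟨a, ha, rfl⟩)

theorem genOrder_le {θ : ι → X → K} {T : Subring (X → K)}
    (hc : ∀ a, IsInv Γ A a → (fun _ => a) ∈ T) (h : ∀ i, θ i ∈ T) : genOrder Γ A θ ≤ T := by
  rw [genOrder, Subring.closure_le]
  rintro φ (⟨a, ha, rfl⟩ | ⟨i, rfl⟩)
  · exact hc a ha
  · exact h i

theorem genOrder_mem_A {θ : ι → X → K} (hA : ∀ i x, θ i x ∈ A) :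
    ∀ φ ∈ genOrder Γ A θ, ∀ x, φ x ∈ A := by
  intro φ hφ x
  have h : genOrder Γ A θ ≤ Subring.comap (Pi.evalRingHom (fun _ : X => K) x) A.toSubring := by
    apply genOrder_le
    · intro a ha; exact ha.1
    · intro i; exact hA i x
  exact h hφ

theorem genOrder_equiv {θ : ι → X → K} (he : ∀ i, IsEquiv Γ (θ i)) :
    ∀ φ ∈ genOrder Γ A θ, IsEquiv Γ φ := by
  intro φ hφ
  induction hφ using Subring.closure_induction with
  | mem φ h =>
    rcases h with ⟨a, ha, rfl⟩ | ⟨i, rfl⟩
    · exact IsEquiv.const ha.2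
    · exact he i
  | zero => intro γ x; simp
  | one => intro γ x; simp
  | add φ ψ _ _ hφ hψ => exact hφ.add hψ
  | neg φ _ hφ => intro γ x; rw [Pi.neg_apply, Pi.neg_apply, hφ γ x, smul_neg]
  | mul φ ψ _ _ hφ hψ => exact hφ.mul hψ

/-- evaluation of an invariant polynomial at the generators lies in the generated order -/
theorem mvEval_mem_genOrder (θ : ι → X → K) {p : MvPolynomial ι K}
    (hp : ∀ m, IsInv Γ A (p.coeff m)) :
    (fun x => MvPolynomial.eval (fun i => θ i x) p) ∈ genOrder Γ A θ := by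
  classical
  have h1 : (fun x => MvPolynomial.eval (fun i => θ i x) p) =
      ∑ m ∈ p.support, (fun _ : X => p.coeff m) * ∏ i ∈ m.support, (θ i) ^ (m i) := by
    funext x
    rw [MvPolynomial.eval_eq, Finset.sum_apply]
    refine Finset.sum_congr rfl fun m _ => ?_
    rw [Pi.mul_apply, Finset.prod_apply]
    rfl
  rw [h1]
  exact sum_mem fun m _ => mul_mem (const_mem_genOrder θ (hp m))
    (prod_mem fun i _ => pow_mem (mem_genOrder θ i) _)

/-- The order generated by a separating family of functions is full. -/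
theorem funOrder_genOrder [Fintype X] {θ : ι → X → K} (hA : ∀ i x, θ i x ∈ A)
    (he : ∀ i, IsEquiv Γ (θ i)) (hsep : ∀ x y, x ≠ y → ∃ i, θ i x ≠ θ i y)
    (hΓA : ∀ (γ : Γ) (a : K), a ∈ A → γ • a ∈ A) :
    FunOrder Γ A (genOrder Γ A θ) := by
  classical
  refine ⟨genOrder_mem_A hA, genOrder_equiv he, fun a ha => const_mem_genOrder θ ha, ?_⟩
  by_cases hX : ∃ x y : X, x ≠ y
  swap
  · -- at most one point
    push Not at hX
    refine ⟨1, IsInv.one, one_ne_zero, fun φ hφ heφ => ?_⟩
    by_cases hne : Nonempty X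
    · obtain ⟨x⟩ := hne
      have h1 : (fun x => 1 * φ x) = fun _ => φ x := by
        funext y
        rw [one_mul, hX y x]
      rw [h1]
      exact const_mem_genOrder θ ⟨hφ x, fun γ => by rw [← heφ γ x, hX (γ • x) x]⟩
    · have h1 : (fun x => 1 * φ x) = 0 := by
        funext x
        exact absurd ⟨x⟩ hne
      rw [h1]
      exact zero_mem _
  obtain ⟨x0, y0, hxy0⟩ := hX
  obtain ⟨i0, -⟩ := hsep x0 y0 hxy0
  -- a choice function on sets of indices
  let ch : Set ι → ι := fun s => if h : s.Nonempty then h.some else i0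
  let idx : X → X → ι := fun x y => ch {i | θ i x ≠ θ i y}
  have hidx : ∀ x y, x ≠ y → θ (idx x y) x ≠ θ (idx x y) y := by
    intro x y hxy
    have hne : ({i | θ i x ≠ θ i y} : Set ι).Nonempty := hsep x y hxy
    have h2 : idx x y = hne.some := dif_pos hne
    rw [h2]
    exact hne.some_mem
  have hidxγ : ∀ (γ : Γ) x y, idx (γ • x) (γ • y) = idx x y := by
    intro γ x y
    have h1 : {i | θ i (γ • x) ≠ θ i (γ • y)} = {i | θ i x ≠ θ i y} := by
      ext i
      simp only [Set.mem_ofPred_eq, ne_eq, he i γ x, he i γ y]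
      rw [smul_left_cancel_iff]
    change ch _ = ch _
    rw [h1]
  -- the Lagrange polynomials
  let P : X → MvPolynomial ι K := fun x =>
    ∏ y ∈ Finset.univ.erase x, (MvPolynomial.X (idx x y) - MvPolynomial.C (θ (idx x y) y))
  let δ : X → K := fun x => ∏ y ∈ Finset.univ.erase x, (θ (idx x y) x - θ (idx x y) y)
  have hPeval : ∀ x z, MvPolynomial.eval (fun i => θ i z) (P x) =
      ∏ y ∈ Finset.univ.erase x, (θ (idx x y) z - θ (idx x y) y) := by
    intro x z
    simp only [P, map_prod, map_sub, MvPolynomial.eval_X, MvPolynomial.eval_C]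
  have hPx : ∀ x, MvPolynomial.eval (fun i => θ i x) (P x) = δ x := fun x => hPeval x x
  have hPz : ∀ x z, z ≠ x → MvPolynomial.eval (fun i => θ i z) (P x) = 0 := by
    intro x z hzx
    rw [hPeval]
    exact Finset.prod_eq_zero (Finset.mem_erase.mpr ⟨hzx, Finset.mem_univ z⟩) (sub_self _)
  have hδ0 : ∀ x, δ x ≠ 0 := by
    intro x
    refine Finset.prod_ne_zero_iff.mpr fun y hy => ?_
    exact sub_ne_zero.mpr (hidx x y (Finset.ne_of_mem_erase hy).symm)
  have hδA : ∀ x, δ x ∈ A := fun x => prod_mem fun y _ => sub_mem (hA _ _) (hA _ _)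
  have hbij : ∀ (γ : Γ) (x : X), (Finset.univ.erase (γ • x)) =
      (Finset.univ.erase x).map (MulAction.toPerm γ : Equiv.Perm X).toEmbedding := by
    intro γ x
    ext y
    simp only [Finset.mem_erase, Finset.mem_univ, and_true, Finset.mem_map,
      Equiv.coe_toEmbedding, MulAction.toPerm_apply]
    constructor
    · intro h
      refine ⟨γ⁻¹ • y, ?_, smul_inv_smul γ y⟩
      intro h'
      apply h
      rw [← h', smul_inv_smul]
    · rintro ⟨z, hz, rfl⟩ h
      exact hz (MulAction.injective γ h)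
  have hδγ : ∀ (γ : Γ) (x : X), δ (γ • x) = γ • δ x := by
    intro γ x
    simp only [δ]
    rw [hbij, Finset.prod_map, Finset.smul_prod']
    refine Finset.prod_congr rfl fun y _ => ?_
    simp only [Equiv.coe_toEmbedding, MulAction.toPerm_apply]
    rw [hidxγ, he, he, smul_sub]
  have hPγ : ∀ (γ : Γ) (x : X),
      MvPolynomial.map (MulSemiringAction.toRingHom Γ K γ) (P x) = P (γ • x) := by
    intro γ x
    simp only [P]
    rw [hbij, Finset.prod_map, map_prod]
    refine Finset.prod_congr rfl fun y _ => ?_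
    simp only [Equiv.coe_toEmbedding, MulAction.toPerm_apply]
    rw [hidxγ, he, map_sub, MvPolynomial.map_X, MvPolynomial.map_C]
    rfl
  have hPA : ∀ x m, (P x).coeff m ∈ A := by
    intro x m
    have h1 : P x = MvPolynomial.map (algebraMap A K)
        (∏ y ∈ Finset.univ.erase x, (MvPolynomial.X (idx x y) -
          MvPolynomial.C (⟨θ (idx x y) y, hA _ _⟩ : A))) := by
      simp only [P, map_prod, map_sub, MvPolynomial.map_X, MvPolynomial.map_C]
      rfl
    rw [h1, MvPolynomial.coeff_map]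
    exact Subtype.property _
  set D : K := ∏ x, δ x with hD
  have hDinv : IsInv Γ A D := by
    refine ⟨prod_mem fun x _ => hδA x, fun γ => ?_⟩
    rw [hD, Finset.smul_prod', ← Equiv.prod_comp (MulAction.toPerm γ : Equiv.Perm X) δ]
    refine Finset.prod_congr rfl fun x _ => ?_
    rw [MulAction.toPerm_apply, hδγ]
  have hD0 : D ≠ 0 := Finset.prod_ne_zero_iff.mpr fun x _ => hδ0 x
  refine ⟨D, hDinv, hD0, fun φ hφ heφ => ?_⟩
  let q : MvPolynomial ι K := ∑ x, MvPolynomial.C (φ x * (D / δ x)) * P x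
  have hDδ : ∀ x, D / δ x ∈ A := by
    intro x
    have h1 : D / δ x = ∏ y ∈ Finset.univ.erase x, δ y := by
      rw [hD, ← Finset.mul_prod_erase _ _ (Finset.mem_univ x)]
      field_simp [hδ0 x]
    rw [h1]
    exact prod_mem fun y _ => hδA y
  have hq : ∀ m, IsInv Γ A (q.coeff m) := by
    intro m
    constructor
    · simp only [q, MvPolynomial.coeff_sum, MvPolynomial.coeff_C_mul]
      exact sum_mem fun x _ => mul_mem (mul_mem (hφ x) (hDδ x)) (hPA x m)
    · intro γ
      have h1 : MvPolynomial.map (MulSemiringAction.toRingHom Γ K γ) q = q := by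
        simp only [q]
        rw [map_sum, ← Equiv.sum_comp (MulAction.toPerm γ : Equiv.Perm X)
          (fun x => MvPolynomial.C (φ x * (D / δ x)) * P x)]
        refine Finset.sum_congr rfl fun x _ => ?_
        rw [MulAction.toPerm_apply, heφ, hδγ, map_mul, MvPolynomial.map_C, hPγ]
        congr 2
        simp only [map_mul, map_div₀, MulSemiringAction.toRingHom_apply]
        rw [hDinv.2]
      have h2 := congrArg (fun p => MvPolynomial.coeff m p) h1
      simp only [MvPolynomial.coeff_map] at h2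
      exact h2
  have h3 : (fun x => D * φ x) = fun x => MvPolynomial.eval (fun i => θ i x) q := by
    funext x
    simp only [q, map_sum, map_mul, MvPolynomial.eval_C]
    rw [Finset.sum_eq_single x]
    · rw [hPx]
      have := hδ0 x
      field_simp
    · intro y _ hyx
      rw [hPz y x hyx.symm, mul_zero]
    · intro h
      exact absurd (Finset.mem_univ x) h
  rw [h3]
  exact mvEval_mem_genOrder θ hq

end Gen

end Fermat.Agent.FFM
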