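import Fermat.Agent.FFM.Stable
import Fermat.Agent.Red.SpecOf

/-!
# Semilinear automorphisms and specialisation of places
-/

set_option autoImplicit false
set_option linter.unusedSectionVars false
set_option linter.style.haveILetI false

open AlgebraicCurve Fermat.Agent.FF Fermat.Agent.RR Fermat.Agent.Red

noncomputable section

namespace Fermat.Agent.FFM

section One

variable {K F : Type*} [Field K] [Field F] [Algebra K F] [IsAlgClosed K] [IsFnField K F]

theorem smul_algebraMap_inv' (σ : SemilinearAut K F) (c : K) :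
    σ⁻¹ • algebraMap K F (SemilinearAut.baseAut σ c) = algebraMap K F c := by
  rw [← SemilinearAut.smul_algebraMap, inv_smul_smul]

theorem hasVal_smul {σ : SemilinearAut K F} {P : Place K F} {f : F} {c : K}
    (h : HasVal P f c) : HasVal (σ • P) (σ • f) (SemilinearAut.baseAut σ c) := by
  rw [hasVal_iff] at h ⊢
  rw [← SemilinearAut.smul_algebraMap, ← smul_sub, SemilinearAut.ord_smul]
  rcases h with h | h
  · left; rw [h, smul_zero]
  · exact Or.inr h

theorem hasVal_of_smul {σ : SemilinearAut K F} {P : Place K F} {f : F} {c : K}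
    (h : HasVal (σ • P) f c) : HasVal P (σ⁻¹ • f) (SemilinearAut.baseAut σ⁻¹ c) := by
  have := hasVal_smul (σ := σ⁻¹) h
  rwa [inv_smul_smul] at this

theorem smul_mem_adjoin {σ : SemilinearAut K F} {x : F} (hx : σ • x = x) {a : F}
    (ha : a ∈ Algebra.adjoin K {x}) : σ • a ∈ Algebra.adjoin K {x} := by
  induction ha using Algebra.adjoin_induction with
  | mem y hy =>
    rw [Set.mem_singleton_iff.mp hy, hx]
    exact Algebra.self_mem_adjoin_singleton K x
  | algebraMap r =>
    rw [SemilinearAut.smul_algebraMap]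
    exact Subalgebra.algebraMap_mem _ _
  | add a b _ _ ha hb => rw [smul_add]; exact add_mem ha hb
  | mul a b _ _ ha hb => rw [smul_mul']; exact mul_mem ha hb

theorem isIntegral_smul {σ : SemilinearAut K F} {x : F} (hx : σ • x = x) {f : F}
    (hf : IsIntegral (Algebra.adjoin K {x}) f) : IsIntegral (Algebra.adjoin K {x}) (σ • f) := by
  let ψ : F →+* F := MulSemiringAction.toRingHom (SemilinearAut K F) F σ
  let φ : Algebra.adjoin K {x} →+* Algebra.adjoin K {x} :=
    (ψ.comp (algebraMap (Algebra.adjoin K {x}) F)).codRestrict (Algebra.adjoin K {x})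
      (fun a => smul_mem_adjoin hx a.2)
  exact hf.map_of_comp_eq φ ψ (RingHom.ext fun a => rfl)

theorem inv_smul_eq_self {σ : SemilinearAut K F} {x : F} (hx : σ • x = x) : σ⁻¹ • x = x := by
  rw [inv_smul_eq_iff, hx]

end One

variable {K k : Type*} [Field K] [Field k] [IsAlgClosed K] [IsAlgClosed k]
  {A : ValuationSubring K} {π : A →+* k}
  {F Fk : Type*} [Field F] [Algebra K F] [Field Fk] [Algebra k Fk] [IsFnField K F]
  [IsFnField k Fk] {R : ConstRed A π F Fk}

/-- a pair of semilinear automorphisms compatible with reduction. -/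
structure CompatAut (R : ConstRed A π F Fk) (σ : SemilinearAut K F) (τ : SemilinearAut k Fk) :
    Prop where
  isRed : ∀ (f : F) (z : Fk), R.IsRed f z → R.IsRed (σ • f) (τ • z)
  isRed_inv : ∀ (f : F) (z : Fk), R.IsRed f z → R.IsRed (σ⁻¹ • f) (τ⁻¹ • z)

variable {σ : SemilinearAut K F} {τ : SemilinearAut k Fk} (h : CompatAut R σ τ)

theorem CompatAut.inv (h : CompatAut R σ τ) : CompatAut R σ⁻¹ τ⁻¹ :=
  ⟨h.isRed_inv, by simpa using h.isRed⟩

include h

theorem CompatAut.mem_A {a : K} (ha : a ∈ A) : SemilinearAut.baseAut σ a ∈ A := by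
  have h1 := (h.isRed _ _ (R.isRed_algebraMap ha)).mem
  rwa [SemilinearAut.smul_algebraMap, R.algebraMap_mem_iff] at h1

theorem CompatAut.pi {a : K} (ha : a ∈ A) :
    π ⟨SemilinearAut.baseAut σ a, h.mem_A ha⟩ = SemilinearAut.baseAut τ (π ⟨a, ha⟩) := by
  have h1 := h.isRed _ _ (R.isRed_algebraMap ha)
  rw [SemilinearAut.smul_algebraMap, SemilinearAut.smul_algebraMap] at h1
  exact (algebraMap k Fk).injective ((R.isRed_algebraMap (h.mem_A ha)).unique h1)

variable {x : F} {xb : Fk} (hx : σ • x = x) (hxb : τ • xb = xb)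

include hx hxb

theorem CompatAut.sp {P : Place K F} {Q : Place k Fk} (hPQ : Sp R x xb P Q) :
    Sp R x xb (σ • P) (τ • Q) := by
  obtain ⟨⟨a, ha⟩, h2, h3⟩ := hPQ
  refine ⟨⟨⟨_, h.mem_A a.2⟩, ?_⟩, ?_, ?_⟩
  · have := hasVal_smul (σ := σ) ha
    rwa [hx] at this
  · have h4 := SemilinearAut.ord_smul τ Q xb
    rw [hxb] at h4
    rw [h4]
    exact h2
  · intro f z c hfz hf hc
    have h4 := hasVal_of_smul hc
    obtain ⟨h5, h6⟩ := h3 _ _ _ (h.isRed_inv _ _ hfz) (isIntegral_smul (inv_smul_eq_self hx) hf) h4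
    have h7 : SemilinearAut.baseAut σ (SemilinearAut.baseAut σ⁻¹ c) = c := by
      rw [SemilinearAut.baseAut_inv, RingEquiv.apply_symm_apply]
    have h8 := h.mem_A h5
    have h9 := h.pi h5
    refine ⟨h7 ▸ h8, ?_⟩
    have h10 := hasVal_smul (σ := τ) h6
    rw [smul_inv_smul] at h10
    have h11 : (⟨SemilinearAut.baseAut σ (SemilinearAut.baseAut σ⁻¹ c), h8⟩ : A) =
        ⟨c, h7 ▸ h8⟩ := Subtype.ext h7
    rw [← h9, h11] at h10
    exact h10

theorem CompatAut.spec_smul (hC : Chart R x xb) (hC' : Chart R x⁻¹ xb⁻¹) (P : Place K F) :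
    spec hC hC' (σ • P) = τ • spec hC hC' P := by
  have h4 : (τ • spec hC hC' P).ord xb = (spec hC hC' P).ord xb := by
    have h4 := SemilinearAut.ord_smul τ (spec hC hC' P) xb
    rwa [hxb] at h4
  by_cases h0 : 0 ≤ (spec hC hC' P).ord xb
  · rw [spec_eq_iff hC hC' (by rw [h4]; exact h0)]
    exact h.sp hx hxb ((spec_eq_iff hC hC' h0).mp rfl)
  · push Not at h0
    rw [spec_eq_iff' hC hC' (by rw [h4]; exact h0)]
    apply h.sp
    · rw [smul_inv'', hx]
    · rw [smul_inv'', hxb]
    · exact (spec_eq_iff' hC hC' h0).mp rfl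

end Fermat.Agent.FFM
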