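import Fermat.Agent.FFM.HopfOrder

/-!
# Stability of the order under automorphisms
-/

set_option autoImplicit false
set_option linter.unusedSectionVars false
set_option linter.style.haveILetI false

open AlgebraicCurve Fermat.Agent.FF Fermat.Agent.RR Fermat.Agent.Red

namespace Fermat.Agent.FFM

section Semi

variable {L E : Type*} [Field L] [Field E] [Algebra L E]

theorem adicValuation_smul (τ : SemilinearAut L E) (P : Place L E) (f : E) :
    (τ • P).adicValuation (τ • f) = P.adicValuation f := by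
  rcases eq_or_ne f 0 with rfl | hf
  · simp
  have h1 : τ • f ≠ 0 := by simpa using hf
  rw [Place.adicValuation_eq_exp_neg_ord _ h1, Place.adicValuation_eq_exp_neg_ord _ hf,
    SemilinearAut.ord_smul]

theorem smul_mem_L_iff (τ : SemilinearAut L E) (D : Divisor L E) (f : E) :
    τ • f ∈ riemannRochSpace (τ • D) ↔ f ∈ riemannRochSpace D := by
  constructor
  · intro h v
    have h1 := h (τ • v)
    rwa [adicValuation_smul, SemilinearAut.divisor_smul_apply_smul] at h1
  · intro h v
    have h1 := h (τ⁻¹ • v)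
    have h2 := adicValuation_smul τ (τ⁻¹ • v) f
    rw [smul_inv_smul] at h2
    rw [h2, SemilinearAut.divisor_smul_apply]
    exact h1

theorem ell_smul (τ : SemilinearAut L E) (D : Divisor L E) : ell (τ • D) = ell D := by
  let j : riemannRochSpace D ≃+ riemannRochSpace (τ • D) :=
    { toFun := fun f => ⟨τ • (f : E), (smul_mem_L_iff τ D f).2 f.2⟩
      invFun := fun f => ⟨τ⁻¹ • (f : E), by
        rw [← smul_mem_L_iff τ, smul_inv_smul]; exact f.2⟩
      left_inv := fun f => Subtype.ext (inv_smul_smul τ (f : E))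
      right_inv := fun f => Subtype.ext (smul_inv_smul τ (f : E))
      map_add' := fun f g => Subtype.ext (smul_add τ (f : E) (g : E)) }
  have h := rank_eq_of_equiv_equiv (SemilinearAut.baseAut τ) j (SemilinearAut.baseAut τ).bijective
    (fun r m => Subtype.ext (by
      change τ • (r • (m : E)) = SemilinearAut.baseAut τ r • (τ • (m : E))
      rw [Algebra.smul_def, Algebra.smul_def, smul_mul', SemilinearAut.smul_algebraMap]))
  unfold ell Module.finrank
  rw [h]

theorem sumDiv_image [DecidableEq (Place L E)] (τ : SemilinearAut L E) (s : Finset (Place L E)) :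
    sumDiv (s.image (τ • ·)) = τ • sumDiv s := by
  rw [sumDiv, Finset.sum_image (fun a _ b _ h => MulAction.injective τ h), sumDiv, Finset.smul_sum]
  exact Finset.sum_congr rfl fun Q _ => (SemilinearAut.smul_single τ Q 1).symm

end Semi

variable {K k : Type*} [Field K] [Field k] [IsAlgClosed K] [IsAlgClosed k] [CharZero K]
  {A : ValuationSubring K} {π : A →+* k}
  {F Fk : Type*} [Field F] [Algebra K F] [Field Fk] [Algebra k Fk] [IsFnField K F]
  [IsFnField k Fk] {R : ConstRed A π F Fk}
  {Γ : Type*} [Group Γ] [MulSemiringAction Γ K]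

/-- An automorphism compatible with all the structures. -/
structure Compat (S : Spec R) (ρ : Γ →* SemilinearAut K F) (σ : SemilinearAut K F)
    (τ : SemilinearAut k Fk) (c : Γ ≃ Γ) : Prop where
  isRed : ∀ (f : F) (z : Fk), R.IsRed f z → R.IsRed (σ • f) (τ • z)
  r_smul : ∀ P : Place K F, S.r (σ • P) = τ • S.r P
  conj : ∀ g : Γ, ρ (c g) * σ = σ * ρ g

variable {S : Spec R} {ρ : Γ →* SemilinearAut K F} (G : Geo S ρ)
  {σ : SemilinearAut K F} {τ : SemilinearAut k Fk} {c : Γ ≃ Γ} (hσ : Compat S ρ σ τ c)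

include hσ

theorem Compat.push_smul (D : Divisor K F) : push S (σ • D) = τ • push S D := by
  rw [SemilinearAut.divisor_smul_def, push, ← Finsupp.mapDomain_comp, SemilinearAut.divisor_smul_def,
    push, ← Finsupp.mapDomain_comp]
  congr 1
  funext P
  exact hσ.r_smul P

theorem Compat.base_mem {a : K} (ha : a ∈ A) : SemilinearAut.baseAut σ a ∈ A := by
  have h := (hσ.isRed _ _ (R.isRed_algebraMap ha)).mem
  rwa [SemilinearAut.smul_algebraMap, R.algebraMap_mem_iff] at h

theorem Compat.r_inv {P : Place K F} {Q : Place k Fk} (h : S.r P = τ • Q) :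
    S.r (σ⁻¹ • P) = Q := by
  have h1 := hσ.r_smul (σ⁻¹ • P)
  rw [smul_inv_smul, h] at h1
  exact (MulAction.injective τ h1).symm

theorem Compat.smul_comm {X : Type*} [MulAction (SemilinearAut K F) X] (g : Γ) (x : X) :
    ρ (c g) • σ • x = σ • ρ g • x := by
  rw [← mul_smul, hσ.conj, mul_smul]

theorem Compat.smul_comm' {X : Type*} [MulAction (SemilinearAut K F) X] (g : Γ) (x : X) :
    ρ g • σ • x = σ • ρ (c.symm g) • x := by
  have := hσ.smul_comm (c.symm g) x
  rwa [Equiv.apply_symm_apply] at this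

include G in
theorem Compat.base_smul (g : Γ) (a : K) :
    g • SemilinearAut.baseAut σ a = SemilinearAut.baseAut σ (c.symm g • a) := by
  have h := congrArg (fun u => SemilinearAut.baseAut u a) (hσ.conj (c.symm g))
  rw [Equiv.apply_symm_apply] at h
  simp only [SemilinearAut.baseAut_mul] at h
  rw [← G.base, ← G.base]
  exact h

include G in
theorem Compat.isInv {a : K} (ha : IsInv Γ A a) : IsInv Γ A (SemilinearAut.baseAut σ a) :=
  ⟨hσ.base_mem ha.1, fun g => by rw [hσ.base_smul G, ha.2]⟩

theorem Compat.rd_smul {f : F} (hf : f ∈ R.O) : R.rd (σ • f) = τ • R.rd f :=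
  (hσ.isRed _ _ (R.isRed_rd hf)).rd_eq

theorem Compat.locPar {Q : Place k Fk} {t : F} (ht : LocPar S ρ Q t) :
    LocPar S ρ (τ • Q) (σ • t) := by
  refine ⟨⟨(hσ.isRed _ _ (R.isRed_rd ht.reg.1)).mem, fun P hP => ?_⟩, ?_, fun g => ?_⟩
  · have h1 := SemilinearAut.ord_smul σ (σ⁻¹ • P) t
    rw [smul_inv_smul] at h1
    rw [h1]
    exact ht.reg.2 _ (hσ.r_inv hP)
  · rw [hσ.rd_smul ht.reg.1, SemilinearAut.ord_smul, ht.ord_rd]
  · rw [hσ.smul_comm', ht.inv]

open Classical in
/-- transport of data -/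
noncomputable def Datum.map (d : Datum S ρ) : Datum S ρ where
  E := d.E.image (τ • ·)
  B := σ • d.B
  t := fun Q => σ • d.t (τ⁻¹ • Q)
  card := by rw [Finset.card_image_of_injective _ (MulAction.injective τ), d.card]
  nonsp := by rw [sumDiv_image, ell_smul, d.nonsp]
  inv := fun g => by rw [hσ.smul_comm', d.inv]
  off := fun P hP => by
    rw [Finset.mem_image] at hP
    obtain ⟨Q, hQ, hP⟩ := hP
    rw [SemilinearAut.divisor_smul_apply]
    apply d.off
    rw [hσ.r_inv hP.symm]
    exact hQ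
  deg := by rw [SemilinearAut.degree_smul, d.deg]
  par := fun Q hQ => by
    rw [Finset.mem_image] at hQ
    obtain ⟨Q', hQ', rfl⟩ := hQ
    rw [inv_smul_smul]
    exact hσ.locPar (d.par Q' hQ')

theorem Datum.mem_map (d : Datum S ρ) {Q : Place k Fk} (hQ : Q ∈ d.E) :
    τ • Q ∈ (d.map hσ).E := by
  classical
  exact Finset.mem_image_of_mem _ hQ

theorem Datum.map_cls (d : Datum S ρ) : (d.map hσ).cls = τ • d.cls := by
  classical
  rw [Datum.cls, Datum.cls, smul_sub, ← hσ.push_smul, ← sumDiv_image]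
  rfl

theorem Datum.map_pt (d : Datum S ρ) {D : Divisor K F} (h : LinEq (push S D) d.cls) :
    ∀ Q ∈ d.E, (d.map hσ).pt G (σ • D) (τ • Q) = σ • d.pt G D Q := by
  classical
  intro Q hQ
  have h' : LinEq (push S (σ • D)) (d.map hσ).cls := by
    rw [hσ.push_smul, Datum.map_cls]
    exact h.smul τ
  have h1 := (d.map hσ).pt_unique G h' (p := fun Q => σ • d.pt G D (τ⁻¹ • Q)) (fun Q' hQ' => ?_) ?_
    (τ • Q) (Datum.mem_map hσ d hQ)
  · rw [← h1, inv_smul_smul]
  · change Q' ∈ d.E.image (τ • ·) at hQ'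
    rw [Finset.mem_image] at hQ'
    obtain ⟨Q'', hQ'', rfl⟩ := hQ'
    rw [inv_smul_smul, hσ.r_smul, d.r_pt G hQ'']
  · have h2 := (d.linEq_pt G h).smul σ
    rw [smul_add, Finset.smul_sum] at h2
    change LinEq (∑ Q ∈ d.E.image (τ • ·), _) (σ • d.B + _)
    rw [Finset.sum_image (fun a _ b _ h => MulAction.injective τ h)]
    simpa only [SemilinearAut.smul_single, inv_smul_smul] using h2

theorem Datum.map_co (d : Datum S ρ) {D : Divisor K F} (h : LinEq (push S D) d.cls)
    {Q : Place k Fk} (hQ : Q ∈ d.E) :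
    (d.map hσ).co G (σ • D) (τ • Q) = SemilinearAut.baseAut σ (d.co G D Q) := by
  rw [Datum.co, Datum.co, Datum.map_pt G hσ d h Q hQ]
  change ev _ (σ • d.t (τ⁻¹ • τ • Q)) = _
  rw [inv_smul_smul, FFM.ev_smul]
  exact (d.par Q hQ).reg.2 _ (d.r_pt G hQ)

variable {M : Type*} [AddCommGroup M] [Fintype M] [MulAction Γ M] {rep : M → Divisor K F}
  (hR : Rep ρ rep) (inf : Place K F) (hinf : ∀ g, ρ g • inf = inf)

/-- **Stability of the order.** -/
theorem theOrder_stable (s : M ≃ M) (hs : ∀ m, LinEq (rep (s m)) (σ • rep m)) {φ : M → K}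
    (hφ : φ ∈ theOrder G hR inf hinf) :
    (fun m => SemilinearAut.baseAut σ (φ (s.symm m))) ∈ theOrder G hR inf hinf := by
  classical
  intro c₀
  rcases isEmpty_or_nonempty (Fib S rep c₀) with hX | hX
  · convert (fibOrder G hR inf hinf c₀).zero_mem using 1
  obtain ⟨m₀⟩ := hX
  have hs' : ∀ m, LinEq (rep m) (σ • rep (s.symm m)) := by
    intro m
    have := hs (s.symm m)
    rwa [Equiv.apply_symm_apply] at this
  have hsmulinv : ∀ {D E : Divisor k Fk}, LinEq (τ • D) (τ • E) → LinEq D E := by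
    intro D E h
    have := h.smul τ⁻¹
    rwa [inv_smul_smul, inv_smul_smul] at this
  set c₁ := redCl S rep (s.symm m₀.1) with hc₁
  have hcl : ∀ m : Fib S rep c₀, redCl S rep (s.symm m.1) = c₁ := by
    intro m
    rw [hc₁, redCl_eq_iff]
    apply hsmulinv
    rw [← hσ.push_smul, ← hσ.push_smul]
    refine (push_linEq (hs' m.1).symm).trans (LinEq.trans ?_ (push_linEq (hs' m₀.1)))
    exact redCl_eq_iff.mp (m.2.trans m₀.2.symm)
  let u : Fib S rep c₀ → Fib S rep c₁ := fun m => ⟨s.symm m.1, hcl m⟩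
  let tw : (Fib S rep c₁ → K) →+* (Fib S rep c₀ → K) :=
    RingHom.pi fun m => (SemilinearAut.baseAut σ : K →+* K).comp
      (Pi.evalRingHom (fun _ : Fib S rep c₁ => K) (u m))
  letI := fibAction (Γ := Γ) G hR c₀
  letI := fibAction (Γ := Γ) G hR c₁
  have hle : fibOrder G hR inf hinf c₁ ≤ (fibOrder G hR inf hinf c₀).comap tw := by
    refine genOrder_le (fun a ha => ?_) (fun Q => ?_)
    · exact const_mem_genOrder _ (hσ.isInv G ha)
    · rw [Subring.mem_comap]
      let d₁ := dat G hR inf hinf c₁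
      have hfam : Fam ρ S (d₁.map hσ).cls (fun m : Fib S rep c₀ => rep m.1) := by
        refine ⟨fun m => ?_, fun g m => hR.smul g m.1⟩
        rw [Datum.map_cls]
        refine (push_linEq (hs' m.1)).trans ?_
        rw [hσ.push_smul]
        exact (dat_spec G hR inf hinf (u m)).smul τ
      have hint : IsInt G (fibOrder G hR inf hinf c₀) (d₁.map hσ)
          (fun m : Fib S rep c₀ => rep m.1) := by
        refine isInt_indep G (funOrder_fib G hR inf hinf c₀) inf hinf (fam_fib G hR inf hinf c₀)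
          hfam ?_
        intro Q hQ
        exact mem_genOrder (cth G hR inf hinf c₀) ⟨Q, hQ⟩
      have h1 := hint (τ • Q) (Datum.mem_map hσ d₁ Q.2)
      convert h1 using 1
      funext m
      change SemilinearAut.baseAut σ (d₁.co G (rep (s.symm m.1)) Q) = _
      rw [← Datum.map_co G hσ d₁ (dat_spec G hR inf hinf (u m)) Q.2]
      refine ((d₁.map hσ).co_congr G ?_ (hs' m.1) (Datum.mem_map hσ d₁ Q.2)).symm
      rw [hσ.push_smul, Datum.map_cls]
      exact (dat_spec G hR inf hinf (u m)).smul τ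
  exact hle (hφ c₁)

end Fermat.Agent.FFM
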