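import Fermat.Agent.FFM.Newton
import Fermat.Agent.FFM.Ev

/-!
# Expansions on residue discs with respect to invariant local parameters
-/

set_option autoImplicit false
set_option linter.unusedSectionVars false
set_option linter.style.haveILetI false

open AlgebraicCurve Fermat.Agent.FF Fermat.Agent.RR Fermat.Agent.Red

namespace Fermat.Agent.FFM

variable {K k : Type*} [Field K] [Field k] [IsAlgClosed K] [IsAlgClosed k] [CharZero K]
  {A : ValuationSubring K} {π : A →+* k}
  {F Fk : Type*} [Field F] [Algebra K F] [Field Fk] [Algebra k Fk] [IsFnField K F]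
  [IsFnField k Fk] {R : ConstRed A π F Fk}
  {Γ : Type*} [Group Γ] [MulSemiringAction Γ K]

/-- The basic compatibilities of a constant reduction with a (inertia) group `Γ`. -/
structure GeoBase (S : Spec R) (ρ : Γ →* SemilinearAut K F) : Prop where
  base : ∀ (g : Γ) (a : K), SemilinearAut.baseAut (ρ g) a = g • a
  isRed_smul : ∀ (g : Γ) (f : F) (z : Fk), R.IsRed f z → R.IsRed (ρ g • f) z
  r_smul : ∀ (g : Γ) (P : Place K F), S.r (ρ g • P) = S.r P
  rankOne : RankOne A

variable {S : Spec R} {ρ : Γ →* SemilinearAut K F} (G : GeoBase S ρ)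

include G

theorem GeoBase.smul_algebraMap (g : Γ) (a : K) :
    ρ g • algebraMap K F a = algebraMap K F (g • a) := by
  rw [SemilinearAut.smul_algebraMap, G.base]

theorem GeoBase.smul_mem_A (g : Γ) {a : K} (ha : a ∈ A) : g • a ∈ A := by
  have h := (G.isRed_smul g _ _ (R.isRed_algebraMap ha)).mem
  rwa [G.smul_algebraMap, R.algebraMap_mem_iff] at h

theorem GeoBase.pi_smul (g : Γ) {a : K} (ha : a ∈ A) :
    π ⟨g • a, G.smul_mem_A g ha⟩ = π ⟨a, ha⟩ := by
  have h := G.isRed_smul g _ _ (R.isRed_algebraMap ha)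
  rw [G.smul_algebraMap] at h
  exact (algebraMap k Fk).injective ((R.isRed_algebraMap (G.smul_mem_A g ha)).unique h)

theorem GeoBase.ev_smul (g : Γ) (P : Place K F) {f : F} (h : 0 ≤ P.ord f) :
    ev (ρ g • P) (ρ g • f) = g • ev P f := by
  rw [FFM.ev_smul _ P h, G.base]

theorem GeoBase.rd_smul (g : Γ) {f : F} (hf : f ∈ R.O) : R.rd (ρ g • f) = R.rd f :=
  (G.isRed_smul g _ _ (R.isRed_rd hf)).rd_eq

theorem GeoBase.reg_smul (g : Γ) {Q : Place k Fk} {f : F} (hf : Reg S Q f) :
    Reg S Q (ρ g • f) := by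
  refine ⟨(G.isRed_smul g _ _ (R.isRed_rd hf.1)).mem, fun P hP => ?_⟩
  have h1 := SemilinearAut.ord_smul (ρ g) ((ρ g)⁻¹ • P) f
  rw [smul_inv_smul] at h1
  rw [h1]
  apply hf.2
  rw [← map_inv, G.r_smul, hP]

omit G

/-- invariant local parameters at `Q`. -/
structure LocPar (S : Spec R) (ρ : Γ →* SemilinearAut K F) (Q : Place k Fk) (t : F) : Prop where
  reg : Reg S Q t
  ord_rd : Q.ord (R.rd t) = 1
  inv : ∀ g, ρ g • t = t

namespace LocPar

variable {Q : Place k Fk} {t : F} (ht : LocPar S ρ Q t)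

include ht

theorem rd_ne_zero : R.rd t ≠ 0 := by
  intro h
  have := ht.ord_rd
  rw [h, Place.ord_zero] at this
  omega

theorem ne_zero : t ≠ 0 := (R.isRed_rd ht.reg.1).ne_zero ht.rd_ne_zero

theorem ev_rd : ev Q (R.rd t) = 0 := by
  rw [ev_eq_zero_iff Q ht.reg.ord_rd_nonneg]
  right
  rw [ht.ord_rd]
  norm_num

theorem exists_center : ∃ P₀ : Place K F, S.r P₀ = Q ∧ P₀.ord t = 1 ∧
    ∀ P, S.r P = Q → P ≠ P₀ → P.ord t = 0 := by
  classical
  have h1 := S.ord_eq_sum (R.isRed_rd ht.reg.1) ht.rd_ne_zero Q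
  rw [ht.ord_rd] at h1
  set T := {P ∈ (FF.divOf (K := K) t).support | S.r P = Q} with hT
  have hpos : ∀ P ∈ T, 1 ≤ P.ord t := by
    intro P hP
    rw [hT, Finset.mem_filter, Finsupp.mem_support_iff] at hP
    have h2 := ht.reg.2 P hP.2
    have h3 : P.ord t ≠ 0 := hP.1
    omega
  have hne : T.Nonempty := by
    by_contra hcon
    rw [Finset.not_nonempty_iff_eq_empty] at hcon
    rw [hcon, Finset.sum_empty] at h1
    omega
  obtain ⟨P₀, hP₀⟩ := hne
  have h2 := Finset.add_sum_erase T (fun P => P.ord t) hP₀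
  have h3 : 0 ≤ ∑ P ∈ T.erase P₀, P.ord t := Finset.sum_nonneg fun P hP => by
    have := hpos P (Finset.mem_of_mem_erase hP)
    omega
  have h4 := hpos P₀ hP₀
  have hP₀' := hP₀
  rw [hT, Finset.mem_filter] at hP₀'
  refine ⟨P₀, hP₀'.2, by omega, fun P hP hne => ?_⟩
  by_contra h0
  have hPT : P ∈ T.erase P₀ := by
    rw [Finset.mem_erase, hT, Finset.mem_filter, Finsupp.mem_support_iff]
    exact ⟨hne, h0, hP⟩
  have h5 := Finset.single_le_sum (f := fun P : Place K F => P.ord t) (fun P' hP' => by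
    have := hpos P' (Finset.mem_of_mem_erase hP')
    omega) hPT
  have h6 := hpos P (Finset.mem_of_mem_erase hPT)
  omega

/-- the centre of the disc. -/
noncomputable def center : Place K F := ht.exists_center.choose

theorem r_center : S.r ht.center = Q := ht.exists_center.choose_spec.1

theorem ord_center : ht.center.ord t = 1 := ht.exists_center.choose_spec.2.1

theorem ord_eq_zero {P : Place K F} (hP : S.r P = Q) (hne : P ≠ ht.center) : P.ord t = 0 :=
  ht.exists_center.choose_spec.2.2 P hP hne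

theorem ev_mem_nonunits {P : Place K F} (hP : S.r P = Q) : ev P t ∈ A.nonunits :=
  ht.reg.ev_mem_nonunits hP ht.ev_rd

theorem ev_center : ev ht.center t = 0 := by
  rw [ev_eq_zero_iff _ (by rw [ht.ord_center]; norm_num)]
  right
  rw [ht.ord_center]
  norm_num

/-- the local parameter separates the points of the disc. -/
theorem eq_of_ev_eq {P P' : Place K F} (hP : S.r P = Q) (hP' : S.r P' = Q)
    (h : ev P t = ev P' t) : P = P' := by
  by_contra hne
  have haA := ht.reg.mem_A hP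
  have h1 := (R.isRed_rd ht.reg.1).sub (R.isRed_algebraMap haA)
  have hπ : π ⟨ev P t, haA⟩ = 0 := by rw [ht.reg.pi_ev hP, ht.ev_rd]
  rw [hπ, map_zero, sub_zero] at h1
  have h2 := S.add_ord_le h1 ht.rd_ne_zero Q
    (fun P'' hP'' => ord_sub_algebraMap_nonneg P'' (ht.reg.2 P'' hP'') _) hP hP' (Ne.symm hne)
  have h3 : t - algebraMap K F (ev P t) ≠ 0 := h1.ne_zero ht.rd_ne_zero
  have h4 := (ev_spec P (ht.reg.2 P hP)).resolve_left h3
  have h5 := ev_spec P' (ht.reg.2 P' hP')
  rw [← h] at h5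
  have h6 := h5.resolve_left h3
  rw [ht.ord_rd] at h2
  omega

include G in
theorem smul_center (g : Γ) : ρ g • ht.center = ht.center := by
  by_contra hne
  have h1 := ht.ord_eq_zero (by rw [G.r_smul, ht.r_center]) hne
  have h2 := SemilinearAut.ord_smul (ρ g) ht.center t
  rw [ht.inv g, h1, ht.ord_center] at h2
  omega

/-- division by the local parameter. -/
theorem reg_div {f : F} (hf : Reg S Q f) (h0 : ev ht.center f = 0) : Reg S Q (f / t) := by
  refine ⟨?_, fun P hP => ?_⟩
  · exact ((R.isRed_rd hf.1).div (R.isRed_rd ht.reg.1) ht.rd_ne_zero).mem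
  · rcases eq_or_ne f 0 with rfl | hf0
    · simp
    rw [div_eq_mul_inv, P.ord_mul hf0 (inv_ne_zero ht.ne_zero), P.ord_inv]
    have h1 := hf.2 P hP
    by_cases hPc : P = ht.center
    · rw [hPc] at h1 ⊢
      have h2 := ((ev_eq_zero_iff _ h1).mp h0).resolve_left hf0
      rw [ht.ord_center]
      omega
    · rw [ht.ord_eq_zero hP hPc]
      omega

/-- the Taylor remainders of `f`. -/
noncomputable def rem (f : F) : ℕ → F
  | 0 => f
  | n + 1 => (rem f n - algebraMap K F (ev ht.center (rem f n))) / t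

/-- the Taylor coefficients of `f`. -/
noncomputable def coef (f : F) (n : ℕ) : K := ev ht.center (ht.rem f n)

theorem rem_zero (f : F) : ht.rem f 0 = f := rfl

theorem rem_succ (f : F) (n : ℕ) :
    ht.rem f (n + 1) = (ht.rem f n - algebraMap K F (ht.coef f n)) / t := rfl

theorem reg_rem {f : F} (hf : Reg S Q f) (n : ℕ) : Reg S Q (ht.rem f n) := by
  induction n with
  | zero => exact hf
  | succ n ih =>
    rw [rem_succ]
    have h1 := Reg.const (S := S) (Q := Q) (ih.mem_A ht.r_center)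
    apply ht.reg_div (ih.sub h1)
    rw [ev_sub _ (ih.2 _ ht.r_center) (h1.2 _ ht.r_center), ev_algebraMap]
    exact sub_self _

theorem coef_mem {f : F} (hf : Reg S Q f) (n : ℕ) : ht.coef f n ∈ A :=
  (ht.reg_rem hf n).mem_A ht.r_center

include G in
theorem rem_inv {f : F} (hf : Reg S Q f) (hinv : ∀ g, ρ g • f = f) (n : ℕ) (g : Γ) :
    ρ g • ht.rem f n = ht.rem f n := by
  induction n generalizing g with
  | zero => exact hinv g
  | succ n ih =>
    have h1 : g • ht.coef f n = ht.coef f n := by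
      unfold coef
      rw [← G.ev_smul g _ ((ht.reg_rem hf n).2 _ ht.r_center), ht.smul_center G, ih g]
    rw [rem_succ, div_eq_mul_inv, smul_mul', smul_inv'', smul_sub, ih g, G.smul_algebraMap, h1,
      ht.inv g]

include G in
theorem coef_isInv {f : F} (hf : Reg S Q f) (hinv : ∀ g, ρ g • f = f) (n : ℕ) :
    IsInv Γ A (ht.coef f n) := by
  refine ⟨ht.coef_mem hf n, fun g => ?_⟩
  unfold coef
  rw [← G.ev_smul g _ ((ht.reg_rem hf n).2 _ ht.r_center), ht.smul_center G,
    ht.rem_inv G hf hinv n g]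

theorem taylor {f : F} (n : ℕ) : f = ∑ l ∈ Finset.range n, algebraMap K F (ht.coef f l) * t ^ l
    + t ^ n * ht.rem f n := by
  induction n with
  | zero => simp [rem_zero]
  | succ n ih =>
    rw [Finset.sum_range_succ, rem_succ]
    conv_lhs => rw [ih]
    have := ht.ne_zero
    field_simp
    ring

theorem ev_taylor {f : F} (hf : Reg S Q f) {P : Place K F} (hP : S.r P = Q) (n : ℕ) :
    ev P f = ∑ l ∈ Finset.range n, ht.coef f l * ev P t ^ l + ev P t ^ n * ev P (ht.rem f n) := by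
  conv_lhs => rw [ht.taylor (f := f) n]
  have h0 := ht.reg.2 P hP
  have h1 : ∀ l, 0 ≤ P.ord (algebraMap K F (ht.coef f l) * t ^ l) := fun l =>
    ord_mul_nonneg P (by rw [ord_algebraMap]) (ord_pow_nonneg P h0 l)
  have h2 := (ht.reg_rem hf n).2 P hP
  rw [ev_add P (ord_sum_nonneg P _ _ fun l _ => h1 l) (ord_mul_nonneg P (ord_pow_nonneg P h0 n) h2),
    ev_sum P _ _ fun l _ => h1 l, ev_mul P (ord_pow_nonneg P h0 n) h2, ev_pow P h0]
  congr 1
  refine Finset.sum_congr rfl fun l _ => ?_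
  rw [ev_mul P (by rw [ord_algebraMap]) (ord_pow_nonneg P h0 l), ev_pow P h0, ev_algebraMap]

/-- linearity of the coefficients -/
theorem coef_zero (f : F) : ht.coef f 0 = ev ht.center f := rfl

end LocPar

namespace LocPar

variable {Q : Place k Fk} {t : F} (ht : LocPar S ρ Q t)

include ht

theorem reg_lin {J : Type*} [Fintype J] {c : J → K} (hc : ∀ j, c j ∈ A) {v : J → F}
    (hv : ∀ j, Reg S Q (v j)) : Reg S Q (∑ j, algebraMap K F (c j) * v j) :=
  Reg.sum _ _ fun j _ => (Reg.const (hc j)).mul (hv j)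

theorem ev_lin {J : Type*} [Fintype J] {c : J → K} {v : J → F} {P : Place K F}
    (hv : ∀ j, 0 ≤ P.ord (v j)) :
    ev P (∑ j, algebraMap K F (c j) * v j) = ∑ j, c j * ev P (v j) := by
  rw [ev_sum P _ _ fun j _ => ord_mul_nonneg P (by rw [ord_algebraMap]) (hv j)]
  refine Finset.sum_congr rfl fun j _ => ?_
  rw [ev_mul P (by rw [ord_algebraMap]) (hv j), ev_algebraMap]

theorem rem_lin {J : Type*} [Fintype J] {c : J → K} {v : J → F}
    (hv : ∀ j, Reg S Q (v j)) (n : ℕ) :
    ht.rem (∑ j, algebraMap K F (c j) * v j) n = ∑ j, algebraMap K F (c j) * ht.rem (v j) n := by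
  induction n with
  | zero => rfl
  | succ n ih =>
    rw [rem_succ]
    unfold coef
    rw [ih, ht.ev_lin fun j => (ht.reg_rem (hv j) n).2 _ ht.r_center, map_sum,
      ← Finset.sum_sub_distrib, Finset.sum_div]
    refine Finset.sum_congr rfl fun j _ => ?_
    rw [rem_succ, map_mul]
    unfold coef
    ring

theorem coef_lin {J : Type*} [Fintype J] {c : J → K} {v : J → F}
    (hv : ∀ j, Reg S Q (v j)) (n : ℕ) :
    ht.coef (∑ j, algebraMap K F (c j) * v j) n = ∑ j, c j * ht.coef (v j) n := by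
  unfold coef
  rw [ht.rem_lin hv, ht.ev_lin fun j => (ht.reg_rem (hv j) n).2 _ ht.r_center]

/-- simple zeros of the reduction: the second coefficient is a unit -/
theorem coef_one_unit {f : F} (hf : Reg S Q f) (h1 : Q.ord (R.rd f) = 1) :
    ht.coef f 0 ∈ A.nonunits ∧ ht.coef f 1 ≠ 0 ∧ (ht.coef f 1)⁻¹ ∈ A := by
  have hz : R.rd f ≠ 0 := by
    intro h
    rw [h, Place.ord_zero] at h1
    omega
  have hev : ev Q (R.rd f) = 0 := by
    rw [ev_eq_zero_iff Q hf.ord_rd_nonneg]
    right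
    rw [h1]
    norm_num
  have h0 : ht.coef f 0 ∈ A.nonunits := hf.ev_mem_nonunits ht.r_center hev
  have h0A : ht.coef f 0 ∈ A := mem_of_mem_nonunits h0
  have h0π : π ⟨ht.coef f 0, h0A⟩ = 0 := (mem_nonunits_iff_pi R h0A).mp h0
  have hreg := ht.reg_rem hf 1
  have hA := ht.coef_mem hf 1
  have hred : R.IsRed (ht.rem f 1) (R.rd f / R.rd t) := by
    rw [rem_succ, rem_zero]
    have h3 := ((R.isRed_rd hf.1).sub (R.isRed_algebraMap h0A)).div (R.isRed_rd ht.reg.1)
      ht.rd_ne_zero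
    rwa [h0π, map_zero, sub_zero] at h3
  have hne : ev Q (R.rd (ht.rem f 1)) ≠ 0 := by
    rw [ev_ne_zero_iff Q hreg.ord_rd_nonneg, hred.rd_eq]
    refine ⟨div_ne_zero hz ht.rd_ne_zero, ?_⟩
    rw [div_eq_mul_inv, Q.ord_mul hz (inv_ne_zero ht.rd_ne_zero), Q.ord_inv, h1, ht.ord_rd]
    norm_num
  have hπ1 : π ⟨ht.coef f 1, hA⟩ ≠ 0 := by
    have := hreg.pi_ev ht.r_center
    unfold coef
    rwa [this]
  refine ⟨h0, ?_, ?_⟩
  · intro h
    apply hπ1
    have : (⟨ht.coef f 1, hA⟩ : A) = 0 := Subtype.ext h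
    rw [this, map_zero]
  · rw [ne_eq, R.pi_eq_zero_iff, not_not] at hπ1
    obtain ⟨b, hb⟩ := hπ1.exists_right_inv
    have hb' : ht.coef f 1 * (b : K) = 1 := congrArg Subtype.val hb
    rw [inv_eq_of_mul_eq_one_right hb']
    exact b.2

end LocPar

section Family

variable {X : Type*} [MulAction Γ X] [Fintype X] {T : Subring (X → K)}
  {Q : Place k Fk} {t : F} (ht : LocPar S ρ Q t) (P : X → Place K F)

include G in
theorem isEquiv_ev (hP : ∀ (g : Γ) (x : X), P (g • x) = ρ g • P x) {f : F}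
    (hf : ∀ x, 0 ≤ (P x).ord f) (hinv : ∀ g, ρ g • f = f) : IsEquiv Γ (fun x => ev (P x) f) := by
  intro g x
  change ev (P (g • x)) f = g • ev (P x) f
  rw [hP g x, ← G.ev_smul g (P x) (hf x), hinv g]

include G ht in
/-- values of regular functions at a `T`-family of points belong to `T`. -/
theorem ev_mem (hT : FunOrder Γ A T) (hr : ∀ x, S.r (P x) = Q)
    (hP : ∀ (g : Γ) (x : X), P (g • x) = ρ g • P x) (hs : (fun x => ev (P x) t) ∈ T)
    {f : F} (hf : Reg S Q f) (hinv : ∀ g, ρ g • f = f) : (fun x => ev (P x) f) ∈ T := by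
  obtain ⟨a, ha, had⟩ := exists_small_dvd (A := A) (Finset.univ : Finset X)
    (fun x => ev (P x) t) (fun x _ => ht.ev_mem_nonunits (hr x))
  refine hT.mem_of_approx G.rankOne (isEquiv_ev G P hP (fun x => hf.2 _ (hr x)) hinv) ha fun n => ?_
  refine ⟨∑ l ∈ Finset.range n, (fun _ : X => ht.coef f l) * (fun x => ev (P x) t) ^ l,
    sum_mem fun l _ => mul_mem (hT.const _ (ht.coef_isInv G hf hinv l)) (pow_mem hs l),
    fun x => ?_⟩
  have h1 := ht.ev_taylor hf (hr x) n
  have h2 : ev (P x) f - (∑ l ∈ Finset.range n, (fun _ : X => ht.coef f l) *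
      (fun x => ev (P x) t) ^ l) x = ev (P x) t ^ n * ev (P x) (ht.rem f n) := by
    rw [h1, Finset.sum_apply]
    simp only [Pi.mul_apply, Pi.pow_apply]
    ring
  rw [h2]
  exact ((had x (Finset.mem_univ x)).pow n).mul_right ((ht.reg_rem hf n).mem_A (hr x))

include G ht in
/-- **Root lemma**: the coordinate of a simple zero of a `T`-family of functions is in `T`. -/
theorem root_mem (hT : FunOrder Γ A T) (hr : ∀ x, S.r (P x) = Q)
    (hP : ∀ (g : Γ) (x : X), P (g • x) = ρ g • P x)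
    {J : Type*} [Fintype J] (c : J → X → K) (hc : ∀ j, c j ∈ T) (v : J → F)
    (hv : ∀ j, Reg S Q (v j)) (hinv : ∀ j g, ρ g • v j = v j)
    (hzero : ∀ x, ev (P x) (∑ j, algebraMap K F (c j x) * v j) = 0)
    (hred : ∀ x, Q.ord (R.rd (∑ j, algebraMap K F (c j x) * v j)) = 1) :
    (fun x => ev (P x) t) ∈ T := by
  have hcA : ∀ j x, c j x ∈ A := fun j x => hT.mem_A _ (hc j) x
  have hreg : ∀ x, Reg S Q (∑ j, algebraMap K F (c j x) * v j) := fun x =>
    ht.reg_lin (fun j => hcA j x) hv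
  refine hT.newton G.rankOne (isEquiv_ev G P hP (fun x => ht.reg.2 _ (hr x)) ht.inv)
    (fun x => ht.ev_mem_nonunits (hr x))
    (fun l x => ht.coef (∑ j, algebraMap K F (c j x) * v j) l) (fun l => ?_)
    (fun x => (ht.coef_one_unit (hreg x) (hred x)).1)
    (fun x => (ht.coef_one_unit (hreg x) (hred x)).2.1)
    (fun x => (ht.coef_one_unit (hreg x) (hred x)).2.2) (fun n => ?_)
  · have h1 : (fun x => ht.coef (∑ j, algebraMap K F (c j x) * v j) l) =
        ∑ j, c j * (fun _ : X => ht.coef (v j) l) := by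
      funext x
      rw [ht.coef_lin hv, Finset.sum_apply]
      rfl
    rw [h1]
    exact sum_mem fun j _ => mul_mem (hc j) (hT.const _ (ht.coef_isInv G (hv j) (hinv j) l))
  · refine ⟨fun x => ev (P x) (ht.rem (∑ j, algebraMap K F (c j x) * v j) n),
      fun x => (ht.reg_rem (hreg x) n).mem_A (hr x), fun x => ?_⟩
    rw [← ht.ev_taylor (hreg x) (hr x) n]
    exact hzero x

end Family

end Fermat.Agent.FFM
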