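import Fermat.Agent.FFM.Cusp
import Fermat.Agent.FFM.SmulRed
import Fermat.Agent.FFM.Arith
import Fermat.Agent.FFM.Main
import Fermat.Agent.Red.ChartN
import Fermat.Agent.Red.GenusEq

/-!
# The reduction of `X₀(N)` and the action of the decomposition group
-/

set_option autoImplicit false
set_option linter.unusedSectionVars false
set_option linter.style.haveILetI false

open AlgebraicCurve Fermat.Agent.FF Fermat.Agent.RR Fermat.Agent.Red ModularCurve

noncomputable section

namespace Fermat.Agent.FFM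

section Map

variable {K k : Type*} [Field K] [Field k] {A : ValuationSubring K} {π : A →+* k}

theorem gRed_map {gK : K →+* K} {gk : k →+* k} (hgA : ∀ a : A, gK a ∈ A)
    (hg : ∀ a : A, π ⟨gK a, hgA a⟩ = gk (π a)) {f : LaurentSeries K} {z : LaurentSeries k}
    (h : GRed π f z) : GRed π (coeffMap gK f) (coeffMap gk z) := by
  let gA : A →+* A := (gK.comp A.subtype).codRestrict A.toSubring hgA
  have h1 : ∀ y : LaurentSeries A, iotaA A (coeffMap gA y) = coeffMap gK (iotaA A y) := by
    intro y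
    ext n
    simp only [coeffMap_coeff]
    rfl
  have h2 : ∀ y : LaurentSeries A, rhoA π (coeffMap gA y) = coeffMap gk (rhoA π y) := by
    intro y
    ext n
    simp only [coeffMap_coeff]
    exact hg _
  obtain ⟨a, b, hb, hfa, hza⟩ := h
  refine ⟨coeffMap gA a, coeffMap gA b, ?_, ?_, ?_⟩
  · rw [h2]
    intro h0
    exact hb (coeffMap_injective' gk gk.injective (by rw [h0, map_zero]))
  · rw [h1, h1, ← hfa, map_mul]
  · rw [h2, h2, ← hza, map_mul]

end Map

section FullAut

variable {k : Type*} [Field k] (N : ℕ)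

theorem coeffMap_mem_fullC (g : k →+* k) {z : LaurentSeries k}
    (hz : z ∈ modularFunctionFieldFullC k N) : coeffMap g z ∈ modularFunctionFieldFullC k N := by
  unfold modularFunctionFieldFullC at hz ⊢
  induction hz using IntermediateField.adjoin_induction with
  | mem x hx =>
    obtain ⟨d, hd, hdN, rfl⟩ := hx
    apply IntermediateField.subset_adjoin
    exact ⟨d, hd, hdN, by rw [coeffMap_qExpand, coeffMap_jqModC]⟩
  | algebraMap x =>
    rw [coeffMap_algebraMap]
    exact IntermediateField.algebraMap_mem _ _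
  | add x y _ _ hx hy => rw [map_add]; exact add_mem hx hy
  | inv x _ hx => rw [map_inv₀]; exact inv_mem hx
  | mul x y _ _ hx hy => rw [map_mul]; exact mul_mem hx hy

/-- the coefficientwise action of an automorphism of `k` on the function field. -/
def fullRingAut (g : k ≃+* k) : modularFunctionFieldFullC k N ≃+* modularFunctionFieldFullC k N where
  toFun z := ⟨coeffMap (g : k →+* k) z, coeffMap_mem_fullC N _ z.2⟩
  invFun z := ⟨coeffMap (g.symm : k →+* k) z, coeffMap_mem_fullC N _ z.2⟩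
  left_inv z := Subtype.ext (by
    ext n
    simp only [coeffMap_coeff]
    exact g.symm_apply_apply _)
  right_inv z := Subtype.ext (by
    ext n
    simp only [coeffMap_coeff]
    exact g.apply_symm_apply _)
  map_mul' x y := Subtype.ext (map_mul (coeffMap (g : k →+* k)) (x : LaurentSeries k) y)
  map_add' x y := Subtype.ext (map_add (coeffMap (g : k →+* k)) (x : LaurentSeries k) y)

/-- the coefficientwise action as a semilinear automorphism. -/
def fullAut (g : k ≃+* k) : SemilinearAut k (modularFunctionFieldFullC k N) :=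
  ⟨(fullRingAut N g, g), fun a => Subtype.ext (coeffMap_algebraMap (g : k →+* k) a)⟩

theorem coe_fullAut_smul (g : k ≃+* k) (z : modularFunctionFieldFullC k N) :
    ((fullAut N g • z : modularFunctionFieldFullC k N) : LaurentSeries k) =
      coeffMap (g : k →+* k) z := rfl

theorem coe_fullAut_inv_smul (g : k ≃+* k) (z : modularFunctionFieldFullC k N) :
    (((fullAut N g)⁻¹ • z : modularFunctionFieldFullC k N) : LaurentSeries k) =
      coeffMap (g.symm : k →+* k) z := rfl

theorem fullAut_smul_xj [NeZero N] (g : k ≃+* k) : fullAut N g • RedQ.xj k N = RedQ.xj k N := by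
  apply Subtype.ext
  rw [coe_fullAut_smul]
  exact coeffMap_jqModC _

end FullAut

section XZero

local notation "Qb" => AlgebraicClosure ℚ
local notation "GalQ" => (AlgebraicClosure ℚ ≃ₐ[ℚ] AlgebraicClosure ℚ)

variable {k : Type*} [Field k] {A : ValuationSubring (AlgebraicClosure ℚ)} {π : A →+* k}
  {ℓ : ℕ} [hℓ : Fact ℓ.Prime] (N : ℕ) [NeZero N]

/-- the Galois action on the function field of `X₀(N)` -/
abbrev galX : GalQ →* SemilinearAut Qb (modularFunctionFieldBar N) :=
  arithmeticGalois (modularFunctionFieldFull N)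

theorem galX_smul_coeff (g : GalQ) (f : modularFunctionFieldBar N) (n : ℤ) :
    ((galX N g • f : modularFunctionFieldBar N) : LaurentSeries Qb).coeff n =
      g • (f : LaurentSeries Qb).coeff n := by
  rw [coe_arithmeticGalois_smul, coeffMap_coeff]
  rfl

theorem galX_smul_jB (g : GalQ) : galX N g • jB N = jB N := by
  apply Subtype.ext
  rw [coe_arithmeticGalois_smul]
  exact coeffMap_jqModC _

variable (hA : A.LiesOverPrime ℓ) (hπ : ∀ a : A, π a = 0 ↔ ¬ IsUnit a)
  (hs : Function.Surjective π) (hN : ¬ ℓ ∣ N)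

theorem qset_redX : QSet (redX N hA hπ hs hN) (jB N) (RedQ.xj k N) (jqModC A) := by
  refine ⟨fun f z => isRed_redX, ?_, ?_, ?_, ?_⟩
  · rw [iotaA, coeffMap_jqModC]; rfl
  · rw [rhoA, coeffMap_jqModC]; rfl
  · have := coeff_jqModC_pow_self A 1
    rwa [pow_one] at this
  · intro n hn
    have := coeff_jqModC_pow_of_lt A (b := 1) (m := n) (by simpa using hn)
    rwa [pow_one] at this

variable {N} [IsAlgClosed k] [IsFnField k (modularFunctionFieldFullC k N)]
  [IsFnField (AlgebraicClosure ℚ) (modularFunctionFieldBar N)]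

/-- elements of the decomposition group act compatibly with the reduction. -/
theorem compatAut_redX {σ : GalQ} (hσ : σ ∈ A.decompositionSubgroup ℚ) {g : k ≃+* k}
    (hg : ∀ (a : Qb) (ha : a ∈ A), π ⟨σ a, (Frob.apply_mem_iff hσ).2 ha⟩ = g (π ⟨a, ha⟩)) :
    CompatAut (redX N hA hπ hs hN) (galX N σ) (fullAut N g) := by
  constructor
  · intro f z h
    rw [isRed_redX] at h ⊢
    rw [coe_arithmeticGalois_smul, coe_fullAut_smul]
    exact gRed_map (fun a => (Frob.apply_mem_iff hσ).2 a.2) (fun a => hg a a.2) h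
  · intro f z h
    rw [isRed_redX] at h ⊢
    rw [← map_inv, coe_arithmeticGalois_smul, coe_fullAut_inv_smul]
    have hσ' := inv_mem hσ
    refine gRed_map (fun a => (Frob.apply_mem_iff hσ').2 a.2) (fun a => ?_) h
    have ha' : σ⁻¹ (a : Qb) ∈ A := (Frob.apply_mem_iff hσ').2 a.2
    have h1 := hg _ ha'
    have h2 : (⟨σ (σ⁻¹ (a : Qb)), (Frob.apply_mem_iff hσ).2 ha'⟩ : A) = a :=
      Subtype.ext (σ.apply_symm_apply a)
    rw [h2] at h1
    change π ⟨σ⁻¹ (a : Qb), ha'⟩ = g.symm (π a)
    rw [h1, RingEquiv.symm_apply_apply]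

theorem specX_smul {σ : GalQ} (hσ : σ ∈ A.decompositionSubgroup ℚ) {g : k ≃+* k}
    (hg : ∀ (a : Qb) (ha : a ∈ A), π ⟨σ a, (Frob.apply_mem_iff hσ).2 ha⟩ = g (π ⟨a, ha⟩))
    (P : Place Qb (modularFunctionFieldBar N)) :
    (specX hA hπ hs hN).r (galX N σ • P) = fullAut N g • (specX hA hπ hs hN).r P :=
  (compatAut_redX hA hπ hs hN hσ hg).spec_smul (galX_smul_jB N σ) (fullAut_smul_xj N g)
    (chart_jB hA hπ hs hN) (chart_jB_inv hA hπ hs hN) P

theorem specX_r_iff (P : Place Qb (modularFunctionFieldBar N)) :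
    (specX hA hπ hs hN).r P = infPlace (qset_redX N hA hπ hs hN).order_xb ↔
      Sp (redX N hA hπ hs hN) (jB N)⁻¹ (RedQ.xj k N)⁻¹ P
        (infPlace (qset_redX N hA hπ hs hN).order_xb) := by
  refine spec_eq_iff' (chart_jB hA hπ hs hN) (chart_jB_inv hA hπ hs hN) ?_
  rw [ord_infPlace, (qset_redX N hA hπ hs hN).order_xb]
  norm_num

include hπ in
theorem pi_apply_of_mem_inertia {g : GalQ} (hg : g ∈ A.inertiaSubgroupIn ℚ) (a : Qb) (ha : a ∈ A) :
    π ⟨g a, (Frob.apply_mem_iff ((Frob.mem_inertiaSubgroupIn_iff A g).1 hg).1).2 ha⟩ =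
      (RingEquiv.refl k) (π ⟨a, ha⟩) := by
  have hg' := (Frob.mem_inertiaSubgroupIn_iff A g).1 hg
  have h2 := (pi_eq_zero_iff_mem_nonunits hπ
    (sub_mem ((Frob.apply_mem_iff hg'.1).2 ha) ha)).2 (hg'.2 a ha)
  rw [RingEquiv.refl_apply, ← sub_eq_zero, ← map_sub]
  exact h2

theorem fullAut_refl : fullAut N (RingEquiv.refl k) = 1 := by
  apply Subtype.ext
  apply Prod.ext
  · apply RingEquiv.ext
    intro x
    apply Subtype.ext
    ext n
    change (coeffMap _ (x : LaurentSeries k)).coeff n = (x : LaurentSeries k).coeff n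
    rw [coeffMap_coeff]
    rfl
  · rfl

/-- **the basic compatibilities of the action of inertia** -/
theorem geoBase_X : GeoBase (specX hA hπ hs hN)
    ((galX N).comp (A.inertiaSubgroupIn ℚ).subtype) := by
  refine ⟨fun g a => rfl, fun g f z h => ?_, fun g P => ?_, rankOne_of_liesOverPrime hA⟩
  · have h1 := (compatAut_redX hA hπ hs hN ((Frob.mem_inertiaSubgroupIn_iff A (g : GalQ)).1 g.2).1
      (pi_apply_of_mem_inertia hπ g.2)).isRed f z h
    rw [fullAut_refl, one_smul] at h1
    exact h1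
  · have h1 := specX_smul hA hπ hs hN ((Frob.mem_inertiaSubgroupIn_iff A (g : GalQ)).1 g.2).1
      (pi_apply_of_mem_inertia hπ g.2) P
    rw [fullAut_refl, one_smul] at h1
    exact h1

theorem orth_X (D : Divisor Qb (modularFunctionFieldBar N)) :
    ∃ (r : ℕ) (v : Fin r → modularFunctionFieldBar N) (u : Fin r → modularFunctionFieldFullC k N),
      Orth (redX N hA hπ hs hN) v u ∧ Submodule.span Qb (Set.range v) = riemannRochSpace D := by
  have hx := isCoord_of_isCoord (isCoord_jB hA hπ hs hN)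
  exact hx.exists_orth _ (Module.Finite.iff_fg.mp (finite_riemannRochSpace D))

/-- **the geometry of `X₀(N)` at `ℓ ∤ N`** with the action of inertia. -/
theorem geo_X : Geo (specX hA hπ hs hN) ((galX N).comp (A.inertiaSubgroupIn ℚ).subtype) := by
  have hQ := qset_redX N hA hπ hs hN
  have hr := rankOne_of_liesOverPrime hA
  have hx := (isCoord_of_isCoord (isCoord_jB hA hπ hs hN)).inv
  have hcoe : ∀ (g : A.inertiaSubgroupIn ℚ) (f : modularFunctionFieldBar N) (n : ℤ),
      ((((galX N).comp (A.inertiaSubgroupIn ℚ).subtype) g • f : modularFunctionFieldBar N) :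
        LaurentSeries Qb).coeff n = g • (f : LaurentSeries Qb).coeff n :=
    fun g f n => galX_smul_coeff N (g : GalQ) f n
  have hX : ∀ (g : A.inertiaSubgroupIn ℚ) (n : ℤ),
      g • ((((jqModC A : LaurentSeries A).coeff n : A)) : Qb) = ((jqModC A).coeff n : A) := by
    intro g n
    have h1 : ((((jqModC A : LaurentSeries A).coeff n : A)) : Qb) = (jqModC Qb).coeff n := by
      have := congrArg (fun f : LaurentSeries Qb => f.coeff n) (coeffMap_jqModC A.subtype)
      simp only [coeffMap_coeff] at this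
      exact this
    rw [h1]
    have h2 := congrArg (fun f : LaurentSeries Qb => f.coeff n)
      (coeffMap_jqModC ((g : GalQ) : Qb →+* Qb))
    simp only [coeffMap_coeff] at h2
    exact h2
  have ht := hQ.locPar (specX_r_iff hA hπ hs hN) hcoe hX
  have hC := hQ.coefSys (specX_r_iff hA hπ hs hN) hcoe hX hr hx
  refine ⟨geoBase_X hA hπ hs hN, exists_lift_inertia hA hπ hs, orth_X hA hπ hs hN,
    fun D hD => orth_inv_of_coef (geoBase_X hA hπ hs hN) (orth_X hA hπ hs hN) ht hC D hD,
    genusFF_redX hA hπ hs hN⟩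

theorem smul_inf_X (g : GalQ) :
    galX N g • infPlace (qset_redX N hA hπ hs hN).order_x =
      infPlace (qset_redX N hA hπ hs hN).order_x :=
  QSet.smul_infPlace (Γ := GalQ) (ρ := galX N) (qset_redX N hA hπ hs hN)
    (fun g f n => galX_smul_coeff N g f n) g

theorem conj_mem_inertia {σ : GalQ} (hσ : σ ∈ A.decompositionSubgroup ℚ) {g : GalQ}
    (hg : g ∈ A.inertiaSubgroupIn ℚ) : σ * g * σ⁻¹ ∈ A.inertiaSubgroupIn ℚ := by
  rw [Frob.mem_inertiaSubgroupIn_iff] at hg ⊢
  refine ⟨mul_mem (mul_mem hσ hg.1) (inv_mem hσ), fun x hx => ?_⟩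
  have h2 : (σ * g * σ⁻¹) x - x = σ (g (σ⁻¹ x) - σ⁻¹ x) := by
    rw [map_sub]
    congr 1
    exact (σ.apply_symm_apply x).symm
  rw [h2, Frob.apply_mem_nonunits_iff hσ]
  exact hg.2 _ ((Frob.apply_mem_iff (inv_mem hσ)).2 hx)

/-- conjugation on the inertia group -/
def conjInertia {σ : GalQ} (hσ : σ ∈ A.decompositionSubgroup ℚ) :
    A.inertiaSubgroupIn ℚ ≃ A.inertiaSubgroupIn ℚ where
  toFun g := ⟨σ * g * σ⁻¹, conj_mem_inertia hσ g.2⟩
  invFun g := ⟨σ⁻¹ * g * σ, by
    have := conj_mem_inertia (inv_mem hσ) g.2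
    rwa [inv_inv] at this⟩
  left_inv g := Subtype.ext (by
    change σ⁻¹ * (σ * (g : GalQ) * σ⁻¹) * σ = g
    group)
  right_inv g := Subtype.ext (by
    change σ * (σ⁻¹ * (g : GalQ) * σ) * σ⁻¹ = g
    group)

/-- elements of the decomposition group are compatible with the geometry. -/
theorem compat_X {σ : GalQ} (hσ : σ ∈ A.decompositionSubgroup ℚ) {g : k ≃+* k}
    (hg : ∀ (a : Qb) (ha : a ∈ A), π ⟨σ a, (Frob.apply_mem_iff hσ).2 ha⟩ = g (π ⟨a, ha⟩)) :
    Compat (specX hA hπ hs hN) ((galX N).comp (A.inertiaSubgroupIn ℚ).subtype) (galX N σ)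
      (fullAut N g) (conjInertia hσ) := by
  refine ⟨(compatAut_redX hA hπ hs hN hσ hg).isRed, specX_smul hA hπ hs hN hσ hg, fun γ => ?_⟩
  change galX N (σ * (γ : GalQ) * σ⁻¹) * galX N σ = galX N σ * galX N (γ : GalQ)
  rw [← map_mul, ← map_mul]
  congr 1
  group

include hA hπ in
theorem pi_frob {σ : GalQ} (hσ : A.IsFrobeniusAt σ ℓ) (a : Qb) (ha : a ∈ A) :
    π ⟨σ a, (Frob.apply_mem_iff ((Frob.isFrobeniusAt_iff A σ ℓ).1 hσ).1).2 ha⟩ = π ⟨a, ha⟩ ^ ℓ := by
  have hσ' := (Frob.isFrobeniusAt_iff A σ ℓ).1 hσ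
  have h1 : a ^ ℓ ∈ A := pow_mem ha ℓ
  have h2 := (pi_eq_zero_iff_mem_nonunits hπ
    (sub_mem ((Frob.apply_mem_iff hσ'.1).2 ha) h1)).2 (hσ'.2 a ha)
  rw [← sub_eq_zero, ← map_pow, ← map_sub]
  exact h2

theorem exists_compat_frob {σ : GalQ} (hσ : A.IsFrobeniusAt σ ℓ) :
    ∃ (g : k ≃+* k), Compat (specX hA hπ hs hN)
      ((galX N).comp (A.inertiaSubgroupIn ℚ).subtype) (galX N σ)
      (fullAut N g) (conjInertia ((Frob.isFrobeniusAt_iff A σ ℓ).1 hσ).1) := by
  haveI := charP_of_liesOverPrime hA hπ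
  haveI : ExpChar k ℓ := ExpChar.prime hℓ.out
  refine ⟨frobeniusEquiv k ℓ, compat_X hA hπ hs hN _ fun a ha => ?_⟩
  rw [frobeniusEquiv_apply, frobenius_def]
  exact pi_frob hA hπ hσ a ha

end XZero

end Fermat.Agent.FFM
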